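import Fermat.Agent.RT.Assembly.Diamond
import Mathlib.LinearAlgebra.Matrix.ToLin
import Mathlib.Data.Matrix.Composition
import Mathlib.RingTheory.MatrixAlgebra
import Mathlib.RingTheory.Flat.TorsionFree
import Mathlib.RingTheory.Ideal.AssociatedPrime.Localization
import Mathlib.RingTheory.Artinian.Module

/-!
# Eigenvectors of the points of commutative algebras of matrices over a group algebra

`B` is a commutative algebra of matrices over `Λ = O[G]` containing `Λ`; a homomorphism
`f : B → V` to a domain of characteristic zero has an eigenvector after specialising `Λ` by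
`f`.
-/

set_option autoImplicit false
set_option linter.style.haveILetI false

noncomputable section

open scoped TensorProduct

namespace Fermat.Agent.RT.Assembly.Eigen

/-- A character of a commutative algebra of matrices over a field has an eigenvector. -/
theorem exists_eigenvector {K : Type} [Field K] {ι : Type} [Fintype ι] [DecidableEq ι]
    {C : Type} [CommRing C] [Algebra K C] (emb : C →ₐ[K] Matrix ι ι K)
    (hemb : Function.Injective emb) (φ : C →ₐ[K] K) :
    ∃ v : ι → K, v ≠ 0 ∧ ∀ c, (emb c).mulVec v = φ c • v := by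
  classical
  haveI : Module.Finite K C := FiniteDimensional.of_injective emb.toLinearMap hemb
  haveI : IsArtinianRing C := IsArtinianRing.of_finite K C
  haveI : IsNoetherianRing C := IsNoetherianRing.of_finite K C
  haveI : Nontrivial C := φ.toRingHom.domain_nontrivial
  have hmax : (RingHom.ker φ).IsMaximal :=
    RingHom.ker_isMaximal_of_surjective _ fun y => ⟨algebraMap K C y, φ.commutes y⟩
  have hmin : RingHom.ker φ ∈ (Module.annihilator C C).minimalPrimes := by
    refine ⟨⟨hmax.isPrime, fun x hx => ?_⟩, fun Q hQ hle => ?_⟩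
    · have h0 := Module.mem_annihilator.1 hx 1
      rw [smul_eq_mul, mul_one] at h0
      rw [h0]
      exact zero_mem _
    · haveI := hQ.1
      exact ((IsArtinianRing.isMaximal_of_isPrime Q).eq_of_le hmax.ne_top hle).ge
  obtain ⟨-, x, hx⟩ := Submodule.isAssociatedPrime_iff.1
    (Module.associatedPrimes.minimalPrimes_annihilator_subset_associatedPrimes C C hmin)
  have hx0 : x ≠ 0 := by
    rintro rfl
    refine hmax.ne_top (hx.trans ?_)
    simp
  obtain ⟨i, j, hij⟩ : ∃ i j, emb x i j ≠ 0 := by
    by_contra! h
    exact hx0 (hemb ((Matrix.ext h).trans (map_zero emb).symm))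
  refine ⟨(emb x).mulVec (Pi.single j 1), fun h0 => hij ?_, fun c => ?_⟩
  · have := congrFun h0 i
    simpa [Matrix.mulVec_single] using this
  · have hk : c - algebraMap K C (φ c) ∈ RingHom.ker φ := by simp
    rw [hx, Submodule.mem_colon_singleton, smul_eq_mul, Submodule.mem_bot, sub_mul,
      sub_eq_zero] at hk
    rw [Matrix.mulVec_mulVec, ← map_mul, hk, map_mul, AlgHom.commutes, ← Matrix.mulVec_mulVec,
      Matrix.algebraMap_eq_diagonal]
    ext k
    simp [Matrix.mulVec_diagonal]

variable {O : Type} [CommRing O] [IsDomain O] [IsDiscreteValuationRing O]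

/-- A point of an algebra of matrices over `O` has an eigenvector. -/
theorem exists_eigenvector_of_point {K : Type} [Field K] [Algebra O K]
    (hinj : Function.Injective (algebraMap O K)) {ι : Type} [Fintype ι] [DecidableEq ι]
    {B : Type} [CommRing B] [Algebra O B] (emb : B →ₐ[O] Matrix ι ι O)
    (hemb : Function.Injective emb) (f : B →ₐ[O] K) :
    ∃ v : ι → K, v ≠ 0 ∧ ∀ b, ((emb b).map (algebraMap O K)).mulVec v = f b • v := by
  haveI : FaithfulSMul O K := (faithfulSMul_iff_algebraMap_injective O K).2 hinj
  haveI : Module.IsTorsionFree O K := inferInstance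
  let E₀ : K ⊗[O] B →ₐ[K] K ⊗[O] Matrix ι ι O := Algebra.TensorProduct.map (AlgHom.id K K) emb
  have hE₀ : Function.Injective E₀ :=
    Module.Flat.lTensor_preserves_injective_linearMap (M := K) emb.toLinearMap hemb
  let e : K ⊗[O] Matrix ι ι O →ₐ[K] Matrix ι ι K :=
    Algebra.TensorProduct.lift (Algebra.ofId K (Matrix ι ι K)) (Algebra.ofId O K).mapMatrix
      fun x y => Algebra.commutes x _
  have hlift : ∀ (a : K) (M : Matrix ι ι O), e (a ⊗ₜ[O] M) = a • M.map (algebraMap O K) := by
    intro a M
    refine (Algebra.TensorProduct.lift_tmul _ _ _ a M).trans ?_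
    rw [Algebra.smul_def]
    rfl
  have he : ∀ z, e z = (matrixEquivTensor ι O K).symm z := by
    intro z
    induction z using TensorProduct.induction_on with
    | zero => simp
    | add a b ha hb => rw [map_add, map_add, ha, hb]
    | tmul a M =>
      rw [hlift, matrixEquivTensor_apply_symm]
  let E : K ⊗[O] B →ₐ[K] Matrix ι ι K := e.comp E₀
  have hE : Function.Injective E := fun a b h => hE₀ ((matrixEquivTensor ι O K).symm.injective (by
    rw [← he, ← he]
    exact h))
  let φ : K ⊗[O] B →ₐ[K] K :=
    Algebra.TensorProduct.lift (AlgHom.id K K) f fun x y => Commute.all _ _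
  obtain ⟨v, hv, h⟩ := exists_eigenvector E hE φ
  refine ⟨v, hv, fun b => ?_⟩
  have h1 := h (1 ⊗ₜ b)
  have hE1 : E (1 ⊗ₜ b) = (emb b).map (algebraMap O K) := by
    show e (E₀ (1 ⊗ₜ b)) = _
    rw [show E₀ (1 ⊗ₜ b) = 1 ⊗ₜ[O] emb b from Algebra.TensorProduct.map_tmul _ _ _ _, hlift,
      one_smul]
  have hφ1 : φ (1 ⊗ₜ b) = f b := by
    refine (Algebra.TensorProduct.lift_tmul _ _ _ _ _).trans ?_
    simp
  rwa [hE1, hφ1] at h1

section GroupAlgebra

variable {G : Type} [CommGroup G] [Fintype G] [DecidableEq G]

variable (O G) in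
/-- The regular representation. -/
def regMat : MonoidAlgebra O G →ₐ[O] Matrix G G O :=
  Algebra.leftMulMatrix (MonoidAlgebra.basis G O)

omit [IsDomain O] [IsDiscreteValuationRing O] in
theorem regMat_apply (x : MonoidAlgebra O G) (g h : G) :
    regMat O G x g h = x.coeff (g * h⁻¹) := by
  rw [regMat, Algebra.leftMulMatrix_eq_repr_mul, MonoidAlgebra.basis_apply]
  show (x * MonoidAlgebra.single h (1 : O)).coeff g = _
  rw [MonoidAlgebra.coeff_mul_single_apply, mul_one]

variable {ι : Type} [Fintype ι] [DecidableEq ι]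

omit [IsDomain O] [IsDiscreteValuationRing O] [DecidableEq G] in
/-- A homomorphism out of the group algebra is a sum over the coefficients. -/
theorem algHom_eq_sum {V : Type} [CommRing V] [Algebra O V] (ξ : MonoidAlgebra O G →ₐ[O] V)
    (x : MonoidAlgebra O G) :
    ξ x = ∑ g : G, algebraMap O V (x.coeff g) * ξ (MonoidAlgebra.single g 1) := by
  have hx : x = ∑ g : G, x.coeff g • MonoidAlgebra.single g (1 : O) := by
    conv_lhs => rw [← (MonoidAlgebra.basis G O).sum_repr x]
    refine Finset.sum_congr rfl fun g _ => ?_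
    rw [MonoidAlgebra.basis_apply]
    rfl
  conv_lhs => rw [hx]
  rw [map_sum]
  refine Finset.sum_congr rfl fun g _ => ?_
  rw [map_smul, Algebra.smul_def]

/-- A point of an algebra of matrices over the group algebra has an eigenvector. -/
theorem exists_eigenvector_groupAlgebra {B : Type} [CommRing B] [Algebra O B]
    (emb : B →ₐ[O] Matrix ι ι (MonoidAlgebra O G)) (hemb : Function.Injective emb)
    (lam : MonoidAlgebra O G →ₐ[O] B)
    (hlam : ∀ c, emb (lam c) = Matrix.scalar ι c)
    {V : Type} [CommRing V] [IsDomain V] [Algebra O V] (hinj : Function.Injective (algebraMap O V))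
    (f : B →ₐ[O] V) :
    ∃ w : ι → V, w ≠ 0 ∧ ∀ b, ((emb b).map (f.comp lam)).mulVec w = f b • w := by
  classical
  let K := FractionRing V
  let j : V →+* K := algebraMap V K
  have hj : Function.Injective j := IsFractionRing.injective V K
  let emb' : B →ₐ[O] Matrix (ι × G) (ι × G) O :=
    (Matrix.compAlgEquiv ι G O O).toAlgHom.comp ((regMat O G).mapMatrix.comp emb)
  have hemb' : Function.Injective emb' := by
    show Function.Injective (⇑(Matrix.compAlgEquiv ι G O O) ∘
      ⇑((regMat O G).mapMatrix : Matrix ι ι (MonoidAlgebra O G) →ₐ[O] _) ∘ ⇑emb)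
    refine (Matrix.compAlgEquiv ι G O O).injective.comp (Function.Injective.comp ?_ hemb)
    intro M N h
    exact Matrix.ext fun a b =>
      Algebra.leftMulMatrix_injective _ (congrFun (congrFun h a) b)
  let fK : B →ₐ[O] K := (IsScalarTower.toAlgHom O V K).comp f
  obtain ⟨v, hv, h⟩ := exists_eigenvector_of_point (K := K)
    (by rw [IsScalarTower.algebraMap_eq O V K]; exact hj.comp hinj) emb' hemb' fK
  let ξ : MonoidAlgebra O G →ₐ[O] K := fK.comp lam
  have hmul : ∀ (b : B) (k : ι) (g : G),
      f b • v (k, g) = ∑ l, ∑ h : G, algebraMap O K ((emb b k l).coeff (g * h⁻¹)) * v (l, h) := by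
    intro b k g
    have := congrFun (h b) (k, g)
    rw [Pi.smul_apply] at this
    rw [Algebra.smul_def]
    refine this.symm.trans ?_
    show ∑ x : ι × G, algebraMap O K (emb' b (k, g) x) * v x = _
    rw [Fintype.sum_prod_type]
    refine Finset.sum_congr rfl fun l _ => Finset.sum_congr rfl fun h _ => ?_
    show algebraMap O K (regMat O G (emb b k l) g h) * _ = _
    rw [regMat_apply]
  -- the group elements act by the character
  have hg : ∀ (a : G) (k : ι) (g : G), ξ (MonoidAlgebra.single a 1) * v (k, g) = v (k, a⁻¹ * g) := by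
    intro a k g
    have h1 := hmul (lam (MonoidAlgebra.single a 1)) k g
    rw [hlam, Algebra.smul_def, Finset.sum_eq_single k (fun l _ hl => Finset.sum_eq_zero fun h _ => by
      simp [hl.symm]) (by simp), Finset.sum_eq_single (a⁻¹ * g) (fun h _ hh => by
        have : ¬ a = g * h⁻¹ := fun e => hh (by rw [e]; group)
        simp [this]) (by simp)] at h1
    refine h1.trans ?_
    simp
  have hv1 : ∀ (k : ι) (g : G), v (k, g) = ξ (MonoidAlgebra.single g⁻¹ 1) * v (k, 1) := fun k g => by
    rw [hg, inv_inv, mul_one]
  let w : ι → K := fun k => v (k, 1)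
  have hw : w ≠ 0 := fun h0 => hv (funext fun ⟨k, g⟩ => by
    rw [hv1, show v (k, 1) = w k from rfl, h0, Pi.zero_apply, mul_zero, Pi.zero_apply])
  have heig : ∀ b k, ∑ l, ξ (emb b k l) * w l = j (f b) * w k := by
    intro b k
    have h1 := hmul b k 1
    rw [Algebra.smul_def] at h1
    refine Eq.trans ?_ h1.symm
    refine Finset.sum_congr rfl fun l _ => ?_
    rw [algHom_eq_sum, Finset.sum_mul, ← Equiv.sum_comp (Equiv.inv G)]
    refine Finset.sum_congr rfl fun h _ => ?_
    rw [Equiv.inv_apply, one_mul, hv1 l h]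
    ring
  obtain ⟨d, hd⟩ := IsLocalization.exist_integer_multiples_of_finite (nonZeroDivisors V) w
  choose w' hw' using hd
  have hd0 : j (d : V) ≠ 0 := fun e => nonZeroDivisors.coe_ne_zero d (hj (e.trans (map_zero j).symm))
  have hw'' : ∀ k, j (w' k) = j d * w k := fun k => (hw' k).trans (Algebra.smul_def _ _)
  refine ⟨w', fun h0 => hw (funext fun k => ?_), fun b => funext fun k => hj ?_⟩
  · have := hw'' k
    rw [h0, Pi.zero_apply, map_zero, eq_comm, mul_eq_zero] at this
    exact this.resolve_left hd0
  · rw [Pi.smul_apply, smul_eq_mul, map_mul, hw'']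
    show j (∑ l, f (lam (emb b k l)) * w' l) = _
    rw [map_sum]
    simp only [map_mul, hw'']
    rw [show ∑ l, j (f (lam (emb b k l))) * (j d * w l) = j d * ∑ l, ξ (emb b k l) * w l by
      rw [Finset.mul_sum]; exact Finset.sum_congr rfl fun l _ => by
        show _ = j d * (j (f (lam (emb b k l))) * w l); ring, heig]
    ring

end GroupAlgebra

end Fermat.Agent.RT.Assembly.Eigen

end
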