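import Fermat.Agent.RT.Assembly.HeckeRing
import Fermat.Agent.FiniteFlat.HeckePoints
import Mathlib.RepresentationTheory.Maschke
import Mathlib.RingTheory.Jacobson.Semiprimary

/-!
# The ring of a family of Hecke models is reduced

It is generated over `O` by the good Hecke algebra of level `L * N` and the diamond operators,
and the group algebra of a finite commutative group over a reduced finite free `ℤ`-algebra is
reduced.
-/

set_option autoImplicit false
set_option linter.style.haveILetI false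

noncomputable section

open IsLocalRing

namespace Fermat.Agent.RT.Assembly

open Diamond

/-- The group algebra of a finite commutative group over a reduced finite free `ℤ`-algebra is
reduced. -/
theorem isReduced_monoidAlgebra (h : Type) [CommRing h] [IsAddTorsionFree h] [IsReduced h]
    (G : Type) [CommGroup G] [Finite G] : IsReduced (MonoidAlgebra h G) := by
  refine ⟨fun x hx => MonoidAlgebra.ext (Finsupp.ext fun g => ?_)⟩
  rw [show (0 : MonoidAlgebra h G).coeff g = 0 from rfl]
  have hzero : x.coeff g ∈ nilradical h := by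
    rw [show nilradical h = sInf (minimalPrimes h) from Ideal.sInf_minimalPrimes.symm,
      Ideal.mem_sInf]
    intro (P : Ideal h) hP
    haveI : P.IsPrime := hP.1.1
    haveI : CharZero (h ⧸ P) := by
      refine charZero_of_inj_zero fun a ha => by_contra fun ha0 => ?_
      rw [← map_natCast (Ideal.Quotient.mk P), Ideal.Quotient.eq_zero_iff_mem] at ha
      refine Set.disjoint_left.mp (Ideal.disjoint_nonZeroDivisors_of_mem_minimalPrimes hP) ha ?_
      refine mem_nonZeroDivisors_iff_right.mpr fun y hy => ?_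
      rw [mul_comm, ← nsmul_eq_mul] at hy
      exact (nsmul_right_injective ha0) (hy.trans (nsmul_zero a).symm)
    let K := FractionRing (h ⧸ P)
    haveI : CharZero K :=
      charZero_of_injective_algebraMap (IsFractionRing.injective (h ⧸ P) K)
    haveI : NeZero (Nat.card G : K) := ⟨Nat.cast_ne_zero.2 Nat.card_pos.ne'⟩
    haveI : IsSemisimpleRing (MonoidAlgebra K G) := inferInstance
    haveI : IsReduced (MonoidAlgebra K G) := inferInstance
    let φ : h →+* K := (algebraMap (h ⧸ P) K).comp (Ideal.Quotient.mk P)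
    have h0 : MonoidAlgebra.mapRingHom G φ x = 0 := (hx.map _).eq_zero
    have hg : φ (x.coeff g) = 0 := by
      have := congrArg (fun z : MonoidAlgebra K G => z.coeff g) h0
      simpa using this
    rw [← Ideal.Quotient.eq_zero_iff_mem]
    exact IsFractionRing.injective (h ⧸ P) K (by rw [map_zero]; exact hg)
  rw [nilradical_eq_zero h] at hzero
  exact hzero

variable {O : Type} [CommRing O] [IsDomain O] [IsDiscreteValuationRing O]
  [IsAdicComplete (maximalIdeal O) O] [Finite (ResidueField O)] [CharZero O]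
  {p : ℕ} [Fact p.Prime] {B : Base O p} {r n : ℕ} {Lv : Level B r n}
  {J : Type} {χ : J → MulChar (ZMod B.N₀) O} {D : J → ℕ}

/-- The primes of the level and of the modulus are excluded. -/
theorem Level.mem_S'_of_dvd (Lv : Level B r n) {q : ℕ} (hq : q.Prime) (hd : q ∣ Lv.L * Lv.N) :
    q ∈ Lv.S' := by
  have hL : ∀ q : ℕ, q.Prime → q ∣ Lv.L → q ∈ Lv.S' := by
    intro q hq hd
    rw [Level.L] at hd
    rcases hq.dvd_mul.1 hd with h | h
    · exact Finset.mem_union_left _ (B.level_mem q hq h)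
    · obtain ⟨i, -, hi⟩ := (Prime.dvd_finsetProd_iff hq.prime _).1 h
      refine Finset.mem_union_right _ (Finset.mem_image.2 ⟨i, Finset.mem_univ _, ?_⟩)
      exact ((Nat.prime_dvd_prime_iff_eq hq (Lv.qv i).2).1 hi).symm
  rcases hq.dvd_mul.1 hd with h | h
  · exact hL q hq h
  · exact hL q hq (h.trans Lv.N_dvd_L)

variable (Lv) in
/-- Evaluation of polynomials at the good operators on cusp forms. -/
def formEval : MvPolynomial (GoodPrimeAt Lv) ℤ →+*
    CuspForm.heckeAlgebra (Lv.L * Lv.N) 2 (↑Lv.S' : Set ℕ) :=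
  MvPolynomial.eval₂Hom (Int.castRingHom _) fun ℓ => formOp (Lv.L * Lv.N) Lv.S' ℓ.1

theorem formEval_surjective : Function.Surjective (formEval Lv) := by
  intro x
  obtain ⟨x, hx⟩ := x
  induction hx using Algebra.adjoin_induction with
  | mem x hx =>
    rcases hx with ⟨ℓ, hℓ, hℓN, hℓS, rfl⟩ | ⟨q, hqN, hq, hqS, rfl⟩
    · refine ⟨MvPolynomial.X ⟨⟨ℓ, hℓ⟩, fun h => hℓS (Finset.mem_coe.2 h)⟩, ?_⟩
      rw [formEval, MvPolynomial.eval₂Hom_X', formOp, dif_pos ⟨hℓN, hℓS⟩]
      rfl
    · exact absurd (Finset.mem_coe.2 (Lv.mem_S'_of_dvd hq hqN)) hqS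
  | algebraMap c =>
    refine ⟨(c : MvPolynomial (GoodPrimeAt Lv) ℤ), ?_⟩
    rw [map_intCast]
    exact Subtype.ext (by simp)
  | add a b _ _ iha ihb =>
    obtain ⟨u, hu⟩ := iha
    obtain ⟨v, hv⟩ := ihb
    exact ⟨u + v, by rw [map_add, hu, hv]; rfl⟩
  | mul a b _ _ iha ihb =>
    obtain ⟨u, hu⟩ := iha
    obtain ⟨v, hv⟩ := ihb
    exact ⟨u * v, by rw [map_mul, hu, hv]; rfl⟩

variable (m : ∀ j, HeckeModel Lv (χ j) (D j))

theorem exists_heckeHom :
    ∃ ψ : CuspForm.heckeAlgebra (Lv.L * Lv.N) 2 (↑Lv.S' : Set ℕ) →+* heckeRing m,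
      ∀ ℓ : GoodPrimeAt Lv, ψ (formOp (Lv.L * Lv.N) Lv.S' ℓ.1) = heckeRing.T m ℓ := by
  classical
  let e : MvPolynomial (GoodPrimeAt Lv) ℤ →+* heckeRing m :=
    MvPolynomial.eval₂Hom (Int.castRingHom _) (heckeRing.T m)
  have hle : RingHom.ker (formEval Lv) ≤ RingHom.ker e := by
    intro F hF
    rw [RingHom.mem_ker] at hF ⊢
    refine heckeRing.eq_zero_of_proj m fun j => ?_
    let π : heckeRing m →+* Matrix (Fin (D j)) (Fin (D j)) Lv.Λ := (heckeRing.proj m j).toRingHom
    let C := heckeRing m ⧸ RingHom.ker π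
    let f : Nat.Primes → C := fun ℓ =>
      if h : (ℓ : ℕ) ∉ Lv.S' then Ideal.Quotient.mk _ (heckeRing.T m ⟨ℓ, h⟩) else 0
    have hrel := (m j).relation (MvPolynomial.rename Subtype.val F) (fun ℓ hℓ => by
        obtain ⟨ℓ', -, rfl⟩ := Finset.mem_image.1 (MvPolynomial.vars_rename _ _ hℓ)
        exact ℓ'.2)
      (by rw [MvPolynomial.eval₂Hom_rename]; exact hF) C f (RingHom.kerLift π)
      (RingHom.kerLift_injective π)
      (fun ℓ hℓ => by simp only [f, dif_pos hℓ]; rfl)
    rw [MvPolynomial.eval₂Hom_rename] at hrel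
    have hcomp : (Ideal.Quotient.mk (RingHom.ker π)).comp e =
        MvPolynomial.eval₂Hom (Int.castRingHom C) (f ∘ Subtype.val) :=
      MvPolynomial.ringHom_ext (fun c => by simp [e]) fun ℓ => by
        simp [e, f, ℓ.2]
    have := RingHom.congr_fun hcomp F
    rw [hrel, RingHom.comp_apply, Ideal.Quotient.eq_zero_iff_mem] at this
    exact this
  refine ⟨RingHom.liftOfSurjective _ (formEval_surjective (Lv := Lv)) ⟨e, hle⟩, fun ℓ => ?_⟩
  have h1 : formEval Lv (MvPolynomial.X ℓ) = formOp (Lv.L * Lv.N) Lv.S' ℓ.1 :=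
    MvPolynomial.eval₂Hom_X' ..
  rw [← h1, RingHom.liftOfRightInverse_comp_apply]
  exact MvPolynomial.eval₂Hom_X' ..

namespace heckeRing

variable [Finite J]

omit [Finite J] in
/-- The ring is generated over `O` by the diamond operators and the good operators. -/
theorem adjoin_eq_top :
    Algebra.adjoin O (Set.range (fun g : Grp (ppow p Lv.e) =>
      lam m (MonoidAlgebra.of O (Grp (ppow p Lv.e)) g)) ∪ Set.range (T m)) = ⊤ := by
  set A := Algebra.adjoin O (Set.range (fun g : Grp (ppow p Lv.e) =>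
    lam m (MonoidAlgebra.of O (Grp (ppow p Lv.e)) g)) ∪ Set.range (T m))
  have hlam : ∀ c, lam m c ∈ A := by
    intro c
    induction c using MonoidAlgebra.induction_on with
    | of g => exact Algebra.subset_adjoin (Or.inl ⟨g, rfl⟩)
    | add a b ha hb => rw [map_add]; exact add_mem ha hb
    | smul o a ha => rw [map_smul]; exact Subalgebra.smul_mem _ ha o
  have hall : ∀ (x : ModelMat Lv D) (hx : x ∈ Algebra.adjoin Lv.Λ (Set.range (opTuple m))),
      (⟨x, hx⟩ : heckeRing m) ∈ A := by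
    intro x hx
    induction hx using Algebra.adjoin_induction with
    | mem x hx =>
      obtain ⟨ℓ, rfl⟩ := hx
      exact Algebra.subset_adjoin (Or.inr ⟨ℓ, rfl⟩)
    | algebraMap c => exact hlam c
    | add a b ha hb iha ihb =>
      have e : (⟨a + b, add_mem ha hb⟩ : heckeRing m) =
          (⟨a, ha⟩ : heckeRing m) + ⟨b, hb⟩ := Subtype.ext rfl
      exact e ▸ Subalgebra.add_mem A iha ihb
    | mul a b ha hb iha ihb =>
      have e : (⟨a * b, mul_mem ha hb⟩ : heckeRing m) =
          (⟨a, ha⟩ : heckeRing m) * ⟨b, hb⟩ := Subtype.ext rfl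
      exact e ▸ Subalgebra.mul_mem A iha ihb
  exact eq_top_iff.2 fun x _ => hall x.1 x.2

instance isReduced : IsReduced (heckeRing m) := by
  classical
  let h₀ := CuspForm.heckeAlgebra (Lv.L * Lv.N) 2 (↑Lv.S' : Set ℕ)
  haveI : IsReduced h₀ := Hecke.isReduced_heckeAlgebra _ 2 _
    fun q hq hd => Finset.mem_coe.2 (Lv.mem_S'_of_dvd hq hd)
  haveI : Module.Finite ℤ h₀ := HeckeFinite.moduleFinite_heckeAlgebra _ 2 _
  haveI : IsReduced (MonoidAlgebra h₀ (Grp (ppow p Lv.e))) := isReduced_monoidAlgebra h₀ _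
  haveI : Module.Finite h₀ (MonoidAlgebra h₀ (Grp (ppow p Lv.e))) :=
    Module.Finite.of_basis (MonoidAlgebra.basis _ _)
  haveI : Module.Finite ℤ (MonoidAlgebra h₀ (Grp (ppow p Lv.e))) := Module.Finite.trans h₀ _
  haveI : IsAddTorsionFree (MonoidAlgebra h₀ (Grp (ppow p Lv.e))) :=
    ⟨fun n hn a b hab => MonoidAlgebra.ext (Finsupp.ext fun g =>
      nsmul_right_injective hn (by
        have h2 := congrArg (MonoidAlgebra.coeffAddEquiv (R := h₀)) hab
        rw [map_nsmul, map_nsmul] at h2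
        exact DFunLike.congr_fun h2 g))⟩
  obtain ⟨ψ, hψ⟩ := exists_heckeHom m
  haveI : Module.Flat O (heckeRing m) := Module.Flat.of_free
  refine FiniteFlat.isReduced_of_adjoin_range_eq_top O (MonoidAlgebra h₀ (Grp (ppow p Lv.e)))
    (heckeRing m) (MonoidAlgebra.liftNCRingHom ψ
      ((lam m).toMonoidHom.comp (MonoidAlgebra.of O (Grp (ppow p Lv.e))))
      fun _ _ => Commute.all _ _) ?_
  rw [eq_top_iff, ← adjoin_eq_top m]
  refine Algebra.adjoin_mono ?_
  rintro x (⟨g, rfl⟩ | ⟨ℓ, rfl⟩)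
  · refine ⟨MonoidAlgebra.single g 1, ?_⟩
    exact (MonoidAlgebra.liftNC_single _ _ g (1 : h₀)).trans
      ((congrArg (· * _) (map_one ψ)).trans (one_mul _))
  · refine ⟨MonoidAlgebra.single 1 (formOp (Lv.L * Lv.N) Lv.S' ℓ.1), ?_⟩
    exact (MonoidAlgebra.liftNC_single _ _ 1 _).trans
      ((congrArg₂ (· * ·) (hψ ℓ) (map_one _)).trans (mul_one _))

end heckeRing

end Fermat.Agent.RT.Assembly

end
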