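import Fermat.Agent.RT.Assembly.Untwist
import Fermat.Agent.RT.LocalAtP.Conditions
import Fermat.Agent.Galois.Frobenius

/-!
# The local properties of the eigensystems of a level (PATCH part 3)
-/

set_option autoImplicit false

noncomputable section

open IsLocalRing Polynomial

namespace Fermat.Agent.RT.Assembly

open Diamond

local notation "ℚ̄" => AlgebraicClosure ℚ
local notation "Γℚ" => (AlgebraicClosure ℚ ≃ₐ[ℚ] AlgebraicClosure ℚ)

/-- In rank two the trace is minus the linear coefficient of the characteristic polynomial. -/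
theorem trace_eq_neg_coeff_one {k W : Type} [Field k] [AddCommGroup W] [Module k W]
    [FiniteDimensional k W] (h2 : Module.finrank k W = 2) (f : Module.End k W) :
    LinearMap.trace k W f = -(LinearMap.charpoly f).coeff 1 := by
  let b := Module.finBasisOfFinrankEq k W h2
  rw [LinearMap.trace_eq_matrix_trace k b, ← LinearMap.charpoly_toMatrix f b,
    Matrix.charpoly_fin_two]
  simp [coeff_X_pow, coeff_C]

/-- Unramified implies unipotent on inertia. -/
theorem isUnipotentOnInertiaAt_of_isUnramifiedAt {A : Type} [CommRing A] [IsLocalRing A]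
    {ρ : GaloisRepAdic A} {q : ℕ} (h : ρ.IsUnramifiedAt q) : ρ.IsUnipotentOnInertiaAt q := by
  intro P hP σ hσ
  rw [h P hP σ hσ, LinearMap.charpoly_one, ρ.finrank_eq]

variable {O : Type} [CommRing O] [IsDomain O] [IsDiscreteValuationRing O]
  [IsAdicComplete (maximalIdeal O) O] [Finite (ResidueField O)] [CharZero O]
  {p : ℕ} [Fact p.Prime] {B : Base O p} {r n : ℕ}

/-- The representation of an eigensystem of a level, with its local properties. -/
theorem exists_levelPoint (inputs : LocalInputs p) (hso : StrictOrdinaryOfNewform p)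
    (Lv : Level B r n) {χ' : MulChar (ZMod B.N₀) O} (hχ' : χ' = B.χ ∨ χ' = 1)
    {V : Type} [CommRing V] [IsDomain V] [IsDiscreteValuationRing V]
    [IsAdicComplete (maximalIdeal V) V] [Finite (ResidueField V)] [CharZero V] [Algebra O V]
    [IsLocalHom (algebraMap O V)] (hinj : Function.Injective (algebraMap O V))
    (ξ : Lv.Λ →ₐ[O] V) (c : Nat.Primes → V)
    (hc : ∀ ℓ : Nat.Primes, (ℓ : ℕ) ∉ Lv.S' →
      residue V (c ℓ) = ResidueField.map (algebraMap O V) (B.a ℓ))
    (h : ∃ (L' : ℕ) (_ : NeZero L'),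
      IsExactLevel ((Lv.θ χ').ringHomComp ξ.toRingHom) Lv.S' c Lv.L L' ∧
        IsNewformSystem Lv.S' L' c) :
    ∃ ρ : GaloisRepAdic V, IsLevelPoint Lv χ' ξ c ρ := by
  classical
  obtain ⟨L', hL'0, hex, hnew⟩ := h
  have hp : p.Prime := Fact.out
  have hL'ne : L' ≠ 0 := hL'0.out
  set θ := (Lv.θ χ').ringHomComp ξ.toRingHom with hθ
  have hpV : (p : V) ∈ maximalIdeal V := by
    rw [← map_natCast (algebraMap O V) p]
    exact map_nonunit _ _ B.hpO
  let ι : ResidueField O →+* ResidueField V := ResidueField.map (algebraMap O V)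
  -- the primes of the level
  have hqvS : ∀ i, (Lv.qv i : ℕ) ∈ Lv.S' := fun i =>
    Finset.mem_union_right _ (Finset.mem_image_of_mem _ (Finset.mem_univ i))
  have hqvp : ∀ i, (Lv.qv i : ℕ) ≠ p := fun i h => Lv.not_mem i (by rw [h]; exact B.p_mem)
  have hprimeLN : ∀ q : ℕ, q.Prime → q ∣ Lv.L * Lv.N →
      q ∣ B.M₀ ∨ q ∣ B.r₀ ∨ ∃ i, q = Lv.qv i := by
    intro q hq hd
    have hprod : q ∣ ∏ i, (Lv.qv i : ℕ) → ∃ i, q = Lv.qv i := fun h => by
      obtain ⟨i, -, hi⟩ := (Prime.dvd_finsetProd_iff hq.prime _).mp h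
      exact ⟨i, (Nat.prime_dvd_prime_iff_eq hq (Lv.qv i).2).mp hi⟩
    rcases hq.dvd_mul.mp hd with h | h
    · rcases hq.dvd_mul.mp h with h | h
      · rcases hq.dvd_mul.mp h with h | h
        · exact Or.inl h
        · exact Or.inr (Or.inl h)
      · exact Or.inr (Or.inr (hprod h))
    · rcases hq.dvd_mul.mp h with h | h
      · exact Or.inr (Or.inr (hprod h))
      · exact Or.inl (h.trans B.N₀_dvd)
  have hS' : ∀ q : ℕ, q.Prime → q ∣ L' → q ∈ Lv.S' := by
    intro q hq hd
    rcases hprimeLN q hq (hd.trans hex.dvd) with h | h | ⟨i, rfl⟩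
    · exact Finset.mem_union_left _ (B.level_mem q hq (h.mul_right _))
    · exact Finset.mem_union_left _ (B.level_mem q hq (h.mul_left _))
    · exact hqvS i
  -- exponents
  have hle1 : ∀ q : ℕ, q.Prime → ¬ NontrivialAt θ q → ¬ q ^ 2 ∣ L' := fun q hq hnt hd => by
    have := (hq.pow_dvd_iff_le_factorization hL'ne).mp hd
    have := hex.le_one q hq hnt
    omega
  have hN : ∀ q : ℕ, q.Prime → q ∈ B.S → ¬ q ∣ B.N₀ → ¬ q ∣ Lv.N := fun q hq hqS hq0 hd => by
    rcases hq.dvd_mul.mp hd with h | h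
    · obtain ⟨i, -, hi⟩ := (Prime.dvd_finsetProd_iff hq.prime _).mp h
      exact Lv.not_mem i ((Nat.prime_dvd_prime_iff_eq hq (Lv.qv i).2).mp hi ▸ hqS)
    · exact hq0 h
  have hnt₀ : ∀ q : ℕ, q.Prime → q ∣ B.N₀ → (NontrivialAt θ q ↔ NontrivialAt χ' q) := by
    intro q hq hq0
    rw [hθ, Level.θ, nontrivialAt_tautTwist_iff_of_dvd Lv.twistData χ' _ hq hq0]
    refine and_congr_right fun _ => exists_congr fun u => and_congr_right fun _ => ?_
    rw [MulChar.ringHomComp_apply]
    refine not_congr ⟨fun h1 => hinj ?_, fun h1 => by rw [h1, map_one]⟩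
    rw [map_one, ← h1]
    exact (ξ.commutes _).symm
  have htriv : ∀ q : ℕ, q.Prime → q ∈ B.S → ¬ NontrivialAt χ' q → ¬ NontrivialAt θ q := by
    intro q hq hqS hnt hθq
    by_cases hq0 : q ∣ B.N₀
    · exact hnt ((hnt₀ q hq hq0).mp hθq)
    · exact hN q hq hqS hq0 hθq.1
  have hnew1 : ∀ q : ℕ, q.Prime → q ∣ B.M₀ → ¬ NontrivialAt χ' q → q ∣ L' ∧ ¬ q ^ 2 ∣ L' := by
    intro q hq hqM hnt
    have hntθ := htriv q hq (B.level_mem q hq (hqM.mul_right _)) hnt
    have h1 := hex.one q hq ((hqM.mul_right _).mul_right _) hntθ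
      (noOldAt inputs Lv hχ' ξ c hc hq hqM)
    exact ⟨Nat.dvd_of_factorization_pos (by omega), hle1 q hq hntθ⟩
  -- the representation
  have habs : (B.ρbar.baseChangeAlong ι).IsAbsolutelyIrreducible :=
    letI := ι.toAlgebra
    isAbsolutelyIrreducible_baseChange B.ρbar B.absIrr (ResidueField V)
  have hchar : ∀ σ : Γℚ, LinearMap.charpoly ((B.ρbar.baseChangeAlong ι).ρ σ) =
      (LinearMap.charpoly (B.ρbar.ρ σ)).map ι := fun σ =>
    letI := ι.toAlgebra
    LinearMap.charpoly_baseChange (B.ρbar.ρ σ) (ResidueField V)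
  obtain ⟨ρ, hρ⟩ := exists_localPoint B.hp2 hpV (Finset.mem_union_left _ B.p_mem) hS' inputs hnew
    (B.ρbar.baseChangeAlong ι) habs fun ℓ hℓ hℓS A hA σ hσ => by
      rw [hchar, B.charpoly_frob ℓ hℓ (fun h => hℓS (Finset.mem_union_left _ h)) A hA σ hσ,
        hc ⟨ℓ, hℓ⟩ hℓS]
      simp [ι]
  have hord : p ∣ B.M₀ →
      (GaloisRepAdic.ofResidualGaloisRep ρ.residual).IsStrictOrdinaryAt p := fun hpM => by
    obtain ⟨e⟩ := hρ.residual_isEquiv
    have h1 := ((isDescending_det_strictOrdinary hp B.hp2).baseChange ι inferInstance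
      (ρ := GaloisRepAdic.ofResidualGaloisRep B.ρbar) ⟨B.det, B.ord hpM⟩).2
    exact Density.adic_isStrictOrdinaryAt_of_isEquiv
      ⟨⟨e.toLinearEquiv.symm, fun σ x => e.symm.map_apply σ x⟩⟩ h1
  have hntp : ¬ NontrivialAt χ' p := fun h => B.p_not_dvd.1 h.1
  refine ⟨ρ, { charpoly_frob := hρ.charpoly_frob, det := hρ.det,
               residual_isEquiv := hρ.residual_isEquiv, residual_absIrr := hρ.residual_absIrr,
               unramified := ?_, aux_trivial := ?_, aux_nontrivial := ?_, twisted := ?_,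
               unipotent := ?_, steinberg := ?_, flat := ?_, strictOrdinary := ?_ }⟩
  · intro q hq hqp hqM hqv
    refine hρ.unramified q hq hqp fun hqL => ?_
    rcases hprimeLN q hq (hqL.trans hex.dvd) with h | h | ⟨i, hi⟩
    · exact hqM h
    · have hqS : q ∈ B.S := B.level_mem q hq (h.mul_left _)
      have hntθ := htriv q hq hqS fun hnt => hqM (hnt.1.trans B.N₀_dvd)
      obtain ⟨A, σ, hA, hσ⟩ := Galois.exists_valuationSubring_isFrobeniusAt hq
      refine (B.old q hq h).2 A hA σ hσ (ι.injective ?_)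
      have hcp : (LinearMap.charpoly (B.ρbar.ρ σ)).map ι =
          (LinearMap.charpoly (ρ.ρ σ)).map (residue V) := by
        rw [← hchar, Density.residual_charpoly_eq_of_isEquiv hρ.residual_isEquiv σ]
        exact LinearMap.charpoly_baseChange (ρ.ρ σ) (ResidueField V)
      have hco := congrArg (fun P => P.coeff 1) hcp
      simp only [coeff_map] at hco
      rw [trace_eq_neg_coeff_one B.ρbar.finrank_eq, map_pow, map_neg, hco, map_pow, map_add,
        map_natCast, map_one, neg_sq]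
      rcases hρ.steinberg q hq hqp hqL (hle1 q hq hntθ) A hA σ hσ with h1 | h1 <;>
        simp [h1, coeff_X_pow, coeff_X, coeff_C] <;> ring
    · exact hqv i hi
  · intro i hi
    have hntθ : ¬ NontrivialAt θ (Lv.qv i) := by
      rw [hθ, Level.θ, nontrivialAt_tautTwist_iff Lv.twistData
        (B.squarefree.squarefree_of_dvd (B.N₀_dvd.mul_right _)) χ' _ i]
      rintro ⟨x, hx⟩
      apply hx
      have : NeZero (p ^ Lv.e i) := ⟨pow_ne_zero _ hp.ne_zero⟩
      have hs : (Pi.single i x : ∀ j, ZMod (p ^ Lv.e j)) = x.val • Pi.single i 1 := by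
        rw [← Pi.single_smul, nsmul_eq_mul, mul_one, ZMod.natCast_zmod_val]
      rw [hs, ofAdd_nsmul, map_pow, map_pow]
      exact (congrArg (· ^ x.val) hi).trans (one_pow _)
    by_cases hd : (Lv.qv i : ℕ) ∣ L'
    · exact hρ.unipotent _ (Lv.qv i).2 (hqvp i) hd (hle1 _ (Lv.qv i).2 hntθ)
    · exact isUnipotentOnInertiaAt_of_isUnramifiedAt (hρ.unramified _ (Lv.qv i).2 (hqvp i) hd)
  · intro i hi
    refine hρ.not_unipotent _ (Lv.qv i).2 (hqvp i) (hex.two _ (Lv.qv i).2 ?_)
    rw [hθ, Level.θ, nontrivialAt_tautTwist_iff Lv.twistData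
      (B.squarefree.squarefree_of_dvd (B.N₀_dvd.mul_right _)) χ' _ i]
    exact ⟨1, hi⟩
  · intro q hq hq0 hnt
    exact hρ.not_unipotent q hq (fun h => B.p_not_dvd.1 (h ▸ hq0))
      (hex.two q hq ((hnt₀ q hq hq0).mpr hnt))
  · intro q hq hqp hqM hnt
    exact hρ.unipotent q hq hqp (hnew1 q hq hqM hnt).1 (hnew1 q hq hqM hnt).2
  · intro q hq hqp hqM hnt
    exact hρ.steinberg q hq hqp (hnew1 q hq hqM hnt).1 (hnew1 q hq hqM hnt).2
  · intro hpM
    refine hρ.flat fun hd => ?_
    rcases hprimeLN p hp (hd.trans hex.dvd) with h | h | ⟨i, hi⟩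
    · exact hpM h
    · exact B.p_not_dvd.2 h
    · exact hqvp i hi.symm
  · intro hpM
    exact hρ.strictOrdinary hso (hnew1 p hp hpM hntp).1 (hnew1 p hp hpM hntp).2 (hord hpM)

end Fermat.Agent.RT.Assembly

end
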