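import Fermat.Agent.RT.Assembly.Defs
import Fermat.Agent.RT.DatumPoints
import Fermat.Agent.BadPrime.ConductorDefs
import Fermat.Agent.Density.PlacesConj

/-!
# The Galois representation of a point of exact level (PATCH, local properties)

`exists_localPoint`: a newform system of level exactly `L'`, congruent to an absolutely
irreducible residual representation, has a Galois representation over the same coefficient ring
with all the local properties used by the patching argument.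
-/

set_option autoImplicit false

noncomputable section

open IsLocalRing Polynomial

namespace Fermat.Agent.RT.Assembly

local notation "ℚ̄" => AlgebraicClosure ℚ
local notation "Γℚ" => (AlgebraicClosure ℚ ≃ₐ[ℚ] AlgebraicClosure ℚ)

/-- Statements S30, S32, S34, S35 and S36 at the prime `p`. -/
structure LocalInputs (p : ℕ) : Prop where
  galoisRep : ∀ (N : ℕ) [NeZero N] (S : Finset ℕ), p ∈ S →
    (∀ q : ℕ, q.Prime → q ∣ N → q ∈ S) → GaloisRepOfPoints p N S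
  flat : ∀ (N : ℕ) [NeZero N] (S : Finset ℕ), ¬ p ∣ N → p ∈ S →
    (∀ q : ℕ, q.Prime → q ∣ N → q ∈ S) → FlatOfDatum p N S
  unipotent : ∀ (N : ℕ) [NeZero N] (S : Finset ℕ) (q : ℕ), q.Prime → q ≠ p → q ∣ N →
    ¬ q ^ 2 ∣ N → p ∈ S → (∀ r : ℕ, r.Prime → r ∣ N → r ∈ S) → UnipotentOfDatum p N S q
  mult : BadPrime.NewformMultRep
  square : BadPrime.NewformSquareRep

/-- Newform systems with `p` exactly dividing the level and strictly ordinary reduction are
strictly ordinary at `p`. -/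
def StrictOrdinaryOfNewform (p : ℕ) : Prop :=
  ∀ (L : ℕ) [NeZero L], p ∣ L → ¬ p ^ 2 ∣ L →
    ∀ (S : Finset ℕ), p ∈ S → (∀ q : ℕ, q.Prime → q ∣ L → q ∈ S) →
    ∀ (O : Type) [CommRing O] [IsDomain O] [IsDiscreteValuationRing O]
      [IsAdicComplete (maximalIdeal O) O] [Finite (ResidueField O)] [CharZero O],
      (p : O) ∈ maximalIdeal O →
    ∀ (c : Nat.Primes → O), IsNewformSystem S L c →
    ∀ ρ : GaloisRepAdic O,
      (∀ (ℓ : ℕ) (hℓ : ℓ.Prime), ℓ ∉ S → ∀ A : ValuationSubring ℚ̄, A.LiesOverPrime ℓ →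
        ∀ σ : Γℚ, A.IsFrobeniusAt σ ℓ →
          LinearMap.charpoly (ρ.ρ σ) = X ^ 2 - C (c ⟨ℓ, hℓ⟩) * X + C (ℓ : O)) →
      ρ.DetIsCyclotomic p → ρ.residual.IsAbsolutelyIrreducible →
      (GaloisRepAdic.ofResidualGaloisRep ρ.residual).IsStrictOrdinaryAt p →
      ρ.IsStrictOrdinaryAt p

variable {O : Type} [CommRing O] [IsDomain O] [IsDiscreteValuationRing O]

/-- The local properties of the representation of a system of exact level `L'`. -/
structure IsLocalPoint (p : ℕ) (S : Finset ℕ) (L' : ℕ) (c : Nat.Primes → O)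
    (ρbar : ResidualGaloisRep (ResidueField O)) (ρ : GaloisRepAdic O) : Prop where
  charpoly_frob : ∀ (ℓ : ℕ) (hℓ : ℓ.Prime), ℓ ∉ S → ∀ A : ValuationSubring ℚ̄,
    A.LiesOverPrime ℓ → ∀ σ : Γℚ, A.IsFrobeniusAt σ ℓ →
      LinearMap.charpoly (ρ.ρ σ) = X ^ 2 - C (c ⟨ℓ, hℓ⟩) * X + C (ℓ : O)
  det : ρ.DetIsCyclotomic p
  residual_isEquiv : ρ.residual.IsEquiv ρbar
  residual_absIrr : ρ.residual.IsAbsolutelyIrreducible
  unramified : ∀ q : ℕ, q.Prime → q ≠ p → ¬ q ∣ L' → ρ.IsUnramifiedAt q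
  unipotent : ∀ q : ℕ, q.Prime → q ≠ p → q ∣ L' → ¬ q ^ 2 ∣ L' → ρ.IsUnipotentOnInertiaAt q
  steinberg : ∀ q : ℕ, q.Prime → q ≠ p → q ∣ L' → ¬ q ^ 2 ∣ L' →
    ∀ A : ValuationSubring ℚ̄, A.LiesOverPrime q → ∀ σ : Γℚ, A.IsFrobeniusAt σ q →
      LinearMap.charpoly (ρ.ρ σ) = X ^ 2 - C ((q : O) + 1) * X + C (q : O) ∨
      LinearMap.charpoly (ρ.ρ σ) = X ^ 2 + C ((q : O) + 1) * X + C (q : O)
  not_unipotent : ∀ q : ℕ, q.Prime → q ≠ p → L'.factorization q = 2 →
    ∀ A : ValuationSubring ℚ̄, A.LiesOverPrime q →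
      ∃ σ ∈ A.inertiaSubgroupIn ℚ, LinearMap.charpoly (ρ.ρ σ) ≠ (X - 1) ^ 2
  flat : ¬ p ∣ L' → ρ.IsFlatAt p
  strictOrdinary : StrictOrdinaryOfNewform p → p ∣ L' → ¬ p ^ 2 ∣ L' →
    (GaloisRepAdic.ofResidualGaloisRep ρ.residual).IsStrictOrdinaryAt p →
      ρ.IsStrictOrdinaryAt p

omit [IsDomain O] [IsDiscreteValuationRing O] in
/-- Conjugate elements have the same characteristic polynomial. -/
theorem charpoly_conj_eq [IsLocalRing O] (ρ : GaloisRepAdic O) (a τ : Γℚ) :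
    LinearMap.charpoly (ρ.ρ (a * τ * a⁻¹)) = LinearMap.charpoly (ρ.ρ τ) := by
  let e : ρ.V ≃ₗ[O] ρ.V :=
    LinearEquiv.ofLinearMap (ρ.ρ a) (ρ.ρ a⁻¹)
      (by rw [← Module.End.mul_eq_comp, ← map_mul, mul_inv_cancel, map_one]; rfl)
      (by rw [← Module.End.mul_eq_comp, ← map_mul, inv_mul_cancel, map_one]; rfl)
  have h : ρ.ρ (a * τ * a⁻¹) = e.conj (ρ.ρ τ) := by
    rw [map_mul, map_mul, LinearEquiv.conj_apply, Module.End.mul_eq_comp, Module.End.mul_eq_comp]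
    rfl
  rw [h, LinearEquiv.charpoly_conj]

variable [IsAdicComplete (maximalIdeal O) O] [Finite (ResidueField O)] [CharZero O]

/-- A newform system has a representation with all the local properties. -/
theorem exists_localPoint {p : ℕ} [Fact p.Prime] (hp2 : p ≠ 2) (hpO : (p : O) ∈ maximalIdeal O)
    {S : Finset ℕ} {L' : ℕ} [NeZero L'] (hpS : p ∈ S)
    (hS : ∀ q : ℕ, q.Prime → q ∣ L' → q ∈ S) (inputs : LocalInputs p)
    {c : Nat.Primes → O} (hc : IsNewformSystem S L' c)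
    (ρbar : ResidualGaloisRep (ResidueField O)) (habs : ρbar.IsAbsolutelyIrreducible)
    (hρbar : ∀ (ℓ : ℕ) (hℓ : ℓ.Prime), ℓ ∉ S → ∀ A : ValuationSubring ℚ̄, A.LiesOverPrime ℓ →
      ∀ σ : Γℚ, A.IsFrobeniusAt σ ℓ → LinearMap.charpoly (ρbar.ρ σ) =
        X ^ 2 - C (residue O (c ⟨ℓ, hℓ⟩)) * X + C (ℓ : ResidueField O)) :
    ∃ ρ : GaloisRepAdic O, IsLocalPoint p S L' c ρbar ρ := by
  classical
  have hp : p.Prime := Fact.out
  have hc' := hc
  obtain ⟨g, chig, emb, hg, hchig, hemb⟩ := hc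
  let χ : CuspForm.heckeAlgebra L' 2 (↑S : Set ℕ) →+* O := emb.comp chig.rangeRestrict
  have hχ : ∀ (ℓ : ℕ) (hℓ : ℓ.Prime) (hℓL : ¬ ℓ ∣ L') (hℓS : ℓ ∉ (↑S : Set ℕ)),
      χ (CuspForm.heckeAlgebra.T hℓ hℓL hℓS) = c ⟨ℓ, hℓ⟩ := hemb
  have hnd : ∀ {ℓ : ℕ}, ℓ.Prime → ℓ ∉ S → ¬ ℓ ∣ L' := fun hℓ hℓS h => hℓS (hS _ hℓ h)
  have hmem : ∀ {ℓ : ℕ}, ℓ ∉ S → ℓ ∉ (↑S : Set ℕ) := fun h h' => h (Finset.mem_coe.mp h')
  -- the representation over a finite extension
  obtain ⟨O₂, _, _, _, _, _, _, _, _, hloc, hinj, r, hr, hrunr⟩ :=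
    inputs.galoisRep L' S hpS hS O hpO χ
  let i : O →+* O₂ := algebraMap O O₂
  -- descent to the coefficient ring
  choose t ht htres using exists_trace_of_frobenius (J := Unit) (R := fun _ => O₂) (fun _ => i)
    (fun _ => hloc) (fun x hx => hinj ((hx ()).trans (map_zero _).symm)) (fun _ => r) ρbar S
    fun ℓ hℓ hℓS A hA σ hσ => by
      refine ⟨c ⟨ℓ, hℓ⟩, fun _ => ?_, hρbar ℓ hℓ hℓS A hA σ hσ⟩
      rw [hr ℓ hℓ (hnd hℓ hℓS) (hmem hℓS) A hA σ hσ, hχ]
  have hpO₂ : (p : O₂) ∈ maximalIdeal O₂ := by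
    rw [← map_natCast i p]
    exact map_nonunit _ _ hpO
  have hdet₂ : r.DetIsCyclotomic p :=
    Density.detIsCyclotomic_of_charpoly_frobenius r p hp hpO₂ S fun ℓ hℓ hℓS A hA σ hσ =>
      ⟨_, hr ℓ hℓ (hnd hℓ hℓS) (hmem hℓS) A hA σ hσ⟩
  have h2 : IsUnit (2 : O) := by
    by_contra h
    have hodd : ¬ 2 ∣ p := fun hd =>
      hp2 ((Nat.prime_dvd_prime_iff_eq Nat.prime_two hp).mp hd).symm
    obtain ⟨k, hk⟩ := Nat.odd_iff.mpr (Nat.two_dvd_ne_zero.mp hodd)
    have hmem2 : (2 : O) * (k : O) ∈ maximalIdeal O := Ideal.mul_mem_right _ _ h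
    have h1 := sub_mem hpO hmem2
    rw [hk, Nat.cast_add, Nat.cast_mul, Nat.cast_ofNat, Nat.cast_one, add_sub_cancel_left] at h1
    exact (maximalIdeal.isMaximal O).ne_top ((Ideal.eq_top_iff_one _).mpr h1)
  obtain ⟨ρ, -, hmap, hres, hirr, hbc⟩ := exists_galoisRepAdic_of_family (J := Unit)
    (O := fun _ => O₂) (fun _ => i) (fun _ => hloc)
    (fun x hx => hinj ((hx ()).trans (map_zero _).symm)) (fun _ => r) t
    (fun _ g => (ht g ()).symm)
    (fun _ => Density.det_eq_neg_one_of_detIsCyclotomic r hp hp2 hdet₂ complexConjugation_mul_self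
      EC.complexConjugation_ne_one) ρbar habs (fun g => (htres g).symm) h2
  have hfrob : ∀ (ℓ : ℕ) (hℓ : ℓ.Prime), ℓ ∉ S → ∀ A : ValuationSubring ℚ̄,
      A.LiesOverPrime ℓ → ∀ σ : Γℚ, A.IsFrobeniusAt σ ℓ →
        LinearMap.charpoly (ρ.ρ σ) = X ^ 2 - C (c ⟨ℓ, hℓ⟩) * X + C (ℓ : O) := by
    intro ℓ hℓ hℓS A hA σ hσ
    refine Polynomial.map_injective i hinj ?_
    rw [hmap () σ, hr ℓ hℓ (hnd hℓ hℓS) (hmem hℓS) A hA σ hσ, hχ]
    simp [i]
  have hfrobχ : ∀ (ℓ : ℕ) (hℓ : ℓ.Prime) (hℓL : ¬ ℓ ∣ L') (hℓS : ℓ ∉ (↑S : Set ℕ)),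
      ∀ A : ValuationSubring ℚ̄, A.LiesOverPrime ℓ → ∀ σ : Γℚ, A.IsFrobeniusAt σ ℓ →
        LinearMap.charpoly (ρ.ρ σ) =
          X ^ 2 - C (χ (CuspForm.heckeAlgebra.T hℓ hℓL hℓS)) * X + C (ℓ : O) :=
    fun ℓ hℓ hℓL hℓS A hA σ hσ => by
      rw [hχ]
      exact hfrob ℓ hℓ (fun h => hℓS (Finset.mem_coe.mpr h)) A hA σ hσ
  have hdet : ρ.DetIsCyclotomic p :=
    Density.detIsCyclotomic_of_charpoly_frobenius ρ p hp hpO S fun ℓ hℓ hℓS A hA σ hσ =>
      ⟨_, hfrob ℓ hℓ hℓS A hA σ hσ⟩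
  -- any other representation of the system has the same characteristic polynomials
  have hcompare : ∀ (O' : Type) [CommRing O'] [IsDomain O'] [IsDiscreteValuationRing O']
      [IsAdicComplete (maximalIdeal O') O'] [Algebra O O'] [IsLocalHom (algebraMap O O')]
      (r' : GaloisRepAdic O'),
      (∀ (ℓ : ℕ) (hℓ : ℓ.Prime) (hℓL : ¬ ℓ ∣ L') (hℓS : ℓ ∉ (↑S : Set ℕ)),
        ∀ A : ValuationSubring ℚ̄, A.LiesOverPrime ℓ → ∀ σ : Γℚ, A.IsFrobeniusAt σ ℓ →
          LinearMap.charpoly (r'.ρ σ) = X ^ 2 - C (algebraMap O O'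
            ((emb.comp chig.rangeRestrict) (CuspForm.heckeAlgebra.T hℓ hℓL hℓS))) * X
            + C (ℓ : O')) →
      ∀ g : Γℚ, (LinearMap.charpoly (ρ.ρ g)).map (algebraMap O O') =
        LinearMap.charpoly (r'.ρ g) := by
    intro O' _ _ _ _ _ hloc' r' hr' g
    have h := Density.adic_charpoly_eq_of_frobenius (ρ.baseChangeAlong (algebraMap O O') hloc') r' S
      (fun ℓ hℓ hℓS A hA σ hσ => by
        rw [charpoly_adic_baseChangeAlong, hfrobχ ℓ hℓ (hnd hℓ hℓS) (hmem hℓS) A hA σ hσ,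
          hr' ℓ hℓ (hnd hℓ hℓS) (hmem hℓS) A hA σ hσ]
        simp [χ]) g
    rwa [charpoly_adic_baseChangeAlong] at h
  refine ⟨ρ, { charpoly_frob := hfrob, det := hdet, residual_isEquiv := hres,
               residual_absIrr := hirr, unramified := ?_, unipotent := ?_, steinberg := ?_,
               not_unipotent := ?_, flat := ?_, strictOrdinary := ?_ }⟩
  · intro q hq hqp hqL
    refine (isDescending_isUnramifiedAt (p := 0) q).descent (J := Unit) (fun _ => O₂) (fun _ => i)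
      (fun _ => hloc) (by rw [Nat.cast_zero]; exact zero_mem _)
      (fun x hx => hinj ((hx ()).trans (map_zero _).symm)) (fun n => ⟨n, le_rfl, fun x hx => ?_⟩)
      fun _ => Density.adic_isUnramifiedAt_of_isEquiv
        (let ⟨e⟩ := hbc (); ⟨e.symm⟩) (hrunr q hq hqL hqp)
    rcases n with _ | n
    · simp
    · have h0 := hx ()
      rw [zero_pow n.succ_ne_zero, Nat.cast_zero, Ideal.span_singleton_eq_bot.mpr rfl,
        Ideal.mem_bot] at h0
      rw [hinj (h0.trans (map_zero i).symm)]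
      exact zero_mem _
  · intro q hq hqp hqL hq2
    exact isUnipotentOnInertiaAt_of_point hp2 hpO hS (inputs.galoisRep L' S hpS hS) χ ρ hirr hfrobχ
      (inputs.unipotent L' S q hq hqp hqL hq2 hpS hS)
  · intro q hq hqp hqL hq2 A hA σ hσ
    obtain ⟨O', _, _, _, _, _, _, _, _, hloc', hinj', r', hr', hq'⟩ :=
      inputs.mult hg p S O hpO chig hchig emb hpS hS
    have h := hcompare O' r' hr' σ
    rcases hq' q hq hqp hqL hq2 A hA σ hσ with h1 | h1
    · refine Or.inl (Polynomial.map_injective _ hinj' ?_)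
      rw [h, h1]
      simp
    · refine Or.inr (Polynomial.map_injective _ hinj' ?_)
      rw [h, h1]
      simp
  · intro q hq hqp hq2 A hA
    obtain ⟨O', _, _, _, _, _, _, _, _, hloc', hinj', r', hr', hq'⟩ :=
      inputs.square hg p S O hpO hp2 chig hchig emb hpS hS (by
        intro O'' _ _ _ _ _ _ _ _ hloc'' _ r'' hr''
        have hpO'' : (p : O'') ∈ maximalIdeal O'' := by
          rw [← map_natCast (algebraMap O O'') p]
          exact map_nonunit _ _ hpO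
        have hr''' := fun (ℓ : ℕ) (hℓ : ℓ.Prime) (hℓS : ℓ ∉ S) =>
          hr'' ℓ hℓ (fun h => hℓS (h ▸ hpS)) (hnd hℓ hℓS) (hmem hℓS)
        let ι : ResidueField O →+* ResidueField O'' := ResidueField.map (algebraMap O O'')
        let : Algebra (ResidueField O) (ResidueField O'') := ι.toAlgebra
        refine ⟨Density.isAbsolutelyIrreducible_of_isEquiv
          (Density.residual_isEquiv_of_frobenius (ρbar.baseChange (ResidueField O'')) r''.residual S
            (isAbsolutelyIrreducible_baseChange ρbar habs _) fun ℓ hℓ hℓS B hB σ hσ => ?_)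
          (isAbsolutelyIrreducible_baseChange ρbar habs _),
          Density.residual_isOdd_of_detIsCyclotomic r'' hp hp2
            (Density.detIsCyclotomic_of_charpoly_frobenius r'' p hp hpO'' S
              fun ℓ hℓ hℓS B hB σ hσ => ⟨_, hr''' ℓ hℓ hℓS B hB σ hσ⟩)⟩
        show LinearMap.charpoly ((ρbar.ρ σ).baseChange (ResidueField O'')) =
          LinearMap.charpoly ((r''.ρ σ).baseChange (ResidueField O''))
        rw [LinearMap.charpoly_baseChange, LinearMap.charpoly_baseChange, hρbar ℓ hℓ hℓS B hB σ hσ,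
          hr''' ℓ hℓ hℓS B hB σ hσ, ← hχ ℓ hℓ (hnd hℓ hℓS) (hmem hℓS),
          RingHom.algebraMap_toAlgebra]
        simp [ι, χ])
    by_contra hall
    simp only [not_exists, not_and, not_not] at hall
    refine hq' q hq hqp hq2 fun B hB σ hσ => ?_
    obtain ⟨a, rfl⟩ := Density.exists_smul_eq hq hA hB
    have h1 := hall _ (Density.conj_inv_mem_inertiaSubgroupIn hσ)
    have h2 : LinearMap.charpoly (ρ.ρ σ) = (X - 1) ^ 2 := by
      rw [← h1, ← charpoly_conj_eq ρ a (a⁻¹ * σ * a)]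
      congr 2
      group
    have h := hcompare O' r' hr' σ
    rw [← h, h2]
    simp
  · intro hpL
    exact isFlatAt_of_point hp2 hpO hS (inputs.galoisRep L' S hpS hS) χ ρ hirr hfrobχ
      (inputs.flat L' S hpL hpS hS)
  · intro hstrict hpL hp2L hord
    exact hstrict L' hpL hp2L S hpS hS O hpO c hc' ρ hfrob hdet hirr hord

end Fermat.Agent.RT.Assembly
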