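import Fermat.Agent.RT.TW.Modules
import Fermat.Prelude.Def_CuspForm_HeckeAlgebra
import Fermat.Prelude.Def_CuspForm_Newforms
import Mathlib.NumberTheory.DirichletCharacter.Basic

/-!
# Vocabulary for the assembly of the patching argument (PATCH parts 2, 3 and 6)

The twist: for a character `θ` modulo `N ∣ L` the module is `H¹(Γ₀(L), A)` with nebentypus `θ²` and
the good operators are `T̃_ℓ = θ(ℓ)⁻¹ T_ℓ`, so that the systems they cut out have trivial
nebentypus (they live at level dividing `L * N`).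

* `twOp`, `twSystem`: the operators and their eigenvectors.
* `HasSystem`, `IsMinimalSystem`: residual systems with trivial character and minimality.
* `NontrivialAt`: the prime is in the conductor of `θ`.
* `IsNewformSystem`: a system of eigenvalues is that of a newform of exactly the given level, in
  the shape taken by S35 and S36.
-/

set_option autoImplicit false

noncomputable section

namespace Fermat.Agent.RT.Assembly

open TW

variable {A : Type} [CommRing A] {N L : ℕ}

/-- The nebentypus attached to a twist. -/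
abbrev neben (θ : MulChar (ZMod N) A) : MulChar (ZMod N) A := θ ^ 2

/-- The operator `θ(ℓ)⁻¹ T_ℓ`. -/
def twOp (θ : MulChar (ZMod N) A) (h : N ∣ L) (ℓ : Nat.Primes) :
    Module.End A (heckeH1 (neben θ) L h) :=
  Ring.inverse (θ ((ℓ : ℕ) : ZMod N)) • heckeOp (neben θ) h ℓ

/-- The classes with the eigenvalues `c` for the twisted operators outside `S`. -/
def twSystem (θ : MulChar (ZMod N) A) (h : N ∣ L) (S : Finset ℕ) (c : Nat.Primes → A) :
    Submodule A (heckeH1 (neben θ) L h) :=
  ⨅ (ℓ : Nat.Primes) (_ : (ℓ : ℕ) ∉ S), LinearMap.ker (twOp θ h ℓ - c ℓ • 1)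

theorem mem_twSystem_iff {θ : MulChar (ZMod N) A} {h : N ∣ L} {S : Finset ℕ}
    {c : Nat.Primes → A} {y : heckeH1 (neben θ) L h} :
    y ∈ twSystem θ h S c ↔ ∀ ℓ : Nat.Primes, (ℓ : ℕ) ∉ S → twOp θ h ℓ y = c ℓ • y := by
  simp [twSystem, sub_eq_zero]

/-- The residual system `a` occurs at level `L` with trivial character, away from `S`. -/
def HasSystem {k : Type} [Field k] (L : ℕ) (S : Finset ℕ) (a : Nat.Primes → k) : Prop :=
  ∃ y : heckeH1 (1 : MulChar (ZMod 1) k) L (one_dvd L), y ≠ 0 ∧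
    ∀ ℓ : Nat.Primes, (ℓ : ℕ) ∉ S →
      heckeOp (1 : MulChar (ZMod 1) k) (one_dvd L) ℓ y = a ℓ • y

/-- The residual system `a` occurs at level `M`, and at no proper divisor whatever the finite set
of primes left out. -/
structure IsMinimalSystem {k : Type} [Field k] (M : ℕ) (S : Finset ℕ) (a : Nat.Primes → k) :
    Prop where
  pos : 0 < M
  occurs : HasSystem M S a
  minimal : ∀ (M' : ℕ) (S' : Finset ℕ), M' ∣ M → M' ≠ M → S ⊆ S' → ¬ HasSystem M' S' a

/-- The prime `q` divides the conductor of `θ`. -/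
def NontrivialAt (θ : MulChar (ZMod N) A) (q : ℕ) : Prop :=
  q ∣ N ∧ ∃ u : (ZMod N)ˣ, (∀ r : ℕ, r.Prime → r ∣ N → r ≠ q →
    (ZMod.cast (u : ZMod N) : ZMod r) = 1) ∧ θ u ≠ 1

/-- No system with the eigenvalues `c` occurs with the `q`-part of the level removed, whatever
the modulus through which the twist factors. -/
def NoOldAt (θ : MulChar (ZMod N) A) (S : Finset ℕ) (c : Nat.Primes → A) (L q : ℕ) : Prop :=
  ∀ (N' : ℕ) (hN' : N' ∣ N) (θ' : MulChar (ZMod N') A),
    DirichletCharacter.changeLevel hN' θ' = θ →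
      ∀ h : N' ∣ L / q, twSystem θ' h S c = ⊥

/-- `c` is the system outside `S` of a newform of level exactly `L`. -/
def IsNewformSystem (S : Finset ℕ) (L : ℕ) [NeZero L] (c : Nat.Primes → A) : Prop :=
  ∃ (g : CuspForm (CongruenceSubgroup.Gamma0 L) 2)
    (chig : CuspForm.heckeAlgebra L 2 (↑S : Set ℕ) →+* ℂ) (emb : chig.range →+* A),
    g.IsNewform ∧
    (∀ (ℓ : ℕ) (hℓ : ℓ.Prime) (hℓL : ¬ ℓ ∣ L) (hℓS : ℓ ∉ (↑S : Set ℕ)),
      chig (CuspForm.heckeAlgebra.T hℓ hℓL hℓS) = ModularFormClass.qCoeff g ℓ) ∧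
    ∀ (ℓ : ℕ) (hℓ : ℓ.Prime) (hℓL : ¬ ℓ ∣ L) (hℓS : ℓ ∉ (↑S : Set ℕ)),
      emb (chig.rangeRestrict (CuspForm.heckeAlgebra.T hℓ hℓL hℓS)) = c ⟨ℓ, hℓ⟩

/-- The exponents of the primes in the level of the newform behind a system on `H¹(Γ₀(L))` with
twist `θ`: exactly two in the conductor of `θ`, exactly one where no old system occurs. -/
structure IsExactLevel (θ : MulChar (ZMod N) A) (S : Finset ℕ) (c : Nat.Primes → A) (L L' : ℕ) :
    Prop where
  dvd : L' ∣ L * N
  pos : 0 < L'
  two : ∀ q : ℕ, q.Prime → NontrivialAt θ q → L'.factorization q = 2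
  le_one : ∀ q : ℕ, q.Prime → ¬ NontrivialAt θ q → L'.factorization q ≤ 1
  one : ∀ q : ℕ, q.Prime → q ∣ L → ¬ NontrivialAt θ q → NoOldAt θ S c L q →
    L'.factorization q = 1

end Fermat.Agent.RT.Assembly

end
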