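import Fermat.Agent.RT.Assembly.Defs
import Fermat.Agent.RT.Systems.ExactNewform
import Fermat.Agent.RT.Systems.Relation
import Fermat.Agent.RT.Systems.Untwist
import Mathlib.RingTheory.DedekindDomain.Factorization
import Mathlib.RingTheory.DiscreteValuationRing.Basic
import Mathlib.RingTheory.AdicCompletion.Basic
import Mathlib.Algebra.MvPolynomial.Variables

/-!
# Systems on the twisted modules come from forms of trivial character (PATCH part 2)

* `heckeRelation`: a relation between the good Hecke operators on the cusp forms of level `L * N`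
  holds, up to torsion and the Eisenstein part, for the twisted operators on level `L`.
* `exists_exactNewform`: a non-Eisenstein system is that of a newform of the exact level.
-/

set_option autoImplicit false

noncomputable section

namespace Fermat.Agent.RT.Assembly

open IsLocalRing TW
open Systems Periods CongruenceSubgroup

variable {N L : ℕ}

/-- A polynomial in the twisted operators as a polynomial in the operators. -/
def twPoly {A : Type} [CommRing A] (θ : MulChar (ZMod N) A) :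
    MvPolynomial Nat.Primes ℤ →+* HeckePoly A :=
  MvPolynomial.eval₂Hom (Int.castRingHom _)
    fun ℓ => MvPolynomial.C (Ring.inverse (θ ((ℓ : ℕ) : ZMod N))) * MvPolynomial.X ℓ

variable (N) in
/-- The good operator at `ℓ` on cusp forms of level `N`, zero elsewhere. -/
def formOp [NeZero N] (S : Finset ℕ) (ℓ : Nat.Primes) :
    CuspForm.heckeAlgebra N 2 (↑S : Set ℕ) :=
  if h : ¬ (ℓ : ℕ) ∣ N ∧ (ℓ : ℕ) ∉ (↑S : Set ℕ) then CuspForm.heckeAlgebra.T ℓ.2 h.1 h.2 else 0

variable {O : Type} [CommRing O] [IsDomain O] [CharZero O]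

/-- A relation on cusp forms of level `L * N` holds on the twisted module after the Eisenstein
part and the torsion are removed. -/
theorem heckeRelation [NeZero N] [NeZero L] (h : N ∣ L) (hsq : Squarefree L) (θ : MulChar (ZMod N) O)
    (hodd : ∀ u : (ZMod N)ˣ, ∃ k : ℕ, Odd k ∧ θ u ^ k = 1) (S : Finset ℕ)
    (hS : ∀ q : ℕ, q.Prime → q ∣ L → q ∈ S) (F : MvPolynomial Nat.Primes ℤ)
    (hFS : ∀ ℓ : Nat.Primes, ℓ ∈ F.vars → (ℓ : ℕ) ∉ S)
    (hF : MvPolynomial.eval₂Hom (Int.castRingHom _) (formOp (L * N) S) F = 0)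
    (ℓ : Nat.Primes) (hℓS : (ℓ : ℕ) ∉ S) (hℓ1 : ((ℓ : ℕ) : ZMod (L * N)) = 1)
    (y : heckeH1 (neben θ) L h) :
    ∃ a : O, a ≠ 0 ∧
      a • heckeAct (neben θ) h (twPoly θ F)
        (twOp θ h ℓ y - (((ℓ : ℕ) : O) + 1) • y) = 0 := by
  obtain ⟨R, _, J, hJ, -⟩ := exists_isUntwist N θ h (fun r hr hrN =>
    le_antisymm (Squarefree.natFactorization_le_one r hsq)
      (hr.factorization_pos_of_dvd (NeZero.ne L) (hrN.trans h))) hodd 0
  obtain ⟨a, ha, hker⟩ := hJ.ker
  have hSM : ∀ q : ℕ, q.Prime → q ∣ L * N → q ∈ S := fun q hq hd =>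
    hS q hq ((hq.dvd_mul.1 hd).elim id fun hN => hN.trans h)
  refine ⟨a, ha, hker _ ?_⟩
  refine untwist_relation hJ.dvd_mul h θ S J
    (fun p hp => hJ.comm p fun hd => hp (hS _ p.2 (hd.trans h))) hSM F hFS
    (formOp (L * N) S) (fun p hp => ?_) hF
    ((heckeAct (neben θ) h).toRingHom.comp (twPoly θ)) (fun p => ?_) ℓ hℓS hℓ1 y
  · have hd : ¬ (p : ℕ) ∣ L * N := fun hd => hFS p hp (hSM _ p.2 hd)
    rw [formOp, dif_pos (And.intro hd (show (p : ℕ) ∉ (↑S : Set ℕ) from hFS p hp)), formT,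
      dif_pos hd, CuspForm.heckeAlgebra.coe_T]
  · show heckeAct (neben θ) h (twPoly θ (MvPolynomial.X p)) = twOp θ h p
    rw [twPoly, MvPolynomial.eval₂Hom_X', map_mul, heckeAct_C, heckeAct_X, smul_mul_assoc, one_mul]
    rfl

/-- A non-Eisenstein system on the twisted module is the system of a newform of the exact
level. -/
theorem exists_exactNewform [IsDiscreteValuationRing O] [IsAdicComplete (maximalIdeal O) O]
    [Finite (ResidueField O)] [NeZero N] [NeZero L] (h : N ∣ L) (hsq : Squarefree L)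
    (θ : MulChar (ZMod N) O) (hodd : ∀ u : (ZMod N)ˣ, ∃ k : ℕ, Odd k ∧ θ u ^ k = 1)
    (S : Finset ℕ) (hS : ∀ q : ℕ, q.Prime → q ∣ L → q ∈ S) (c : Nat.Primes → O)
    (hEis : ∃ ℓ : Nat.Primes, (ℓ : ℕ) ∉ S ∧ ((ℓ : ℕ) : ZMod (L * N)) = 1 ∧
      c ℓ ≠ ((ℓ : ℕ) : O) + 1)
    {y : heckeH1 (neben θ) L h} (hy : y ∈ twSystem θ h S c)
    (hy0 : ∀ a : O, a ≠ 0 → a • y ≠ 0) :
    ∃ (L' : ℕ) (_ : NeZero L'), IsExactLevel θ S c L L' ∧ IsNewformSystem S L' c :=
  Systems.exists_exactNewform_of_system h hsq θ hodd S hS c hEis hy hy0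

end Fermat.Agent.RT.Assembly

end
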