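import Fermat.Agent.RT.Assembly.Defs
import Mathlib.NumberTheory.DirichletCharacter.Basic
import Mathlib.Algebra.MonoidAlgebra.Basic
import Mathlib.GroupTheory.SpecificGroups.Cyclic
import Mathlib.RingTheory.IntegralDomain
import Mathlib.FieldTheory.Finite.Basic
import Mathlib.Data.Nat.ChineseRemainder
import Mathlib.Data.Nat.Squarefree

/-!
# The tautological twist by the diamond group of a set of auxiliary primes

For distinct primes `qv i` not dividing `N₀`, with `N = (∏ qv i) N₀` and `p ^ e i ∣ qv i - 1`, the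
group `Δ = ∏ ℤ/p^(e i)` is a quotient of `(ℤ/N)ˣ`; with a character `χ` modulo `N₀` this gives the
character `tautTwist = χ · [·]` with values in `O[Δ]`, and its specialisations.
-/

set_option autoImplicit false

noncomputable section

namespace Fermat.Agent.RT.Assembly

/-- The group of diamond operators. -/
abbrev TwistGroup (p : ℕ) {r : ℕ} (e : Fin r → ℕ) : Type :=
  Multiplicative (∀ i, ZMod (p ^ e i))

/-- Its group ring. -/
abbrev TwistRing (O : Type) [CommRing O] (p : ℕ) {r : ℕ} (e : Fin r → ℕ) : Type :=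
  MonoidAlgebra O (TwistGroup p e)

theorem exists_logHom {q m : ℕ} (hq : q.Prime) (hm : m ∣ q - 1) :
    ∃ f : (ZMod q)ˣ →* Multiplicative (ZMod m), Function.Surjective f := by
  haveI := Fact.mk hq
  have hc : Nat.card (ZMod q)ˣ = q - 1 := by rw [Nat.card_eq_fintype_card, ZMod.card_units]
  let g : Multiplicative (ZMod (Nat.card (ZMod q)ˣ)) ≃* (ZMod q)ˣ :=
    zmodCyclicMulEquiv inferInstance
  refine ⟨(AddMonoidHom.toMultiplicative
    (ZMod.castHom (hc ▸ hm : m ∣ Nat.card (ZMod q)ˣ) (ZMod m)).toAddMonoidHom).comp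
      g.symm.toMonoidHom, fun x => ?_⟩
  obtain ⟨y, hy⟩ := ZMod.castHom_surjective (hc ▸ hm : m ∣ Nat.card (ZMod q)ˣ) x.toAdd
  exact ⟨g (Multiplicative.ofAdd y), by simp [hy]⟩

/-- A surjection `(ℤ/q)ˣ → ℤ/m` for `m ∣ q - 1`. -/
def logHom {q m : ℕ} (hq : q.Prime) (hm : m ∣ q - 1) : (ZMod q)ˣ →* Multiplicative (ZMod m) :=
  (exists_logHom hq hm).choose

theorem logHom_surjective {q m : ℕ} (hq : q.Prime) (hm : m ∣ q - 1) :
    Function.Surjective (logHom hq hm) :=
  (exists_logHom hq hm).choose_spec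

/-- The data of a tautological twist. -/
structure TwistData (p N N₀ : ℕ) {r : ℕ} (qv e : Fin r → ℕ) : Prop where
  eq : N = (∏ i, qv i) * N₀
  pos : 0 < N₀
  prime : ∀ i, (qv i).Prime
  inj : Function.Injective qv
  not_dvd : ∀ i, ¬ qv i ∣ N₀
  dvd_sub : ∀ i, p ^ e i ∣ qv i - 1

variable {p N N₀ r : ℕ} {qv e : Fin r → ℕ}

theorem TwistData.dvd_left (D : TwistData p N N₀ qv e) (i : Fin r) : qv i ∣ N :=
  D.eq ▸ (Finset.dvd_prod_of_mem qv (Finset.mem_univ i)).mul_right N₀

theorem TwistData.dvd_right (D : TwistData p N N₀ qv e) : N₀ ∣ N :=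
  D.eq ▸ dvd_mul_left N₀ _

theorem TwistData.ne_zero (D : TwistData p N N₀ qv e) : N ≠ 0 :=
  D.eq ▸ Nat.mul_ne_zero (Finset.prod_ne_zero_iff.2 fun i _ => (D.prime i).ne_zero) D.pos.ne'

theorem TwistData.coprime (D : TwistData p N N₀ qv e) {i j : Fin r} (hij : i ≠ j) :
    (qv i).Coprime (qv j) :=
  (Nat.coprime_primes (D.prime i) (D.prime j)).2 fun h => hij (D.inj h)

/-- The map to the group of diamond operators. -/
def twistKappa (D : TwistData p N N₀ qv e) : (ZMod N)ˣ →* TwistGroup p e where
  toFun u := Multiplicative.ofAdd fun i =>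
    (logHom (D.prime i) (D.dvd_sub i) (ZMod.unitsMap (D.dvd_left i) u)).toAdd
  map_one' := by ext i; simp
  map_mul' u v := by ext i; simp

theorem twistKappa_apply (D : TwistData p N N₀ qv e) (u : (ZMod N)ˣ) (i : Fin r) :
    (twistKappa D u).toAdd i =
      (logHom (D.prime i) (D.dvd_sub i) (ZMod.unitsMap (D.dvd_left i) u)).toAdd := rfl

/-- Units of `ℤ/N` with prescribed components. -/
theorem TwistData.exists_unit (D : TwistData p N N₀ qv e) (w : ∀ i, (ZMod (qv i))ˣ)
    (w₀ : (ZMod N₀)ˣ) :
    ∃ u : (ZMod N)ˣ, (∀ i, ZMod.unitsMap (D.dvd_left i) u = w i) ∧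
      ZMod.unitsMap D.dvd_right u = w₀ := by
  classical
  haveI : ∀ i, NeZero (qv i) := fun i => ⟨(D.prime i).ne_zero⟩
  haveI : NeZero N₀ := ⟨D.pos.ne'⟩
  let s : Option (Fin r) → ℕ := fun o => o.elim N₀ qv
  let a : Option (Fin r) → ℕ := fun o =>
    o.elim (w₀ : ZMod N₀).val fun i => (w i : ZMod (qv i)).val
  obtain ⟨x, hx⟩ := Nat.chineseRemainderOfFinset a s Finset.univ
    (fun o _ => by cases o with
      | none => exact D.pos.ne'
      | some i => exact (D.prime i).ne_zero)
    (fun o _ o' _ hoo' => by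
      show (s o).Coprime (s o')
      cases o <;> cases o'
      · exact absurd rfl hoo'
      · exact ((D.prime _).coprime_iff_not_dvd.2 (D.not_dvd _)).symm
      · exact (D.prime _).coprime_iff_not_dvd.2 (D.not_dvd _)
      · exact D.coprime fun h => hoo' (congrArg some h))
  have hxi : ∀ i, (x : ZMod (qv i)) = w i := fun i =>
    ((ZMod.natCast_eq_natCast_iff x (w i : ZMod (qv i)).val (qv i)).2
      (hx (some i) (Finset.mem_univ _))).trans (ZMod.natCast_zmod_val _)
  have hx0 : (x : ZMod N₀) = w₀ :=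
    ((ZMod.natCast_eq_natCast_iff x (w₀ : ZMod N₀).val N₀).2
      (hx none (Finset.mem_univ _))).trans (ZMod.natCast_zmod_val _)
  have hcop : x.Coprime N := by
    rw [D.eq]
    exact Nat.Coprime.mul_right
      (Nat.Coprime.prod_right fun i _ => (ZMod.isUnit_iff_coprime _ _).1 (hxi i ▸ (w i).isUnit))
      ((ZMod.isUnit_iff_coprime _ _).1 (hx0 ▸ w₀.isUnit))
  refine ⟨ZMod.unitOfCoprime x hcop, fun i => Units.ext ?_, Units.ext ?_⟩
  · rw [ZMod.unitsMap_val, ZMod.coe_unitOfCoprime, ZMod.cast_natCast (D.dvd_left i), hxi]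
  · rw [ZMod.unitsMap_val, ZMod.coe_unitOfCoprime, ZMod.cast_natCast D.dvd_right, hx0]

theorem twistKappa_surjective (D : TwistData p N N₀ qv e) (g : TwistGroup p e) :
    ∃ u, twistKappa D u = g ∧ ZMod.unitsMap D.dvd_right u = 1 := by
  choose w hw using fun i => logHom_surjective (D.prime i) (D.dvd_sub i)
    (Multiplicative.ofAdd (g.toAdd i))
  obtain ⟨u, hu, hu0⟩ := D.exists_unit w 1
  refine ⟨u, Multiplicative.toAdd.injective (funext fun i => ?_), hu0⟩
  rw [twistKappa_apply, hu, hw, toAdd_ofAdd]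

variable {O : Type} [CommRing O]

/-- The tautological twist: `χ` times the class in the group ring. -/
def tautTwist (D : TwistData p N N₀ qv e) (χ : MulChar (ZMod N₀) O) :
    MulChar (ZMod N) (TwistRing O p e) :=
  DirichletCharacter.changeLevel D.dvd_right (χ.ringHomComp (algebraMap O (TwistRing O p e))) *
    MulChar.ofUnitHom ((MonoidAlgebra.of O (TwistGroup p e)).toHomUnits.comp (twistKappa D))

theorem tautTwist_apply (D : TwistData p N N₀ qv e) (χ : MulChar (ZMod N₀) O) (u : (ZMod N)ˣ) :
    tautTwist D χ u = algebraMap O (TwistRing O p e) (χ (ZMod.unitsMap D.dvd_right u : ZMod N₀)) *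
      MonoidAlgebra.of O (TwistGroup p e) (twistKappa D u) := by
  rw [tautTwist, MulChar.mul_apply, DirichletCharacter.changeLevel_eq_cast_of_dvd,
    MulChar.ofUnitHom_coe, MulChar.ringHomComp_apply, ZMod.unitsMap_val]
  rfl

section Specialise

variable {O' : Type} [CommRing O'] [Algebra O O']

/-- Specialisation of the group ring by a character. -/
def twistSpec (ξ : TwistGroup p e →* O') : TwistRing O p e →ₐ[O] O' :=
  MonoidAlgebra.lift O O' (TwistGroup p e) ξ

theorem twistSpec_of (ξ : TwistGroup p e →* O') (g : TwistGroup p e) :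
    twistSpec (O := O) ξ (MonoidAlgebra.of O (TwistGroup p e) g) = ξ g :=
  MonoidAlgebra.lift_of ξ g

theorem tautTwist_spec_apply (D : TwistData p N N₀ qv e) (χ : MulChar (ZMod N₀) O)
    (ξ : TwistGroup p e →* O') (u : (ZMod N)ˣ) :
    (tautTwist D χ).ringHomComp (twistSpec (O := O) ξ).toRingHom u =
      algebraMap O O' (χ (ZMod.unitsMap D.dvd_right u : ZMod N₀)) * ξ (twistKappa D u) := by
  rw [MulChar.ringHomComp_apply, tautTwist_apply, map_mul]
  simp [twistSpec, Algebra.smul_def]

end Specialise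

/-- The augmentation. -/
def twistAug (O : Type) [CommRing O] (p : ℕ) {r : ℕ} (e : Fin r → ℕ) : TwistRing O p e →ₐ[O] O :=
  twistSpec 1

theorem tautTwist_aug (D : TwistData p N N₀ qv e) (χ : MulChar (ZMod N₀) O) :
    (tautTwist D χ).ringHomComp (twistAug O p e).toRingHom =
      DirichletCharacter.changeLevel D.dvd_right χ := by
  ext u
  rw [twistAug, tautTwist_spec_apply, DirichletCharacter.changeLevel_eq_cast_of_dvd,
    ZMod.unitsMap_val]
  simp

theorem tautTwist_aug_comp (D : TwistData p N N₀ qv e) (χ : MulChar (ZMod N₀) O) {k : Type}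
    [CommRing k] (res : O →+* k) :
    (tautTwist D χ).ringHomComp (res.comp (twistAug O p e).toRingHom) =
      DirichletCharacter.changeLevel D.dvd_right (χ.ringHomComp res) := by
  ext u
  rw [DirichletCharacter.changeLevel_eq_cast_of_dvd, MulChar.ringHomComp_apply,
    MulChar.ringHomComp_apply, RingHom.comp_apply, ← ZMod.unitsMap_val D.dvd_right]
  congr 1
  have h := tautTwist_spec_apply D χ (1 : TwistGroup p e →* O) u
  rw [MulChar.ringHomComp_apply] at h
  simpa [twistAug] using h

section Conductor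

variable {A : Type} [CommRing A]

theorem unitsMap_eq_one_of_squarefree {n m : ℕ} (hn : n ∣ m) (hsf : Squarefree n)
    (u : (ZMod m)ˣ) (h : ∀ l : ℕ, l.Prime → l ∣ n → (ZMod.cast (u : ZMod m) : ZMod l) = 1) :
    ZMod.unitsMap hn u = 1 := by
  refine Units.ext ?_
  rw [ZMod.unitsMap_val, Units.val_one]
  set z : ℤ := ((u : ZMod m).cast : ℤ)
  have hz : (z : ZMod m) = u := ZMod.intCast_zmod_cast _
  have hdvd : (n : ℤ) ∣ z - 1 := by
    rw [Int.natCast_dvd, ← Nat.prod_primeFactors_of_squarefree hsf]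
    refine Finset.prod_primes_dvd _ (fun l hl => (Nat.prime_of_mem_primeFactors hl).prime)
      fun l hl => ?_
    have hl' := Nat.dvd_of_mem_primeFactors hl
    rw [← Int.natCast_dvd, ← ZMod.intCast_zmod_eq_zero_iff_dvd, Int.cast_sub, Int.cast_one,
      sub_eq_zero, ← ZMod.cast_intCast (hl'.trans hn) z (R := ZMod l), hz]
    exact h l (Nat.prime_of_mem_primeFactors hl) hl'
  rw [← ZMod.intCast_zmod_eq_zero_iff_dvd, Int.cast_sub, Int.cast_one, sub_eq_zero] at hdvd
  rw [← hdvd, ← ZMod.cast_intCast hn z (R := ZMod n), hz]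

theorem twistKappa_eq_one_of_cast (D : TwistData p N N₀ qv e) (u : (ZMod N)ˣ) (i : Fin r)
    (h : (ZMod.cast (u : ZMod N) : ZMod (qv i)) = 1) : (twistKappa D u).toAdd i = 0 := by
  rw [twistKappa_apply, show ZMod.unitsMap (D.dvd_left i) u = 1 from Units.ext (by
    rw [ZMod.unitsMap_val, Units.val_one, h]), map_one, toAdd_one]

/-- At an auxiliary prime the image of the twist is ramified exactly when the component of the
group is not killed. -/
theorem nontrivialAt_tautTwist_iff (D : TwistData p N N₀ qv e) (hsf : Squarefree N₀)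
    (χ : MulChar (ZMod N₀) O) (f : TwistRing O p e →+* A) (i : Fin r) :
    NontrivialAt ((tautTwist D χ).ringHomComp f) (qv i) ↔
      ∃ x : ZMod (p ^ e i),
        f (MonoidAlgebra.of O (TwistGroup p e) (Multiplicative.ofAdd (Pi.single i x))) ≠ 1 := by
  constructor
  · rintro ⟨-, u, hu, hne⟩
    refine ⟨(twistKappa D u).toAdd i, fun h1 => hne ?_⟩
    have h0 : ZMod.unitsMap D.dvd_right u = 1 :=
      unitsMap_eq_one_of_squarefree D.dvd_right hsf u fun l hl hln =>
        hu l hl (hln.trans D.dvd_right) fun e' => D.not_dvd i (e' ▸ hln)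
    have hg : twistKappa D u = Multiplicative.ofAdd (Pi.single i ((twistKappa D u).toAdd i)) :=
      Multiplicative.toAdd.injective (funext fun j => by
        rcases eq_or_ne j i with rfl | hj
        · simp
        · rw [toAdd_ofAdd, Pi.single_eq_of_ne hj]
          exact twistKappa_eq_one_of_cast D u j
            (hu _ (D.prime j) (D.dvd_left j) fun e' => hj (D.inj e')))
    rw [MulChar.ringHomComp_apply, tautTwist_apply, h0, Units.val_one, map_one, map_one, one_mul,
      hg, h1]
  · rintro ⟨x, hx⟩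
    classical
    obtain ⟨w, hw⟩ := logHom_surjective (D.prime i) (D.dvd_sub i) (Multiplicative.ofAdd x)
    obtain ⟨u, hu, hu0⟩ := D.exists_unit (fun j => if hj : i = j then hj ▸ w else 1) 1
    have hg : twistKappa D u = Multiplicative.ofAdd (Pi.single i x) :=
      Multiplicative.toAdd.injective (funext fun j => by
        rw [twistKappa_apply, hu, toAdd_ofAdd]
        rcases eq_or_ne i j with rfl | hj
        · simp [hw]
        · simp [hj])
    refine ⟨D.dvd_left i, u, fun l hl hln hli => ?_, ?_⟩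
    · rw [D.eq] at hln
      rcases hl.dvd_mul.1 hln with hl' | hl'
      · obtain ⟨j, -, hj⟩ := (Prime.dvd_finsetProd_iff hl.prime qv).1 hl'
        obtain rfl := (Nat.prime_dvd_prime_iff_eq hl (D.prime j)).1 hj
        have hij : i ≠ j := fun e' => hli (e' ▸ rfl)
        have := congrArg Units.val (hu j)
        rw [dif_neg hij, Units.val_one, ZMod.unitsMap_val] at this
        exact this
      · have h1 : (ZMod.cast (u : ZMod N) : ZMod N₀) = 1 := by
          rw [← ZMod.unitsMap_val D.dvd_right, hu0, Units.val_one]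
        have := congrArg (ZMod.castHom hl' (ZMod l)) h1
        rw [map_one, ← ZMod.castHom_apply (h := D.dvd_right) (u : ZMod N), ← RingHom.comp_apply,
          ZMod.castHom_comp] at this
        simpa using this
    · rw [MulChar.ringHomComp_apply, tautTwist_apply, hu0, Units.val_one, map_one, map_one,
        one_mul, hg]
      exact hx

/-- Away from the auxiliary primes the image of the twist has the ramification of `χ`. -/
theorem nontrivialAt_tautTwist_iff_of_dvd (D : TwistData p N N₀ qv e)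
    (χ : MulChar (ZMod N₀) O) (f : TwistRing O p e →+* A) {l : ℕ} (hl : l.Prime) (hl₀ : l ∣ N₀) :
    NontrivialAt ((tautTwist D χ).ringHomComp f) l ↔
      NontrivialAt (χ.ringHomComp (f.comp (algebraMap O (TwistRing O p e)))) l := by
  have hne : ∀ i, qv i ≠ l := fun i e' => D.not_dvd i (e' ▸ hl₀)
  have hcast : ∀ (u : (ZMod N)ˣ) (m : ℕ), m ∣ N₀ →
      (ZMod.cast (ZMod.unitsMap D.dvd_right u : ZMod N₀) : ZMod m) = ZMod.cast (u : ZMod N) := by
    intro u m hm
    rw [ZMod.unitsMap_val, ← ZMod.castHom_apply (h := hm), ← ZMod.castHom_apply (h := D.dvd_right),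
      ← RingHom.comp_apply, ZMod.castHom_comp, ZMod.castHom_apply]
  have hval : ∀ u : (ZMod N)ˣ, twistKappa D u = 1 →
      ((tautTwist D χ).ringHomComp f) u =
        χ.ringHomComp (f.comp (algebraMap O (TwistRing O p e)))
          (ZMod.unitsMap D.dvd_right u : ZMod N₀) := fun u hg => by
    rw [MulChar.ringHomComp_apply, MulChar.ringHomComp_apply, tautTwist_apply, hg, map_one,
      mul_one]
    rfl
  constructor
  · rintro ⟨-, u, hu, hne'⟩
    have hg : twistKappa D u = 1 := Multiplicative.toAdd.injective (funext fun j =>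
      twistKappa_eq_one_of_cast D u j (hu _ (D.prime j) (D.dvd_left j) (hne j)))
    refine ⟨hl₀, ZMod.unitsMap D.dvd_right u, fun m hm hmn hml => ?_, fun h1 => hne' ?_⟩
    · rw [hcast u m hmn]
      exact hu m hm (hmn.trans D.dvd_right) hml
    · rw [hval u hg, h1]
  · rintro ⟨-, w₀, hw, hne'⟩
    obtain ⟨u, hu, hu0⟩ := D.exists_unit (fun _ => 1) w₀
    have hg : twistKappa D u = 1 := Multiplicative.toAdd.injective (funext fun j => by
      rw [twistKappa_apply, hu, map_one, toAdd_one]; rfl)
    refine ⟨hl₀.trans D.dvd_right, u, fun m hm hmN hml => ?_, ?_⟩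
    · rw [D.eq] at hmN
      rcases hm.dvd_mul.1 hmN with h' | h'
      · obtain ⟨j, -, hj⟩ := (Prime.dvd_finsetProd_iff hm.prime qv).1 h'
        obtain rfl := (Nat.prime_dvd_prime_iff_eq hm (D.prime j)).1 hj
        have := congrArg Units.val (hu j)
        rw [Units.val_one, ZMod.unitsMap_val] at this
        exact this
      · rw [← hcast u m h', hu0]
        exact hw m hm h' hml
    · rw [hval u hg, hu0]
      exact hne'

end Conductor

end Fermat.Agent.RT.Assembly

end
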