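import Fermat.Agent.RT.Assembly.Diamond
import Fermat.Agent.RT.Assembly.Twist
import Fermat.Agent.RT.Assembly.Points
import Fermat.Agent.RT.Assembly.LocalPoint
import Fermat.Agent.RT.TWIteration

/-!
# The fixed data of the patching argument and the contracts of its producers

* `Base`: a residual representation, its system at a squarefree level `M₀ * r₀` with `M₀` minimal,
  the twisting character and the hypotheses used. No hypothesis on the curve and any `p ≥ 3`.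
* `Level`: Taylor–Wiles primes of depth `n`.
* `HeckeModel`: the Hecke operators on the local part of the twisted cohomology as matrices over
  the group ring of the diamond operators.
* `IsLevelPoint`: the local properties of the representation of an eigensystem of a model.
-/

set_option autoImplicit false

noncomputable section

open IsLocalRing Polynomial

namespace Fermat.Agent.RT.Assembly

open Diamond TW

local notation "ℚ̄" => AlgebraicClosure ℚ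
local notation "Γℚ" => (AlgebraicClosure ℚ ≃ₐ[ℚ] AlgebraicClosure ℚ)

/-- The fixed data. -/
structure Base (O : Type) [CommRing O] [IsDomain O] [IsDiscreteValuationRing O]
    [IsAdicComplete (maximalIdeal O) O] [Finite (ResidueField O)] [CharZero O]
    (p : ℕ) [Fact p.Prime] where
  /-- the minimal level -/
  M₀ : ℕ
  /-- the auxiliary level, at which the system is old -/
  r₀ : ℕ
  /-- the conductor of the twist -/
  N₀ : ℕ
  /-- the excluded primes -/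
  S : Finset ℕ
  /-- eigenvalues of all operators at level `M₀ * r₀` -/
  a : Nat.Primes → ResidueField O
  /-- the twist -/
  χ : MulChar (ZMod N₀) O
  ρbar : ResidualGaloisRep (ResidueField O)
  bbar : Module.Basis (Fin 2) (ResidueField O) ρbar.V
  hp2 : p ≠ 2
  hpO : (p : O) ∈ maximalIdeal O
  squarefree : Squarefree (M₀ * r₀)
  N₀_dvd : N₀ ∣ M₀
  p_not_dvd : ¬ p ∣ N₀ ∧ ¬ p ∣ r₀
  p_mem : p ∈ S
  level_mem : ∀ q : ℕ, q.Prime → q ∣ M₀ * r₀ → q ∈ S
  cover : IsUnit (24 : O) ∨ ∃ q : ℕ, q.Prime ∧ q ∣ r₀ ∧ q % 12 = 11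
  χ_pow : ∀ u : (ZMod N₀)ˣ, χ u ^ p = 1
  χ_nontrivial : ∀ q : ℕ, q.Prime → q ∣ N₀ → NontrivialAt χ q
  absIrr : ρbar.IsAbsolutelyIrreducible
  det : (GaloisRepAdic.ofResidualGaloisRep ρbar).DetIsCyclotomic p
  idx2 : ∀ (K : Type) [Field K] [Algebra (ResidueField O) K] (G : Subgroup Γℚ), G.index = 2 →
    ∀ V : Submodule K (ρbar.baseChange K).V,
      (∀ σ ∈ G, ∀ x ∈ V, (ρbar.baseChange K).ρ σ x ∈ V) → V = ⊥ ∨ V = ⊤
  split : ∀ σ : Γℚ, ∃ α β : ResidueField O,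
    LinearMap.charpoly (ρbar.ρ σ) = (X - C α) * (X - C β)
  charpoly_frob : ∀ (ℓ : ℕ) (hℓ : ℓ.Prime), ℓ ∉ S → ∀ A : ValuationSubring ℚ̄,
    A.LiesOverPrime ℓ → ∀ σ : Γℚ, A.IsFrobeniusAt σ ℓ →
      LinearMap.charpoly (ρbar.ρ σ) = X ^ 2 - C (a ⟨ℓ, hℓ⟩) * X + C (ℓ : ResidueField O)
  occurs : ∃ y : heckeH1 (1 : MulChar (ZMod 1) (ResidueField O)) (M₀ * r₀) (one_dvd _), y ≠ 0 ∧
    ∀ ℓ : Nat.Primes,
      heckeOp (1 : MulChar (ZMod 1) (ResidueField O)) (one_dvd (M₀ * r₀)) ℓ y = a ℓ • y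
  nonEis : ∀ n : ℕ, n ≠ 0 → ∀ S' : Finset ℕ, ∃ ℓ : Nat.Primes, (ℓ : ℕ) ∉ S' ∧
    ((ℓ : ℕ) : ZMod n) = 1 ∧ a ℓ ≠ ((ℓ : ℕ) : ResidueField O) + 1
  minimal : ∀ (V : Type) [CommRing V] [IsDomain V] [IsDiscreteValuationRing V]
    [IsAdicComplete (maximalIdeal V) V] [Finite (ResidueField V)] [CharZero V] [Algebra O V]
    [IsLocalHom (algebraMap O V)] (S' : Finset ℕ) (L : ℕ) [NeZero L] (c : Nat.Primes → V),
    S ⊆ S' → L ∣ M₀ * r₀ → IsNewformSystem S' L c →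
    (∀ ℓ : Nat.Primes, (ℓ : ℕ) ∉ S' →
      residue V (c ℓ) = ResidueField.map (algebraMap O V) (a ℓ)) → M₀ ∣ L
  old : ∀ q : ℕ, q.Prime → q ∣ r₀ → ρbar.IsUnramifiedAt q ∧
    ∀ A : ValuationSubring ℚ̄, A.LiesOverPrime q → ∀ σ : Γℚ, A.IsFrobeniusAt σ q →
      LinearMap.trace (ResidueField O) ρbar.V (ρbar.ρ σ) ^ 2 ≠ ((q : ResidueField O) + 1) ^ 2
  ord : p ∣ M₀ → (GaloisRepAdic.ofResidualGaloisRep ρbar).IsStrictOrdinaryAt p

variable {O : Type} [CommRing O] [IsDomain O] [IsDiscreteValuationRing O]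
  [IsAdicComplete (maximalIdeal O) O] [Finite (ResidueField O)] [CharZero O]
  {p : ℕ} [Fact p.Prime]

/-- Taylor–Wiles primes of depth `n`. -/
structure Level (B : Base O p) (r n : ℕ) where
  qv : Fin r → Nat.Primes
  inj : Function.Injective qv
  not_mem : ∀ i, (qv i : ℕ) ∉ B.S
  e : Fin r → ℕ
  le_e : ∀ i, n ≤ e i
  pos_e : ∀ i, 0 < e i
  dvd_sub : ∀ i, p ^ e i ∣ (qv i : ℕ) - 1
  e_max : ∀ i, ¬ p ^ (e i + 1) ∣ (qv i : ℕ) - 1
  /-- a root of the residual Frobenius polynomial -/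
  α : Fin r → ResidueField O
  root : ∀ i, α i * α i + 1 = B.a (qv i) * α i
  distinct : ∀ i, α i * α i ≠ 1

namespace Level

variable {B : Base O p} {r n : ℕ} (Lv : Level B r n)

/-- The level. -/
def L : ℕ := B.M₀ * B.r₀ * ∏ i, (Lv.qv i : ℕ)

/-- The modulus of the twist. -/
def N : ℕ := (∏ i, (Lv.qv i : ℕ)) * B.N₀

/-- The excluded primes at this level. -/
def S' : Finset ℕ := B.S ∪ Finset.univ.image fun i => (Lv.qv i : ℕ)

/-- The group ring of the diamond operators. -/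
abbrev Λ : Type := Alg O (ppow p Lv.e)

theorem N₀_pos (B : Base O p) : 0 < B.N₀ :=
  Nat.pos_of_ne_zero fun h => B.squarefree.ne_zero (by
    have hM := B.N₀_dvd
    rw [h, zero_dvd_iff] at hM
    rw [hM, zero_mul])

theorem prod_qv_ne_zero : ∏ i, (Lv.qv i : ℕ) ≠ 0 :=
  Finset.prod_ne_zero_iff.2 fun i _ => (Lv.qv i).2.ne_zero

theorem L_ne_zero : Lv.L ≠ 0 :=
  mul_ne_zero B.squarefree.ne_zero Lv.prod_qv_ne_zero

theorem N_ne_zero : Lv.N ≠ 0 :=
  mul_ne_zero Lv.prod_qv_ne_zero (N₀_pos B).ne'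

instance : NeZero Lv.L := ⟨Lv.L_ne_zero⟩

instance : NeZero Lv.N := ⟨Lv.N_ne_zero⟩

theorem N_dvd_L : Lv.N ∣ Lv.L := by
  rw [N, L, mul_comm]
  exact mul_dvd_mul_right (B.N₀_dvd.mul_right _) _

theorem twistData : TwistData p Lv.N B.N₀ (fun i => (Lv.qv i : ℕ)) Lv.e where
  eq := rfl
  pos := N₀_pos B
  prime i := (Lv.qv i).2
  inj i j h := Lv.inj (Subtype.ext h)
  not_dvd i hd := Lv.not_mem i (B.level_mem _ (Lv.qv i).2 ((hd.trans B.N₀_dvd).mul_right _))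
  dvd_sub := Lv.dvd_sub

/-- The twist: `χ'` times the tautological character of the diamond operators. -/
def θ (χ' : MulChar (ZMod B.N₀) O) : MulChar (ZMod Lv.N) Lv.Λ :=
  tautTwist Lv.twistData χ'

/-- The residual map of the group ring. -/
def resΛ : Lv.Λ →+* ResidueField O :=
  (residue O).comp (aug O (ppow p Lv.e)).toRingHom

end Level

/-- The operators at the good primes on the local part of the twisted cohomology of a level, as
matrices over the group ring. -/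
structure HeckeModel {B : Base O p} {r n : ℕ} (Lv : Level B r n)
    (χ' : MulChar (ZMod B.N₀) O) (D : ℕ) where
  op : Nat.Primes → Matrix (Fin D) (Fin D) Lv.Λ
  comm : ∀ ℓ ℓ', Commute (op ℓ) (op ℓ')
  resid : ∀ ℓ : Nat.Primes, (ℓ : ℕ) ∉ Lv.S' →
    IsNilpotent ((op ℓ).map Lv.resΛ - B.a ℓ • (1 : Matrix (Fin D) (Fin D) (ResidueField O)))
  /-- the relations between the good operators on cusp forms of level `L * N` hold -/
  relation : ∀ F : MvPolynomial Nat.Primes ℤ, (∀ ℓ ∈ F.vars, (ℓ : ℕ) ∉ Lv.S') →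
    MvPolynomial.eval₂Hom (Int.castRingHom _) (formOp (Lv.L * Lv.N) Lv.S') F = 0 →
    ∀ (C : Type) [CommRing C] (f : Nat.Primes → C) (ι : C →+* Matrix (Fin D) (Fin D) Lv.Λ),
      Function.Injective ι → (∀ ℓ : Nat.Primes, (ℓ : ℕ) ∉ Lv.S' → ι (f ℓ) = op ℓ) →
      MvPolynomial.eval₂Hom (Int.castRingHom C) f F = 0
  /-- a common eigenvector of a specialisation gives a newform system of the exact level -/
  eigen : ∀ (V : Type) [CommRing V] [IsDomain V] [IsDiscreteValuationRing V]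
    [IsAdicComplete (maximalIdeal V) V] [Finite (ResidueField V)] [CharZero V] [Algebra O V]
    [IsLocalHom (algebraMap O V)],
    Function.Injective (algebraMap O V) → ∀ (ξ : Lv.Λ →ₐ[O] V) (c : Nat.Primes → V)
      (w : Fin D → V), w ≠ 0 →
      (∀ ℓ : Nat.Primes, (ℓ : ℕ) ∉ Lv.S' → ((op ℓ).map ξ).mulVec w = c ℓ • w) →
      ∃ (L' : ℕ) (_ : NeZero L'),
        IsExactLevel ((Lv.θ χ').ringHomComp ξ.toRingHom) Lv.S' c Lv.L L' ∧
          IsNewformSystem Lv.S' L' c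

/-- The local properties of the representation of an eigensystem at a level, for the twist `χ'`
and the specialisation `ξ` of the diamond operators. -/
structure IsLevelPoint {B : Base O p} {r n : ℕ} (Lv : Level B r n)
    (χ' : MulChar (ZMod B.N₀) O) {V : Type} [CommRing V] [IsLocalRing V] [Algebra O V]
    [IsLocalHom (algebraMap O V)] (ξ : Lv.Λ →ₐ[O] V) (c : Nat.Primes → V)
    (ρ : GaloisRepAdic V) : Prop where
  charpoly_frob : ∀ (ℓ : ℕ) (hℓ : ℓ.Prime), ℓ ∉ Lv.S' → ∀ A : ValuationSubring ℚ̄,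
    A.LiesOverPrime ℓ → ∀ σ : Γℚ, A.IsFrobeniusAt σ ℓ →
      LinearMap.charpoly (ρ.ρ σ) = X ^ 2 - C (c ⟨ℓ, hℓ⟩) * X + C (ℓ : V)
  det : ρ.DetIsCyclotomic p
  residual_isEquiv :
    ρ.residual.IsEquiv (B.ρbar.baseChangeAlong (ResidueField.map (algebraMap O V)))
  residual_absIrr : ρ.residual.IsAbsolutelyIrreducible
  unramified : ∀ q : ℕ, q.Prime → q ≠ p → ¬ q ∣ B.M₀ → (∀ i, q ≠ Lv.qv i) → ρ.IsUnramifiedAt q
  aux_trivial : ∀ i, ξ (delta O (N := ppow p Lv.e) i) = 1 → ρ.IsUnipotentOnInertiaAt (Lv.qv i)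
  aux_nontrivial : ∀ i, ξ (delta O (N := ppow p Lv.e) i) ≠ 1 → ∀ A : ValuationSubring ℚ̄,
    A.LiesOverPrime (Lv.qv i) →
      ∃ σ ∈ A.inertiaSubgroupIn ℚ, LinearMap.charpoly (ρ.ρ σ) ≠ (X - 1) ^ 2
  twisted : ∀ q : ℕ, q.Prime → q ∣ B.N₀ → NontrivialAt χ' q → ∀ A : ValuationSubring ℚ̄,
    A.LiesOverPrime q →
      ∃ σ ∈ A.inertiaSubgroupIn ℚ, LinearMap.charpoly (ρ.ρ σ) ≠ (X - 1) ^ 2
  unipotent : ∀ q : ℕ, q.Prime → q ≠ p → q ∣ B.M₀ → ¬ NontrivialAt χ' q →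
    ρ.IsUnipotentOnInertiaAt q
  steinberg : ∀ q : ℕ, q.Prime → q ≠ p → q ∣ B.M₀ → ¬ NontrivialAt χ' q →
    ∀ A : ValuationSubring ℚ̄, A.LiesOverPrime q → ∀ σ : Γℚ, A.IsFrobeniusAt σ q →
      LinearMap.charpoly (ρ.ρ σ) = X ^ 2 - C ((q : V) + 1) * X + C (q : V) ∨
      LinearMap.charpoly (ρ.ρ σ) = X ^ 2 + C ((q : V) + 1) * X + C (q : V)
  flat : ¬ p ∣ B.M₀ → ρ.IsFlatAt p
  strictOrdinary : p ∣ B.M₀ → ρ.IsStrictOrdinaryAt p

end Fermat.Agent.RT.Assembly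

end
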