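import Fermat.Agent.RT.Assembly.Diamond
import Fermat.Agent.RT.Global.FrameRing
import Fermat.Agent.RT.Global.Presentation
import Fermat.Agent.RT.LocalParam.Setup
import Mathlib.RingTheory.Finiteness.Basic

/-!
# The input of the patching argument, one level at a time

* `FramePlaces`: at each place of `Σ` the residual shape, the elements (Frobenius, inertia) and
  the change of basis to the normal form.
* `PointPred`, `SteinbergPred`: the conditions at the places of `Σ` on a representation over a
  point ring, invariant under conjugation.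
* `PointsKill`: an element of `R` vanishing at all points satisfying a condition acts by zero.
* `LevelInput`: everything required at level `n`.
-/

set_option autoImplicit false

noncomputable section

open IsLocalRing

namespace Fermat.Agent.RT.Assembly

open Diamond LocalParam LocalRing

local notation "Γℚ" => (AlgebraicClosure ℚ ≃ₐ[ℚ] AlgebraicClosure ℚ)

variable {O : Type} [CommRing O] [IsLocalRing O]

/-- The data at the places of `Σ`. -/
structure FramePlaces (O : Type) [CommRing O] [IsLocalRing O] (p m s : ℕ) where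
  setup : Setup (Fin s) O p m
  /-- Frobenius and inertia -/
  el : Fin s → Fin 2 → Γℚ
  /-- to the normal form -/
  G : Fin s → (Mat O)ˣ

variable {p m s : ℕ}

/-- The chosen lifts of the residual matrices. -/
def FramePlaces.lift0 (D : FramePlaces O p m s) (j : Fin s) (e : Fin 2) : Mat O :=
  ((D.G j)⁻¹ : (Mat O)ˣ) *
    ((if e = 0 then ((D.setup.kind j).centre (D.setup.n j)).1
      else ((D.setup.kind j).centre (D.setup.n j)).2) * (D.G j : Mat O))

section Pred

variable {V : Type} [CommRing V]

/-- The condition on a point at the places of `Σ`; `φ` is the structure map of the point ring. -/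
def PointPred (D : FramePlaces O p m s) (φ : O →+* V) (M : Γℚ → Mat V) : Prop :=
  ∀ j, M (D.el j 0) * M (D.el j 1) = M (D.el j 1) ^ D.setup.n j * M (D.el j 0) ∧
    (M (D.el j 0)).det = (D.setup.n j : V) ∧ (M (D.el j 1)).det = 1 ∧
    ((D.setup.kind j).isTwisted = true →
      ∃ z : V, z ^ D.setup.n j = z ∧ (∃ k : ℕ, z ^ p ^ k = 1) ∧ z ≠ 1 ∧
        z * (M (D.el j 1)).trace = z * z + 1) ∧
    ((D.setup.kind j).isTwisted = false → (M (D.el j 1)).trace = 2) ∧
    ∀ β, D.setup.kind j = .special β →
      (M (D.el j 0)).trace = φ β * ((D.setup.n j : V) + 1)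

/-- The condition of a point new at `j₀`. -/
def SteinbergPred (D : FramePlaces O p m s) (j₀ : Fin s) (M : Γℚ → Mat V) : Prop :=
  (M (D.el j₀ 0)).trace ^ 2 = ((D.setup.n j₀ : V) + 1) ^ 2

end Pred

/-- Elements vanishing at all points with the property act by zero. -/
def PointsKill {R M : Type} [CommRing R] [Algebra O R] [AddCommGroup M] (act : R → M → M)
    (Pred : ∀ ⦃V : Type⦄ [CommRing V], (R →+* V) → Prop) : Prop :=
  ∀ x : R, (∀ (V : Type) [CommRing V] [IsDomain V] [IsDiscreteValuationRing V] [CharZero V]
      [IsAdicComplete (maximalIdeal V) V] [Algebra O V] [IsLocalHom (algebraMap O V)]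
      [Module.Finite O V], Function.Injective (algebraMap O V) →
      ∀ f : R →ₐ[O] V, IsLocalHom (f : R →+* V) → Pred (f : R →+* V) → f x = 0) →
    ∀ v, act x v = 0

/-- The input at level `n`: the auxiliary primes have `r` diamond generators of order at least
`p^n`, the ring `R` is presented over the framed local coordinates with `g` further variables, and
acts on the two modules of rank `D`. -/
structure LevelInput [Fact p.Prime] (FP : FramePlaces O p m s) (ϖ : O) (j₀ : Fin s)
    (r g D : ℕ) (n : ℕ) : Type 1 where
  e : Fin r → ℕ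
  le_e : ∀ i, n ≤ e i
  R : Type
  [instCommRing : CommRing R]
  [instIsLocalRing : IsLocalRing R]
  [instAlgebra : Algebra O R]
  /-- the representation -/
  rR : Γℚ →* Mat R
  /-- the presentation over the local coordinates -/
  Φ : MvPowerSeries (LocVar s ⊕ Fin g) O →ₐ[O] MvPowerSeries (FrameVar s) R
  Φ_surjective : Function.Surjective Φ
  Φ_X : ∀ i el a c, Φ (MvPowerSeries.X (Sum.inl (i, el, a, c))) =
    frameConj R s i (rR (FP.el i el)) a c -
      algebraMap O (MvPowerSeries (FrameVar s) R) (FP.lift0 i el a c)
  a : Fin r → R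
  a_pow : ∀ i, a i ^ p ^ e i = 1
  /-- the character at which `a i` has no fixed vector -/
  χ : Fin r → (Alg O (ppow p e) →ₐ[O] O)
  ζ : O
  hζ : IsPrimitiveRoot ζ p
  χ_delta : ∀ i, χ i (delta O (N := ppow p e) i) = ζ
  /-- the action on the twisted module -/
  ρ : R →ₐ[O] Module.End (Alg O (ppow p e)) (Fin D → Alg O (ppow p e))
  /-- the action on the untwisted module -/
  ρ₁ : R →ₐ[O] Module.End (Alg O (ppow p e)) (Fin D → Alg O (ppow p e))
  old : ∀ i (v : Fin D → Alg O (ppow p e)), ∃ w : Fin D → Alg O (ppow p e),
    ρ (a i) v - v = (delta O (N := ppow p e) i - 1) • w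
  new : ∀ i (v : Fin D → Alg O (ppow p e)),
    ρ (a i) v - v ∈ RingHom.ker (χ i) • (⊤ : Submodule (Alg O (ppow p e)) (Fin D → Alg O (ppow p e))) →
      v ∈ RingHom.ker (χ i) • (⊤ : Submodule (Alg O (ppow p e)) (Fin D → Alg O (ppow p e)))
  /-- the two modules agree modulo `ϖ` -/
  congr : ∀ x, ρ₁ x = 0 → ∀ v : Fin D → Alg O (ppow p e),
    ∃ w : Fin D → Alg O (ppow p e), ρ x v = ϖ • w
  points : PointsKill (O := O) (fun x => (ρ x : (Fin D → Alg O (ppow p e)) → _))
    fun V _ f => PointPred (V := V) FP (f.comp (algebraMap O R)) fun γ => (rR γ).map f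
  points₁ : PointsKill (O := O) (fun x => (ρ₁ x : (Fin D → Alg O (ppow p e)) → _))
    fun V _ f => SteinbergPred (V := V) FP j₀ fun γ => (rR γ).map f

attribute [instance] LevelInput.instCommRing LevelInput.instIsLocalRing LevelInput.instAlgebra

end Fermat.Agent.RT.Assembly

end
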