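import Fermat.Agent.RT.Assembly.Context
import Fermat.Agent.RT.TWIteration
import Fermat.Agent.Galois.Frobenius
import Fermat.Agent.Deformation.Matrix

/-!
# A level from Taylor–Wiles primes

`exists_level_of_twPrimes`: Taylor–Wiles primes of depth `n + 1` outside the excluded set carry
the data of a `Level`: the exact exponents and a root of each residual Frobenius polynomial.
-/

set_option autoImplicit false

noncomputable section

open IsLocalRing Polynomial

namespace Fermat.Agent.RT.Assembly

open Deformation (Mat matOf matOf_apply)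

local notation "ℚ̄" => AlgebraicClosure ℚ

variable {O : Type} [CommRing O] [IsDomain O] [IsDiscreteValuationRing O]
  [IsAdicComplete (maximalIdeal O) O] [Finite (ResidueField O)] [CharZero O]
  {p : ℕ} [Fact p.Prime]

/-- The eigenvalue data at a Taylor–Wiles prime. -/
theorem exists_root_of_twPrime (B : Base O p) {N q : ℕ} (hqS : q ∉ B.S) (hN : 0 < N)
    (hq : IsTWPrime (matOf B.ρbar.ρ B.bbar).toHomUnits p N q) (hq' : q.Prime) :
    ∃ α : ResidueField O, α * α + 1 = B.a ⟨q, hq'⟩ * α ∧ α * α ≠ 1 := by
  obtain ⟨-, -, hdvd, hloc⟩ := hq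
  obtain ⟨A, σ, hA, hσ⟩ := Galois.exists_valuationSubring_isFrobeniusAt hq'
  obtain ⟨α, β, hαβ⟩ := B.split σ
  have hcp := B.charpoly_frob q hq' hqS A hA σ hσ
  rw [hαβ] at hcp
  have hpk : (p : ResidueField O) = 0 := by
    rw [← map_natCast (residue O), residue_eq_zero_iff]
    exact B.hpO
  have hq1 : ((q : ℕ) : ResidueField O) = 1 := by
    obtain ⟨c, hc⟩ := (dvd_pow_self p hN.ne').trans hdvd
    have hqq : q = p * c + 1 := by have := hq'.pos; omega
    rw [hqq, Nat.cast_add, Nat.cast_mul, hpk, zero_mul, zero_add, Nat.cast_one]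
  have h1 : α + β = B.a ⟨q, hq'⟩ := by
    have := congrArg (fun P => P.coeff 1) hcp
    simp [coeff_X_pow, mul_sub, sub_mul, coeff_C] at this
    linear_combination -this
  have h0 : α * β = 1 := by
    have := congrArg (fun P => P.coeff 0) hcp
    simp at this
    rw [this, hq1]
  refine ⟨α, by linear_combination α * h1 - h0, fun hα => ?_⟩
  have hβ : β = α := mul_left_cancel₀ (left_ne_zero_of_mul_eq_one h0) (h0.trans hα.symm)
  refine ((hloc A hA).2 σ hσ).2 ?_
  have htr : (matOf B.ρbar.ρ B.bbar σ).trace = B.a ⟨q, hq'⟩ := by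
    have h := B.charpoly_frob q hq' hqS A hA σ hσ
    rw [← LinearMap.charpoly_toMatrix (B.ρbar.ρ σ) B.bbar, Matrix.charpoly_fin_two] at h
    have := congrArg (fun P => P.coeff 1) h
    simp [coeff_X_pow, coeff_C] at this
    exact this
  show (matOf B.ρbar.ρ B.bbar σ).trace ^ 2 = 4
  rw [htr, ← h1, hβ]
  linear_combination (4 : ResidueField O) * hα

/-- A level from Taylor–Wiles primes. -/
theorem exists_level_of_twPrimes (B : Base O p) {r n : ℕ} (qv : Fin r → ℕ)
    (hinj : Function.Injective qv)
    (hqv : ∀ i, qv i ∉ B.S ∧ IsTWPrime (matOf B.ρbar.ρ B.bbar).toHomUnits p (n + 1) (qv i)) :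
    ∃ Lv : Level B r n, (fun i => (Lv.qv i : ℕ)) = qv := by
  have hprime : ∀ i, (qv i).Prime := fun i => (hqv i).2.1
  have hp : p.Prime := Fact.out
  have hne : ∀ i, qv i - 1 ≠ 0 := fun i => by have := (hprime i).two_le; omega
  have hle : ∀ i, n + 1 ≤ (qv i - 1).factorization p := fun i =>
    (hp.pow_dvd_iff_le_factorization (hne i)).mp (hqv i).2.2.2.1
  choose α hroot hdist using fun i =>
    exists_root_of_twPrime B (hqv i).1 n.succ_pos (hqv i).2 (hprime i)
  exact ⟨{ qv := fun i => ⟨qv i, hprime i⟩
           inj := fun i j h => hinj (congrArg Subtype.val h)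
           not_mem := fun i => (hqv i).1
           e := fun i => (qv i - 1).factorization p
           le_e := fun i => (Nat.le_succ n).trans (hle i)
           pos_e := fun i => n.succ_pos.trans_le (hle i)
           dvd_sub := fun i => Nat.ordProj_dvd _ _
           e_max := fun i => Nat.pow_succ_factorization_not_dvd (hne i) hp
           α := α
           root := hroot
           distinct := hdist }, rfl⟩

end Fermat.Agent.RT.Assembly

end
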