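import Fermat.Prelude.Def_GaloisRep_DeformationRingData
import Fermat.Agent.RT.Assembly.Context
import Fermat.Agent.RT.Assembly.LevelInput
import Fermat.Agent.RT.Global.EulerFromLocal
import Fermat.Agent.RT.LocalQ.Rep
import Fermat.Agent.RT.LocalAtP.Flat
import Fermat.Agent.RT.Assembly.LevelOfPrimes
import Fermat.Agent.RT.Global.TangentFinite
import Fermat.Agent.RT.Global.Presentation
import Fermat.Agent.RT.Global.TameGeneration
import Fermat.Agent.Deformation.Tangent
import Fermat.Agent.Deformation.Universal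

/-!
# The deformation rings of the levels (PATCH part 4)

* `Frames`: tame pairs and normal forms at the primes of `M₀` other than `p`.
* `levelCond`: cyclotomic determinant, flat or strict ordinary at `p`, unramified outside `M₀`,
  `p` and the auxiliary primes.
* `exists_levelRings`: levels of every depth with a universal ring presented over the local
  coordinates.
-/

set_option autoImplicit false

noncomputable section

open IsLocalRing

namespace Fermat.Agent.RT.Assembly

open LocalParam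
open Deformation (Mat matOf matOf_apply)

local notation "ℚ̄" => AlgebraicClosure ℚ

variable {O : Type} [CommRing O] [IsDomain O] [IsDiscreteValuationRing O]
  [IsAdicComplete (maximalIdeal O) O] [Finite (ResidueField O)] [CharZero O]
  {p : ℕ} [Fact p.Prime]

/-- The places of `M₀` other than `p`, with their normal forms. -/
structure Frames (B : Base O p) (m s : ℕ) where
  FP : FramePlaces O p m s
  /-- the tame pair at a place -/
  T : ∀ j, TamePair p (FP.setup.n j)
  inj : Function.Injective FP.setup.n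
  cover : ∀ q : ℕ, (q.Prime ∧ q ≠ p ∧ q ∣ B.M₀) ↔ ∃ j, FP.setup.n j = q
  twisted_iff : ∀ j, (FP.setup.kind j).isTwisted = true ↔ FP.setup.n j ∣ B.N₀
  el_zero : ∀ j, FP.el j 0 = (T j).F
  el_one : ∀ j, FP.el j 1 = (T j).σ
  resTame : ∀ j, ∀ τ ∈ (T j).A.inertiaSubgroupIn ℚ, ∃ i : ℕ, B.ρbar.ρ τ ^ p ^ i = 1
  lift0_residual : ∀ j e, (FP.lift0 j e).map (residue O) = matOf B.ρbar.ρ B.bbar (FP.el j e)

/-- The condition on deformations at the auxiliary set `Q`. -/
def levelCond (B : Base O p) (Q : Finset ℕ) :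
    ∀ ⦃A : Type⦄ [CommRing A] [IsLocalRing A] [Algebra O A], GaloisRepAdic A → Prop :=
  fun _A _ _ _ ρ => ρ.DetIsCyclotomic p ∧
    (¬ p ∣ B.M₀ → ρ.IsFlatAt p) ∧ (p ∣ B.M₀ → ρ.IsStrictOrdinaryAt p) ∧
    ∀ q : ℕ, q.Prime → q ≠ p → ¬ q ∣ B.M₀ → q ∉ Q → ρ.IsUnramifiedAt q

/-- The condition at the levels is the flat or the strict ordinary condition. -/
theorem levelCond_iff (B : Base O p) (Q : Finset ℕ) {A : Type} [CommRing A] [IsLocalRing A]
    [Algebra O A] (ρ : GaloisRepAdic A) :
    levelCond B Q ρ ↔ if p ∣ B.M₀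
      then GaloisRep.strictOrdinaryCondition O p (insert p (B.M₀.primeFactors ∪ Q)) ρ
      else GaloisRep.flatCondition O p (insert p (B.M₀.primeFactors ∪ Q)) ρ := by
  have hM : B.M₀ ≠ 0 := left_ne_zero_of_mul B.squarefree.ne_zero
  have hmem : ∀ q : ℕ, q.Prime →
      (q ∉ insert p (B.M₀.primeFactors ∪ Q) ↔ q ≠ p ∧ ¬ q ∣ B.M₀ ∧ q ∉ Q) := fun q hq => by
    simp [Nat.mem_primeFactors, hq, hM]
  constructor
  · rintro ⟨hdet, hflat, hord, hur⟩
    split_ifs with h
    · exact ⟨hdet, hord h, fun q hq hqS => hur q hq ((hmem q hq).mp hqS).1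
        ((hmem q hq).mp hqS).2.1 ((hmem q hq).mp hqS).2.2⟩
    · exact ⟨hdet, hflat h, fun q hq hqS => hur q hq ((hmem q hq).mp hqS).1
        ((hmem q hq).mp hqS).2.1 ((hmem q hq).mp hqS).2.2⟩
  · split_ifs with h
    · rintro ⟨hdet, hord, hur⟩
      exact ⟨hdet, fun h' => absurd h h', fun _ => hord,
        fun q hq h1 h2 h3 => hur q hq ((hmem q hq).mpr ⟨h1, h2, h3⟩)⟩
    · rintro ⟨hdet, hflat, hur⟩
      exact ⟨hdet, fun _ => hflat, fun h' => absurd h' h,
        fun q hq h1 h2 h3 => hur q hq ((hmem q hq).mpr ⟨h1, h2, h3⟩)⟩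

/-- The condition at the levels is a deformation condition. -/
theorem isDeformationCondition_levelCond (B : Base O p) (Q : Finset ℕ) :
    GaloisRep.IsDeformationCondition O (levelCond B Q) := by
  have hp : p.Prime := Fact.out
  by_cases h : p ∣ B.M₀
  · convert isDeformationCondition_strictOrdinary hp B.hp2 B.hpO
      (insert p (B.M₀.primeFactors ∪ Q)) ∅ using 1
    funext A _ _ _ ρ
    simp [levelCond_iff, h]
  · convert FlatCond.isDeformationCondition_flatCondition B.hpO
      (insert p (B.M₀.primeFactors ∪ Q)) ∅ using 1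
    funext A _ _ _ ρ
    simp [levelCond_iff, h]

/-- At every depth, a level and a universal ring of its condition presented over the local
coordinates, given the Greenberg–Wiles inequality and the bound at `p`. -/
theorem exists_levelRings (B : Base O p) {m s : ℕ} (hs : 0 < s) (F : Frames B m s)
    (P₀ : ValuationSubring ℚ̄) (hP₀ : P₀.LiesOverPrime p)
    (hbar : levelCond B ∅ (GaloisRepAdic.ofResidualGaloisRep B.ρbar))
    (hGW : AdjointGW p (matOf B.ρbar.ρ B.bbar) (insert p (B.M₀.primeFactors)) P₀)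
    (hloc : LocalBoundAtP (matOf B.ρbar.ρ B.bbar) (levelCond B) P₀) :
    ∃ r : ℕ, ∀ n : ℕ, ∃ (Lv : Level B r n)
      (D : GaloisRep.DeformationRingData O B.ρbar
        (levelCond B (Finset.univ.image fun i => (Lv.qv i : ℕ))))
      (b : Module.Basis (Fin 2) D.R D.ρ.V),
      residueMat D b = Deformation.mapRep (ResidueField.map (algebraMap O D.R))
        (matOf B.ρbar.ρ B.bbar) ∧
      ∃ Φ : MvPowerSeries (LocVar s ⊕ Fin (r + (s - 1))) O →ₐ[O] MvPowerSeries (FrameVar s) D.R,
        Function.Surjective Φ ∧ ∀ i el a c, Φ (MvPowerSeries.X (Sum.inl (i, el, a, c))) =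
          frameConj D.R s i (matOf D.ρ.ρ b (F.FP.el i el)) a c -
            algebraMap O (MvPowerSeries (FrameVar s) D.R) (F.FP.lift0 i el a c) := by
  classical
  have hp : p.Prime := Fact.out
  have hM : B.M₀ ≠ 0 := left_ne_zero_of_mul B.squarefree.ne_zero
  set rbar := matOf B.ρbar.ρ B.bbar with hrbar
  have hn : ∀ j, (F.FP.setup.n j).Prime ∧ F.FP.setup.n j ≠ p ∧ F.FP.setup.n j ∣ B.M₀ :=
    fun j => (F.cover _).mpr ⟨j, rfl⟩
  -- the global bound, avoiding all excluded primes
  have hEuler := globalEulerBound_of p rbar (levelCond B) (insert p B.M₀.primeFactors) P₀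
    (fun Q ρ hρ ℓ hℓ hℓS => hρ.2.2.2 ℓ hℓ
      (fun h => hℓS (by simp [h]))
      (fun h => hℓS (by simp [Nat.mem_primeFactors, hℓ, h, hM]))
      (fun h => hℓS (Finset.mem_union_right _ h)))
    F.FP.setup.n (fun j => (F.T j).A) F.inj
    (fun j => ⟨by simp [Nat.mem_primeFactors, (hn j).1, (hn j).2.2, hM], (hn j).2.1, (F.T j).hA⟩)
    (fun l hl => by
      rcases Finset.mem_insert.mp hl with h | h
      · exact Or.inl h
      · by_cases hlp : l = p
        · exact Or.inl hlp
        · exact Or.inr ((F.cover l).mp ⟨Nat.prime_of_mem_primeFactors h, hlp,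
            Nat.dvd_of_mem_primeFactors h⟩))
    hGW hloc
  have hEuler' : GlobalEulerBound p rbar (levelCond B) (insert p B.M₀.primeFactors ∪ B.S)
      fun j => (F.T j).A.decompositionSubgroup ℚ := by
    obtain ⟨V, U, h1, h2, h3, h4⟩ := hEuler
    exact ⟨V, U, h1, h2, h3, fun Q hQ => h4 Q fun q hq =>
      ⟨fun h => (hQ q hq).1 (by
        simp only [Finset.mem_union] at h ⊢
        tauto), (hQ q hq).2⟩⟩
  have hfin : GaloisFactorsThroughFiniteLevel rbar := by
    obtain ⟨L, hL, h⟩ := B.ρbar.factorsThroughFiniteLevel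
    exact ⟨L, hL, fun σ hσ => by rw [hrbar, matOf_apply, h σ hσ, LinearMap.toMatrix_one]⟩
  have hgen : ∀ Q : Finset ℕ, ∀ Z ∈ tangentSet (levelCond B Q) rbar, ∀ i, ∀ X,
      (∀ e, Z (F.FP.el i e) = adCoboundary rbar X (F.FP.el i e)) →
      ∀ d ∈ (F.T i).A.decompositionSubgroup ℚ, Z d = adCoboundary rbar X d := by
    intro Q Z hZ i X h d hd
    refine tangentSet_eq_adCoboundary_of_tamePair (hn i).1 (hn i).2.1.symm B.hpO (F.T i) hfin
      (fun τ hτ => ?_) hZ X ?_ ?_ hd
    · obtain ⟨j, hj⟩ := F.resTame i τ hτ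
      refine ⟨j, ?_⟩
      rw [← map_pow, hrbar, matOf_apply, map_pow, hj, LinearMap.toMatrix_one]
    · rw [← F.el_one i]; exact h 1
    · rw [← F.el_zero i]; exact h 0
  obtain ⟨r, hr⟩ := exists_globalPresentation p B.hp2 B.hpO B.ρbar B.absIrr B.det B.idx2 B.bbar
    (levelCond B) (isDeformationCondition_levelCond B) (fun Q _ _ _ _ _ hρ => hρ.1) _ _ F.FP.el
    hgen hEuler' F.FP.lift0 F.lift0_residual
  refine ⟨r, fun n => ?_⟩
  obtain ⟨qv, hinj, hqv, hpres⟩ := hr n
  obtain ⟨Lv, rfl⟩ := exists_level_of_twPrimes B qv hinj fun i =>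
    ⟨fun h => (hqv i).1 (Finset.mem_union_right _ h), (hqv i).2⟩
  set Q : Finset ℕ := Finset.univ.image fun i => (Lv.qv i : ℕ) with hQ
  have hfinT : GaloisRep.TangentFinite O B.ρbar (levelCond B Q) :=
    tangentFinite_of_unramified hp B.hpO B.ρbar (insert p (B.M₀.primeFactors ∪ Q))
      fun ρ hρ q hq hqS => hρ.2.2.2 q hq (fun h => hqS (by simp [h]))
        (fun h => hqS (by simp [Nat.mem_primeFactors, hq, h, hM]))
        (fun h => hqS (by simp [h]))
  have hbarQ : levelCond B Q (GaloisRepAdic.ofResidualGaloisRep B.ρbar) :=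
    ⟨hbar.1, hbar.2.1, hbar.2.2.1, fun q hq h1 h2 _ => hbar.2.2.2 q hq h1 h2 (Finset.notMem_empty q)⟩
  obtain ⟨x, y, hxy⟩ := Deformation.exists_isNormPair_residualMatrix B.absIrr B.bbar
  obtain ⟨D⟩ := Deformation.nonempty_deformationRingData_of_bound B.absIrr
    (isDeformationCondition_levelCond B Q) hbarQ _ hxy
    (Deformation.exists_natCard_quotient_le _ hxy (isDeformationCondition_levelCond B Q) hfinT)
  obtain ⟨b, hb⟩ := exists_basis_residueMat_eq D B.bbar
  exact ⟨Lv, D, b, hb, exists_frameRing_presentation D b F.FP.el F.FP.lift0 (hpres D b hb)⟩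

end Fermat.Agent.RT.Assembly

end
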