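import Fermat.Agent.EichlerShimura.FiniteDVR
import Fermat.Agent.RT.Assembly.Eigen
import Fermat.Agent.RT.Assembly.HeckeReduced
import Fermat.Agent.RT.Assembly.PointFacts
import Fermat.Agent.RT.Assembly.RingData
import Fermat.Agent.RT.FreyResidual
import Fermat.Agent.RT.ResidualExtend

/-!
# The Galois representation over the ring of a family of Hecke models

* `exists_levelPoint_of_hom`: every point has a representation with the local properties.
* `exists_heckeRep`: the points glue to a representation over the ring, of the type `levelCond`.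
-/

set_option autoImplicit false
set_option linter.style.haveILetI false

noncomputable section

open IsLocalRing Polynomial

namespace Fermat.Agent.RT.Assembly

open Diamond

local notation "ℚ̄" => AlgebraicClosure ℚ
local notation "Γℚ" => (AlgebraicClosure ℚ ≃ₐ[ℚ] AlgebraicClosure ℚ)

/-- A descending property of a finite algebra follows from its points. -/
theorem descending_of_points {O : Type} [CommRing O] [IsDomain O] [IsDiscreteValuationRing O]
    [Finite (ResidueField O)] [CharZero O] {p : ℕ} [Fact p.Prime]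
    {Q : ∀ ⦃A : Type⦄ [CommRing A] [IsLocalRing A], GaloisRepAdic A → Prop}
    (hQ : IsDescending p Q) {A : Type} [CommRing A] [IsLocalRing A] [IsNoetherianRing A]
    [IsAdicComplete (maximalIdeal A) A] [Algebra O A] [Module.Finite O A]
    (hpA : (p : A) ∈ maximalIdeal A) {J : Type} [Finite J] {W : J → Type}
    [∀ j, CommRing (W j)] [∀ j, IsLocalRing (W j)] [∀ j, IsHausdorff (maximalIdeal (W j)) (W j)]
    (φ : ∀ j, A →+* W j) (hφ : ∀ j, IsLocalHom (φ j)) (hinj : ∀ x : A, (∀ j, φ j x = 0) → x = 0)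
    {ρ : GaloisRepAdic A} (h : ∀ j, Q (ρ.baseChangeAlong (φ j) (hφ j))) : Q ρ := by
  refine hQ.descent W φ hφ hpA hinj (fun n => ?_) h
  set I := Ideal.span {((p ^ n : ℕ) : A)} with hI
  obtain ⟨k, hk⟩ : ∃ k, maximalIdeal A ^ k ≤ I := by
    let J₀ : Ideal O := Ideal.span {((p ^ n : ℕ) : O)}
    have hJ₀ : J₀ ≠ ⊥ := by
      rw [Ne, Ideal.span_singleton_eq_bot, Nat.cast_eq_zero]
      exact pow_ne_zero n (Fact.out : p.Prime).ne_zero
    obtain ⟨ϖ, hϖ⟩ := IsDiscreteValuationRing.exists_irreducible O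
    obtain ⟨e, he⟩ := IsDiscreteValuationRing.ideal_eq_span_pow_irreducible hJ₀ hϖ
    rw [← Ideal.span_singleton_pow, ← Irreducible.maximalIdeal_eq hϖ] at he
    haveI : Finite (O ⧸ maximalIdeal O) := inferInstanceAs (Finite (ResidueField O))
    haveI : Finite (O ⧸ J₀) := by
      rw [he]
      exact Ideal.finite_quotient_pow (IsNoetherian.noetherian _) e
    have hle : J₀ ≤ I.comap (algebraMap O A) := Ideal.span_le.2 (Set.singleton_subset_iff.2 (by
      rw [SetLike.mem_coe, Ideal.mem_comap, map_natCast]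
      exact Ideal.mem_span_singleton_self _))
    letI : Algebra (O ⧸ J₀) (A ⧸ I) := (Ideal.quotientMap I (algebraMap O A) hle).toAlgebra
    haveI : IsScalarTower O (O ⧸ J₀) (A ⧸ I) := IsScalarTower.of_algebraMap_eq' rfl
    haveI : Module.Finite (O ⧸ J₀) (A ⧸ I) := Module.Finite.of_restrictScalars_finite O _ _
    haveI : Finite (A ⧸ I) := Module.finite_of_finite (O ⧸ J₀)
    exact FlatCond.exists_maximalIdeal_pow_le I
  obtain ⟨M, hM⟩ := exists_forall_mem_pow_imp φ hinj k
  refine ⟨max n M, le_max_left n M, fun x hx => hk (hM x fun j => ?_)⟩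
  have hpW : (p : W j) ∈ maximalIdeal (W j) := by
    have := hφ j
    simpa using map_nonunit (φ j) (p : A) hpA
  refine Ideal.span_le.mpr (Set.singleton_subset_iff.mpr ?_) (hx j)
  rw [Nat.cast_pow]
  exact Ideal.pow_le_pow_right (le_max_right n M) (Ideal.pow_mem_pow hpW _)

theorem map_frobPoly {A A' : Type} [CommRing A] [CommRing A'] (f : A →+* A') (a : A) (ℓ : ℕ) :
    (X ^ 2 - C a * X + C (ℓ : A)).map f = X ^ 2 - C (f a) * X + C (ℓ : A') := by
  simp

/-- An element vanishing under a jointly injective family of maps: polynomials. -/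
theorem eq_of_map_eq {A : Type} [CommRing A] {J : Type} {W : J → Type} [∀ j, CommRing (W j)]
    (φ : ∀ j, A →+* W j) (h : ∀ x : A, (∀ j, φ j x = 0) → x = 0) {P Q : A[X]}
    (hPQ : ∀ j, P.map (φ j) = Q.map (φ j)) : P = Q :=
  Polynomial.ext fun i => sub_eq_zero.1 (h _ fun j => by
    rw [map_sub, ← Polynomial.coeff_map, ← Polynomial.coeff_map, hPQ, sub_self])

variable {O : Type} [CommRing O] [IsDomain O] [IsDiscreteValuationRing O]
  [IsAdicComplete (maximalIdeal O) O] [Finite (ResidueField O)] [CharZero O]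
  {p : ℕ} [Fact p.Prime] {B : Base O p} {r n : ℕ} {Lv : Level B r n}
  {J : Type} [Finite J] [Nonempty J] {χ : J → MulChar (ZMod B.N₀) O} {D : J → ℕ}
  [∀ j, NeZero (D j)]

/-- The system of eigenvalues of a point. -/
def pointSystem (m : ∀ j, HeckeModel Lv (χ j) (D j)) {V : Type} [CommRing V] [Algebra O V]
    (f : heckeRing m →ₐ[O] V) (ℓ : Nat.Primes) : V :=
  if h : (ℓ : ℕ) ∉ Lv.S' then f (heckeRing.T m ⟨ℓ, h⟩) else 0

omit [Finite J] [Nonempty J] [∀ j, NeZero (D j)] in
theorem pointSystem_of_good (m : ∀ j, HeckeModel Lv (χ j) (D j)) {V : Type} [CommRing V]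
    [Algebra O V] (f : heckeRing m →ₐ[O] V) {ℓ : ℕ} (hℓ : ℓ.Prime) (hℓS : ℓ ∉ Lv.S') :
    pointSystem m f ⟨ℓ, hℓ⟩ = f (heckeRing.T m ⟨⟨ℓ, hℓ⟩, hℓS⟩) :=
  dif_pos hℓS

/-- The representation of a point, with its local properties, for the twist of one component
through which the point factors. -/
theorem exists_levelPoint_of_hom (inputs : LocalInputs p) (hso : StrictOrdinaryOfNewform p)
    (hχ : ∀ j, χ j = B.χ ∨ χ j = 1) (m : ∀ j, HeckeModel Lv (χ j) (D j))
    {V : Type} [CommRing V] [IsDomain V] [IsDiscreteValuationRing V]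
    [IsAdicComplete (maximalIdeal V) V] [Finite (ResidueField V)] [CharZero V] [Algebra O V]
    [IsLocalHom (algebraMap O V)] (hinj : Function.Injective (algebraMap O V))
    (f : heckeRing m →ₐ[O] V) :
    ∃ j, RingHom.ker (heckeRing.proj m j) ≤ RingHom.ker f ∧
      ∀ j', RingHom.ker (heckeRing.proj m j') ≤ RingHom.ker f →
        ∃ ρ : GaloisRepAdic V,
          IsLevelPoint Lv (χ j') (f.comp (heckeRing.lam m)) (pointSystem m f) ρ := by
  classical
  haveI := Fintype.ofFinite J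
  have hprime : (RingHom.ker f).IsPrime := RingHom.ker_isPrime f
  obtain ⟨j, -, hj⟩ := hprime.inf_le'.1 (show (Finset.univ : Finset J).inf
      (fun j => RingHom.ker (heckeRing.proj m j)) ≤ RingHom.ker f from fun x hx => by
    rw [Submodule.mem_finsetInf] at hx
    rw [heckeRing.eq_zero_of_proj m fun j => hx j (Finset.mem_univ j)]
    exact zero_mem _)
  refine ⟨j, hj, fun j' hj' => ?_⟩
  let π := heckeRing.proj m j'
  let C := heckeRing m ⧸ RingHom.ker π
  let f' : C →ₐ[O] V := Ideal.Quotient.liftₐ (RingHom.ker π) f fun a ha => hj' ha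
  obtain ⟨w, hw, hwe⟩ := Eigen.exists_eigenvector_groupAlgebra (O := O)
    (Ideal.kerLiftAlg π) (Ideal.kerLiftAlg_injective π)
    ((Ideal.Quotient.mkₐ O (RingHom.ker π)).comp (heckeRing.lam m))
    (fun c => heckeRing.proj_lam m j' c) hinj f'
  have hc : ∀ ℓ : Nat.Primes, (ℓ : ℕ) ∉ Lv.S' →
      residue V (pointSystem m f ℓ) = ResidueField.map (algebraMap O V) (B.a ℓ) := by
    intro ℓ hℓ
    have hloc := isLocalHom_of_algHom f
    obtain ⟨o, ho⟩ := residue_surjective (B.a ℓ)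
    rw [pointSystem, dif_pos hℓ, ← ho, ResidueField.map_residue, ← sub_eq_zero, ← map_sub,
      residue_eq_zero_iff, ← f.commutes o, ← map_sub]
    exact map_nonunit (f : heckeRing m →+* V) _
      (heckeRing.T_sub_mem m (maximalIdeal _) ⟨ℓ, hℓ⟩ ho)
  refine exists_levelPoint inputs hso Lv (hχ j') hinj _ _ hc
    ((m j').eigen V hinj _ _ w hw fun ℓ hℓ => ?_)
  rw [pointSystem, dif_pos hℓ]
  exact hwe (Ideal.Quotient.mk _ (heckeRing.T m ⟨ℓ, hℓ⟩))

/-- The representation over the ring: of the type of the level, with the Hecke traces, and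
specialising to the representations of the points. -/
theorem exists_heckeRep (inputs : LocalInputs p) (hso : StrictOrdinaryOfNewform p)
    (hχ : ∀ j, χ j = B.χ ∨ χ j = 1) (m : ∀ j, HeckeModel Lv (χ j) (D j)) :
    ∃ ρ : GaloisRepAdic (heckeRing m),
      levelCond B (Finset.univ.image fun i => (Lv.qv i : ℕ)) ρ ∧
      ρ.residual.IsEquiv
        (B.ρbar.baseChangeAlong (ResidueField.map (algebraMap O (heckeRing m)))) ∧
      (∀ (ℓ : ℕ) (hℓ : ℓ.Prime) (hℓS : ℓ ∉ Lv.S'), ∀ A : ValuationSubring ℚ̄,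
        A.LiesOverPrime ℓ → ∀ σ : Γℚ, A.IsFrobeniusAt σ ℓ → LinearMap.charpoly (ρ.ρ σ) =
          X ^ 2 - C (heckeRing.T m ⟨⟨ℓ, hℓ⟩, hℓS⟩) * X + C ((ℓ : heckeRing m))) ∧
      ∀ (V : Type) [CommRing V] [IsDomain V] [IsDiscreteValuationRing V]
        [IsAdicComplete (maximalIdeal V) V] [Finite (ResidueField V)] [CharZero V] [Algebra O V]
        [IsLocalHom (algebraMap O V)], Function.Injective (algebraMap O V) →
        ∀ (f : heckeRing m →ₐ[O] V) (hf : IsLocalHom (f : heckeRing m →+* V)) (j : J),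
          RingHom.ker (heckeRing.proj m j) ≤ RingHom.ker f →
          ∀ ρV : GaloisRepAdic V,
            IsLevelPoint Lv (χ j) (f.comp (heckeRing.lam m)) (pointSystem m f) ρV →
            (ρ.baseChangeAlong (f : heckeRing m →+* V) hf).IsEquiv ρV := by
  classical
  have hp : p.Prime := Fact.out
  let ι : ResidueField O →+* ResidueField (heckeRing m) :=
    ResidueField.map (algebraMap O (heckeRing m))
  let ρbar' := B.ρbar.baseChangeAlong ι
  have habs' : ρbar'.IsAbsolutelyIrreducible := isAbsolutelyIrreducible_baseChangeAlong ι _ B.absIrr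
  have hpA : (p : heckeRing m) ∈ maximalIdeal (heckeRing m) := by
    simpa using map_nonunit (algebraMap O (heckeRing m)) _ B.hpO
  have h2 : IsUnit (2 : heckeRing m) := by
    by_contra h
    obtain ⟨k, hk⟩ := hp.odd_of_ne_two B.hp2
    have h1 := sub_mem hpA (Ideal.mul_mem_right (k : heckeRing m) _
      (show (2 : heckeRing m) ∈ maximalIdeal (heckeRing m) from h))
    have e : (p : heckeRing m) = 2 * (k : heckeRing m) + 1 := by
      exact_mod_cast congrArg (Nat.cast (R := heckeRing m)) hk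
    rw [show (p : heckeRing m) - 2 * (k : heckeRing m) = 1 by rw [e]; ring] at h1
    exact (maximalIdeal.isMaximal (heckeRing m)).ne_top ((Ideal.eq_top_iff_one _).mpr h1)
  haveI : Finite (ResidueField (heckeRing m)) := Finite.of_surjective ι fun y => by
    obtain ⟨o, ho⟩ := heckeRing.residue_surjective' m y
    exact ⟨residue O o, (ResidueField.map_residue _ _).trans ho⟩
  -- the minimal primes and their points
  haveI : Finite (minimalPrimes (heckeRing m)) :=
    (minimalPrimes.finite_of_isNoetherianRing (heckeRing m)).to_subtype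
  have hP0 : ∀ P : minimalPrimes (heckeRing m), ∀ a : O,
      algebraMap O (heckeRing m) a ∈ P.1 → a = 0 := by
    intro P a ha
    by_contra ha0
    refine Set.disjoint_left.mp (Ideal.disjoint_nonZeroDivisors_of_mem_minimalPrimes P.2) ha ?_
    refine mem_nonZeroDivisors_iff_right.mpr fun x hx => ?_
    rw [mul_comm, ← Algebra.smul_def] at hx
    exact (smul_eq_zero.mp hx).resolve_left ha0
  choose W iW1 iW2 iW3 iW4 iW5 iW6 iW7 iW8 iW9 hWinj f hf using fun P : minimalPrimes (heckeRing m) =>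
    haveI : P.1.IsPrime := P.2.1.1
    EichlerShimura.exists_finiteDVR_extension O (heckeRing m) P.1 (hP0 P)
  let φ : ∀ P, heckeRing m →+* W P := fun P => (f P).toRingHom
  have hloc : ∀ P, IsLocalHom (φ P) := fun P => isLocalHom_of_algHom (f P)
  have hsep : ∀ x, (∀ P, φ P x = 0) → x = 0 := by
    intro x hx
    have hnil : x ∈ nilradical (heckeRing m) := by
      rw [show nilradical (heckeRing m) = sInf (minimalPrimes _) from
        Ideal.sInf_minimalPrimes.symm, Ideal.mem_sInf]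
      intro (P : Ideal (heckeRing m)) hP
      rw [show P = RingHom.ker (f ⟨P, hP⟩) from (hf ⟨P, hP⟩).symm]
      exact hx ⟨P, hP⟩
    rwa [nilradical_eq_zero] at hnil
  choose j hjker hj' using fun P =>
    exists_levelPoint_of_hom inputs hso hχ m (hWinj P) (f P)
  choose rV hrV using fun P => hj' P (j P) (hjker P)
  have hfrob : ∀ P (ℓ : ℕ) (hℓ : ℓ.Prime) (hℓS : ℓ ∉ Lv.S'), ∀ A : ValuationSubring ℚ̄,
      A.LiesOverPrime ℓ → ∀ σ : Γℚ, A.IsFrobeniusAt σ ℓ →
      LinearMap.charpoly ((rV P).ρ σ) =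
        X ^ 2 - C (φ P (heckeRing.T m ⟨⟨ℓ, hℓ⟩, hℓS⟩)) * X + C ((ℓ : W P)) := by
    intro P ℓ hℓ hℓS A hA σ hσ
    rw [(hrV P).charpoly_frob ℓ hℓ hℓS A hA σ hσ, pointSystem_of_good m (f P) hℓ hℓS]
    rfl
  have hbar : ∀ (ℓ : ℕ) (hℓ : ℓ.Prime) (hℓS : ℓ ∉ Lv.S'), ∀ A : ValuationSubring ℚ̄,
      A.LiesOverPrime ℓ → ∀ σ : Γℚ, A.IsFrobeniusAt σ ℓ →
      LinearMap.charpoly (ρbar'.ρ σ) = X ^ 2 -
        C (residue _ (heckeRing.T m ⟨⟨ℓ, hℓ⟩, hℓS⟩)) * X + C ((ℓ : ResidueField (heckeRing m))) := by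
    intro ℓ hℓ hℓS A hA σ hσ
    rw [charpoly_baseChangeAlong, B.charpoly_frob ℓ hℓ
      (fun h => hℓS (Finset.mem_union_left _ h)) A hA σ hσ, heckeRing.residue_T]
    simp [ι]
  choose t ht htres using exists_trace_of_frobenius (R := W) φ hloc hsep rV ρbar' Lv.S'
    fun ℓ hℓ hℓS A hA σ hσ =>
      ⟨heckeRing.T m ⟨⟨ℓ, hℓ⟩, hℓS⟩, fun P => hfrob P ℓ hℓ hℓS A hA σ hσ,
        hbar ℓ hℓ hℓS A hA σ hσ⟩
  obtain ⟨ρ, -, hmap, hres, -, hbc⟩ := exists_galoisRepAdic_of_family (O := W) φ hloc hsep rV t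
    (fun P g => (ht g P).symm)
    (fun P => Density.det_eq_neg_one_of_detIsCyclotomic (rV P) hp B.hp2 (hrV P).det
      complexConjugation_mul_self EC.complexConjugation_ne_one) ρbar' habs'
    (fun g => (htres g).symm) h2
  have hdesc : ∀ {Q : ∀ ⦃A : Type⦄ [CommRing A] [IsLocalRing A], GaloisRepAdic A → Prop},
      IsDescending p Q → (∀ P, Q (rV P)) → Q ρ := fun hQ h =>
    descending_of_points (O := O) hQ hpA φ hloc hsep fun P =>
      hQ.of_isEquiv (let ⟨e⟩ := hbc P; ⟨e.symm⟩) (h P)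
  have hch : ∀ (ℓ : ℕ) (hℓ : ℓ.Prime) (hℓS : ℓ ∉ Lv.S'), ∀ A : ValuationSubring ℚ̄,
      A.LiesOverPrime ℓ → ∀ σ : Γℚ, A.IsFrobeniusAt σ ℓ → LinearMap.charpoly (ρ.ρ σ) =
        X ^ 2 - C (heckeRing.T m ⟨⟨ℓ, hℓ⟩, hℓS⟩) * X + C ((ℓ : heckeRing m)) :=
    fun ℓ hℓ hℓS A hA σ hσ => eq_of_map_eq φ hsep fun P => by
      rw [hmap P σ, hfrob P ℓ hℓ hℓS A hA σ hσ, map_frobPoly]
  refine ⟨ρ, ⟨hdesc (isDescending_detIsCyclotomic hp.ne_zero) fun P => (hrV P).det,
    fun hpM => ?_, fun hpM => ?_, fun q hq hqp hqM hqQ => ?_⟩, hres, hch, ?_⟩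
  · exact FlatCond.isFlatAt_of_points φ hloc hsep fun P =>
      Density.adic_isFlatAt_of_isEquiv (let ⟨e⟩ := hbc P; ⟨e.symm⟩) ((hrV P).flat hpM)
  · exact (hdesc (isDescending_det_strictOrdinary hp B.hp2) fun P =>
      ⟨(hrV P).det, (hrV P).strictOrdinary hpM⟩).2
  · exact hdesc (isDescending_isUnramifiedAt q) fun P => (hrV P).unramified q hq hqp hqM
      fun i h => hqQ (Finset.mem_image.2 ⟨i, Finset.mem_univ i, h.symm⟩)
  · intro V _ _ _ _ _ _ _ _ _ g hg j₁ _ ρV hρV
    obtain ⟨e⟩ := Density.adic_isEquiv_of_frobenius ρV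
      (ρ.baseChangeAlong (g : heckeRing m →+* V) hg) Lv.S' hρV.residual_absIrr
      fun ℓ hℓ hℓS A hA σ hσ => by
        rw [hρV.charpoly_frob ℓ hℓ hℓS A hA σ hσ, charpoly_adic_baseChangeAlong,
          pointSystem_of_good m g hℓ hℓS]
        rw [hch ℓ hℓ hℓS A hA σ hσ, map_frobPoly]
        rfl
    exact ⟨e.symm⟩

end Fermat.Agent.RT.Assembly

end
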