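import Fermat.Agent.RT.Assembly.LocalPoint
import Fermat.Agent.EichlerShimura.S30Of
import Fermat.Agent.EichlerShimura.Inputs
import Fermat.Agent.FiniteFlat.S32Of
import Fermat.Agent.S19
import Fermat.Agent.BadPrime.Reps
import Fermat.Agent.BadPrime.SquareRep

/-!
# The local inputs of the patching argument are theorems

S30, S32, S34, S35 and S36 are proved in the library, so `LocalInputs p` holds.
-/

set_option autoImplicit false

open IsLocalRing

namespace Fermat.Agent.RT.Assembly

theorem localInputs_of (p : ℕ) [Fact p.Prime] : LocalInputs p where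
  galoisRep N _ S hpS _ := fun O _ _ _ _ _ _ hp χ =>
    EichlerShimura.exists_galoisRep_of_point_of p N S (EichlerShimura.kummerIso_modular N)
      (EichlerShimura.frobeniusOnTorsion_modular N p) (EichlerShimura.galoisFiniteLevel_modular N)
      hpS O hp χ
  flat N _ S hpN hpS hNS := fun O _ _ _ _ _ _ θ T _ _ _ _ _ _ _ _ hp H =>
    FiniteFlat.isFlatAt_of (EichlerShimura.kummerIso_modular N)
      (EichlerShimura.frobeniusOnTorsion_modular N p) (EichlerShimura.galoisFiniteLevel_modular N)
      (fun k => S19.result N p hpN k) hp hpS hNS H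
  unipotent N _ S q hq hqp hqN hq2 hpS hNS := fun O _ _ _ _ _ _ θ T _ _ _ _ _ _ _ _ hp H =>
    haveI : ∀ M : ℕ, M * q = N → NeZero M := fun M hM =>
      ⟨fun h => NeZero.ne N (by rw [← hM, h, zero_mul])⟩
    BadPrime.isUnipotentOnInertiaAt_of_datum Fact.out hp (BadPrime.hasEigenRep_modular N) hpS hNS
      H q hq hqp hqN hq2 fun M hqM hM =>
        haveI := this M hM
        BadPrime.inertiaUnipotentTorsion_all M q hq hqM
  mult := BadPrime.newformMultRep_modular
  square := BadPrime.newformSquareRep_modular

end Fermat.Agent.RT.Assembly
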