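import Fermat.Agent.EichlerShimura.FiniteDVR
import Fermat.Agent.RT.Assembly.HeckeReduced

/-!
# Points through one component of the ring of a family of models

* `heckeRing.eq_zero_of_points`: an element vanishing at all points through the component `j` has
  zero component.
* `heckeRing.exists_point_of_singular`: a singular specialisation gives a point.
* `mem_span_delta_sub_one`: the annihilator of the norm of a generator in the group algebra.
-/

set_option autoImplicit false
set_option linter.style.haveILetI false

noncomputable section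

open IsLocalRing

namespace Fermat.Agent.RT.Assembly

open Diamond

section GroupAlgebra

variable {O : Type} [CommRing O] {r : ℕ} {N : Fin r → ℕ} [∀ i, NeZero (N i)]

omit [∀ i, NeZero (N i)] in
theorem delta_pow_apply (i : Fin r) (k : ℕ) :
    delta O (N := N) i ^ k = MonoidAlgebra.single (gen i ^ k) (1 : O) := by
  rw [delta, ← map_pow, MonoidAlgebra.of_apply]

variable (O N) in
/-- The norm of a generator. -/
def deltaNorm (i : Fin r) : Alg O N := ∑ k ∈ Finset.range (N i), delta O (N := N) i ^ k

theorem delta_mul_deltaNorm (i : Fin r) :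
    delta O (N := N) i * deltaNorm O N i = deltaNorm O N i := by
  have h := geom_sum_mul (delta O (N := N) i) (N i)
  rw [delta_pow, sub_self] at h
  rw [← sub_eq_zero, ← sub_one_mul, mul_comm]
  exact h

variable (N) in
/-- Killing the `i`-th component. -/
def killHom (i : Fin r) : Grp N →* Grp N where
  toFun v := Multiplicative.ofAdd (Function.update v.toAdd i 0)
  map_one' := by
    ext j
    rcases eq_or_ne j i with rfl | hj
    · simp
    · simp
  map_mul' v w := by
    ext j
    rcases eq_or_ne j i with rfl | hj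
    · simp
    · simp [Function.update_of_ne hj]

/-- An element killed by the norm of a generator is a multiple of the generator minus one. -/
theorem mem_span_delta_sub_one (i : Fin r) {c : Alg O N} (hc : deltaNorm O N i * c = 0) :
    c ∈ Ideal.span {delta O (N := N) i - 1} := by
  classical
  let π : Alg O N →ₐ[O] Alg O N :=
    MonoidAlgebra.lift O (Alg O N) (Grp N)
      ((MonoidAlgebra.of O (Grp N)).comp (killHom N i))
  set I := Ideal.span {delta O (N := N) i - 1} with hI
  have hπ : ∀ x, x - π x ∈ I := by
    intro x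
    let q := Ideal.Quotient.mkₐ O I
    have h : q = q.comp π := by
      apply MonoidAlgebra.algHom_ext
      on_goal 2 => exact Subsingleton.elim _ _
      intro v
      let g₁ : Grp N →* (Alg O N ⧸ I) :=
        q.toRingHom.toMonoidHom.comp (MonoidAlgebra.of O (Grp N))
      let g₂ : Grp N →* (Alg O N ⧸ I) := g₁.comp (killHom N i)
      have hg : g₁ = g₂ := by
        refine hom_ext fun j => ?_
        rcases eq_or_ne j i with rfl | hj
        · have hkill : killHom N j (gen j) = 1 := by
            ext k
            rcases eq_or_ne k j with rfl | hk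
            · simp [killHom, gen]
            · simp [killHom, gen, Function.update_of_ne hk, Pi.single_eq_of_ne hk]
          show g₁ (gen j) = g₁ (killHom N j (gen j))
          rw [hkill, map_one]
          show q (delta O (N := N) j) = 1
          rw [← map_one q, Ideal.Quotient.mkₐ_eq_mk, Ideal.Quotient.eq]
          exact Ideal.mem_span_singleton_self _
        · have hkill : killHom N i (gen j) = gen j := by
            ext k
            rcases eq_or_ne k i with rfl | hk
            · simp [killHom, gen, Pi.single_eq_of_ne hj.symm]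
            · simp [killHom, gen, Function.update_of_ne hk]
          show g₁ (gen j) = g₁ (killHom N i (gen j))
          rw [hkill]
      refine (DFunLike.congr_fun hg v).trans ?_
      show q (MonoidAlgebra.of O (Grp N) (killHom N i v)) = q (π (MonoidAlgebra.single v 1))
      simp [π, MonoidAlgebra.lift_single]
    have := AlgHom.congr_fun h x
    rw [AlgHom.comp_apply, Ideal.Quotient.mkₐ_eq_mk, Ideal.Quotient.eq] at this
    exact this
  have hsupp : ∀ (x : Alg O N) (g : Grp N), g.toAdd i ≠ 0 → (π x).coeff g = 0 := by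
    intro x g hg
    induction x using MonoidAlgebra.induction_on with
    | of v =>
      rw [show π (MonoidAlgebra.of O (Grp N) v) =
        MonoidAlgebra.of O (Grp N) (killHom N i v) from MonoidAlgebra.lift_of _ v,
        MonoidAlgebra.of_apply, MonoidAlgebra.coeff_single, Finsupp.single_apply, if_neg]
      intro e
      exact hg (by rw [← e]; simp [killHom])
    | add a b ha hb => simp [map_add, ha, hb]
    | smul o a ha => simp [map_smul, ha]
  have hπ0 : π c = 0 := by
    have hN : deltaNorm O N i * π c = 0 := by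
      obtain ⟨y, hy⟩ := Ideal.mem_span_singleton.1 (hπ c)
      have h0 : deltaNorm O N i * (c - π c) = 0 := by
        rw [hy, ← mul_assoc, mul_sub, mul_comm (deltaNorm O N i) (delta O (N := N) i),
          delta_mul_deltaNorm, mul_one, sub_self, zero_mul]
      rw [mul_sub, hc, zero_sub, neg_eq_zero] at h0
      exact h0
    refine MonoidAlgebra.ext (Finsupp.ext fun g => ?_)
    by_cases hg : g.toAdd i = 0
    · have h := congrArg (fun z : Alg O N => z.coeff g) hN
      simp only [deltaNorm, Finset.sum_mul, delta_pow_apply, MonoidAlgebra.coeff_sum,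
        Finsupp.coe_finsetSum, Finset.sum_apply, MonoidAlgebra.coeff_single_mul_apply, one_mul,
        MonoidAlgebra.coeff_zero, Finsupp.coe_zero, Pi.zero_apply] at h
      rw [Finset.sum_eq_single 0 (fun k hk hk0 => ?_)
        (fun h0 => absurd (Finset.mem_range.2 (NeZero.pos (N i))) h0)] at h
      · simpa using h
      refine hsupp c _ ?_
      rw [toAdd_mul, toAdd_inv, toAdd_pow, Pi.add_apply, Pi.neg_apply, Pi.smul_apply, hg, add_zero,
        neg_ne_zero, gen, toAdd_ofAdd, Pi.single_eq_same, nsmul_one]
      exact fun e => hk0 (Nat.eq_zero_of_dvd_of_lt ((ZMod.natCast_eq_zero_iff _ _).1 e)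
        (Finset.mem_range.1 hk))
    · simpa using hsupp c g hg
  simpa [hπ0] using hπ c

end GroupAlgebra

variable {O : Type} [CommRing O] [IsDomain O] [IsDiscreteValuationRing O]
  [IsAdicComplete (maximalIdeal O) O] [Finite (ResidueField O)] [CharZero O]
  {p : ℕ} [Fact p.Prime] {B : Base O p} {r n : ℕ} {Lv : Level B r n}
  {J : Type} [Finite J] {χ : J → MulChar (ZMod B.N₀) O} {D : J → ℕ}

namespace heckeRing

omit [Finite J] in
/-- The kernel of a component is radical. -/
theorem isRadical_ker_proj (m : ∀ j, HeckeModel Lv (χ j) (D j)) (j : J) :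
    (RingHom.ker (proj m j)).IsRadical := by
  intro x hx
  obtain ⟨k, hk⟩ := hx
  let π : ModelMat Lv D →ₐ[Lv.Λ] ModelMat Lv (fun _ : Unit => D j) :=
    AlgHom.pi fun _ => Pi.evalAlgHom Lv.Λ (fun j => Matrix (Fin (D j)) (Fin (D j)) Lv.Λ) j
  have hmem : π x.1 ∈ heckeRing (fun _ : Unit => m j) := by
    have h : π x.1 ∈ (heckeRing m).map π := Subalgebra.mem_map.2 ⟨x.1, x.2, rfl⟩
    rw [show (heckeRing m).map π = _ from AlgHom.map_adjoin π _] at h
    refine Algebra.adjoin_mono ?_ h
    rintro _ ⟨_, ⟨ℓ, rfl⟩, rfl⟩
    exact ⟨ℓ, rfl⟩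
  have hnil : IsNilpotent (⟨π x.1, hmem⟩ : heckeRing (fun _ : Unit => m j)) := by
    refine ⟨k, Subtype.ext ?_⟩
    show π x.1 ^ k = 0
    rw [← map_pow]
    funext _
    exact hk
  exact congrFun (congrArg Subtype.val hnil.eq_zero) ()

/-- An element vanishing at all points through a component has zero component. -/
theorem eq_zero_of_points (m : ∀ j, HeckeModel Lv (χ j) (D j)) (j : J) (x : heckeRing m)
    (h : ∀ (V : Type) [CommRing V] [IsDomain V] [IsDiscreteValuationRing V]
      [IsAdicComplete (maximalIdeal V) V] [Finite (ResidueField V)] [CharZero V] [Algebra O V]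
      [Module.Finite O V] [IsLocalHom (algebraMap O V)], Function.Injective (algebraMap O V) →
      ∀ f : heckeRing m →ₐ[O] V, RingHom.ker (proj m j) ≤ RingHom.ker f → f x = 0) :
    proj m j x = 0 := by
  by_contra hx
  let S : Submonoid (heckeRing m) :=
    Submonoid.closure ((algebraMap O (heckeRing m)) '' {o | o ≠ 0} ∪ {x})
  have hS : ∀ y ∈ S, ∃ (o : O) (k : ℕ), o ≠ 0 ∧ y = algebraMap O _ o * x ^ k := by
    intro y hy
    induction hy using Submonoid.closure_induction with
    | mem y hy =>
      rcases hy with ⟨o, ho, rfl⟩ | rfl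
      · exact ⟨o, 0, ho, by simp⟩
      · exact ⟨1, 1, one_ne_zero, by simp⟩
    | one => exact ⟨1, 0, one_ne_zero, by simp⟩
    | mul a b _ _ iha ihb =>
      obtain ⟨o, k, ho, rfl⟩ := iha
      obtain ⟨o', k', ho', rfl⟩ := ihb
      exact ⟨o * o', k + k', mul_ne_zero ho ho', by rw [map_mul, pow_add]; ring⟩
  have hdisj : Disjoint (RingHom.ker (proj m j) : Set (heckeRing m)) S := by
    rw [Set.disjoint_left]
    intro y hy hyS
    obtain ⟨o, k, ho, rfl⟩ := hS y hyS
    rw [SetLike.mem_coe, RingHom.mem_ker, map_mul, AlgHom.commutes, ← Algebra.smul_def] at hy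
    refine hx (isRadical_ker_proj m j ⟨k, ?_⟩)
    refine Matrix.ext fun a b => MonoidAlgebra.ext (Finsupp.ext fun g => ?_)
    have := congrArg (fun M : Matrix (Fin (D j)) (Fin (D j)) Lv.Λ => (M a b).coeff g) hy
    simpa [ho] using this
  obtain ⟨P, hP, hle, hdis⟩ := Ideal.exists_le_prime_disjoint _ S hdisj
  have hP0 : ∀ o : O, algebraMap O (heckeRing m) o ∈ P → o = 0 := fun o ho => by_contra fun hne =>
    Set.disjoint_left.1 hdis ho (Submonoid.subset_closure (Or.inl ⟨o, hne, rfl⟩))
  obtain ⟨V, _, _, _, _, _, _, _, _, _, hinj, f, hf⟩ :=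
    EichlerShimura.exists_finiteDVR_extension O (heckeRing m) P hP0
  have hfx := h V hinj f (hf.symm ▸ hle)
  exact Set.disjoint_left.1 hdis (hf ▸ hfx : x ∈ P) (Submonoid.subset_closure (Or.inr rfl))

/-- A singular specialisation of a component gives a point through it. -/
theorem exists_point_of_singular (m : ∀ j, HeckeModel Lv (χ j) (D j)) (j : J)
    (ξ : Lv.Λ →ₐ[O] O) (y : heckeRing m) (hy : ((proj m j y).map ξ).det = 0) :
    ∃ (V : Type) (_ : CommRing V) (_ : IsDomain V) (_ : IsDiscreteValuationRing V)
      (_ : IsAdicComplete (maximalIdeal V) V) (_ : Finite (ResidueField V)) (_ : CharZero V)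
      (_ : Algebra O V) (_ : Module.Finite O V) (_ : IsLocalHom (algebraMap O V)),
      Function.Injective (algebraMap O V) ∧ ∃ f : heckeRing m →ₐ[O] V,
        RingHom.ker (proj m j) ≤ RingHom.ker f ∧ f y = 0 ∧
        ∀ c, f (lam m c) = algebraMap O V (ξ c) := by
  classical
  let spec : heckeRing m →ₐ[O] Matrix (Fin (D j)) (Fin (D j)) O := ξ.mapMatrix.comp (proj m j)
  let I : Ideal (heckeRing m) := RingHom.ker spec ⊔ Ideal.span {y}
  let S : Submonoid (heckeRing m) := (nonZeroDivisors O).map (algebraMap O (heckeRing m))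
  have hdisj : Disjoint (I : Set (heckeRing m)) S := by
    rw [Set.disjoint_left]
    rintro _ hI ⟨o, ho, rfl⟩
    obtain ⟨k, hk, t, ht, hkt⟩ := Submodule.mem_sup.1 hI
    obtain ⟨t, rfl⟩ := Ideal.mem_span_singleton.1 ht
    have h1 := congrArg spec hkt
    rw [map_add, RingHom.mem_ker.1 hk, zero_add, map_mul, AlgHom.commutes] at h1
    have h2 := congrArg Matrix.det h1
    rw [Matrix.det_mul, show (spec y).det = 0 from hy, zero_mul, Matrix.algebraMap_eq_diagonal,
      Matrix.det_diagonal] at h2
    simp only [Pi.algebraMap_apply, Algebra.algebraMap_self, RingHom.id_apply,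
      Finset.prod_const] at h2
    exact nonZeroDivisors.coe_ne_zero (⟨o, ho⟩ : nonZeroDivisors O) (eq_zero_of_pow_eq_zero h2.symm)
  obtain ⟨P, hP, hle, hdis⟩ := Ideal.exists_le_prime_disjoint I S hdisj
  have hP0 : ∀ o : O, algebraMap O (heckeRing m) o ∈ P → o = 0 := fun o ho => by_contra fun hne =>
    Set.disjoint_left.1 hdis ho ⟨o, mem_nonZeroDivisors_of_ne_zero hne, rfl⟩
  obtain ⟨V, i1, i2, i3, i4, i5, i6, i7, i8, i9, hinj, f, hf⟩ :=
    EichlerShimura.exists_finiteDVR_extension O (heckeRing m) P hP0
  have hker : RingHom.ker spec ≤ RingHom.ker f := hf.symm ▸ (le_sup_left.trans hle)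
  refine ⟨V, i1, i2, i3, i4, i5, i6, i7, i8, i9, hinj, f, fun x hx => hker ?_, ?_, fun c => ?_⟩
  · show ξ.mapMatrix (proj m j x) = 0
    rw [RingHom.mem_ker.1 hx, map_zero]
  · exact RingHom.mem_ker.1 (hf.symm ▸ hle (Submodule.mem_sup_right
      (Ideal.mem_span_singleton_self y)) : y ∈ RingHom.ker f)
  · have : lam m c - algebraMap O (heckeRing m) (ξ c) ∈ RingHom.ker spec := by
      rw [RingHom.mem_ker, map_sub, AlgHom.commutes, sub_eq_zero]
      show ξ.mapMatrix (Matrix.scalar (Fin (D j)) c) = _
      rw [Matrix.algebraMap_eq_diagonal]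
      ext a b
      by_cases hab : a = b <;> simp [hab]
    have h' := RingHom.mem_ker.1 (hker this)
    rwa [map_sub, AlgHom.commutes, sub_eq_zero] at h'

end heckeRing

end Fermat.Agent.RT.Assembly

end
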