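import Fermat.Agent.RT.Assembly.LevelPoints
import Fermat.Agent.RT.Assembly.ComponentPoints
import Fermat.Agent.RT.Assembly.LevelInput

/-!
# The input of the patching argument at one level from the universal ring and the models
-/

set_option autoImplicit false
set_option linter.style.haveILetI false

noncomputable section

open IsLocalRing Polynomial

namespace Fermat.Agent.RT.Assembly

open Deformation (Mat matOf mapRep)
open Diamond LocalParam

local notation "ℚ̄" => AlgebraicClosure ℚ
local notation "Γℚ" => (AlgebraicClosure ℚ ≃ₐ[ℚ] AlgebraicClosure ℚ)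

section Linear

variable {O : Type} [CommRing O] {Λ : Type} [CommRing Λ] [Algebra O Λ] {D : ℕ}

/-- Membership in `ker χ • ⊤`, coordinatewise. -/
theorem mem_ker_smul_top_iff (χ : Λ →ₐ[O] O) (v : Fin D → Λ) :
    v ∈ RingHom.ker χ • (⊤ : Submodule Λ (Fin D → Λ)) ↔ ∀ k, χ (v k) = 0 := by
  classical
  constructor
  · intro hv k
    refine Submodule.smul_induction_on hv (fun a ha w _ => ?_) fun x y hx hy => ?_
    · simp [Pi.smul_apply, RingHom.mem_ker.1 ha]
    · simp [Pi.add_apply, hx, hy]
  · intro h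
    have e : v = ∑ k, v k • (Pi.single k (1 : Λ) : Fin D → Λ) := by
      funext a
      simp [Finset.sum_apply, Pi.single_apply]
    rw [e]
    exact Submodule.sum_mem _ fun k _ => Submodule.smul_mem_smul (h k) Submodule.mem_top

end Linear

variable {O : Type} [CommRing O] [IsDomain O] [IsDiscreteValuationRing O]
  [IsAdicComplete (maximalIdeal O) O] [Finite (ResidueField O)] [CharZero O]
  {p : ℕ} [Fact p.Prime]

/-- The two twists. -/
def twoTwists (B : Base O p) : Bool → MulChar (ZMod B.N₀) O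
  | true => B.χ
  | false => 1

theorem twoTwists_eq (B : Base O p) : ∀ t, twoTwists B t = B.χ ∨ twoTwists B t = 1
  | true => Or.inl rfl
  | false => Or.inr rfl

/-- The two models as a family. -/
def twoModels {B : Base O p} {r n D : ℕ} {Lv : Level B r n} (mT : HeckeModel Lv B.χ D)
    (mU : HeckeModel Lv 1 D) : ∀ t, HeckeModel Lv (twoTwists B t) ((fun _ : Bool => D) t)
  | true => mT
  | false => mU

/-- **The input at one level.** -/
theorem nonempty_levelInput {B : Base O p} {m s : ℕ} (F : Frames B m s) (j₀ : Fin s)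
    (hbar : levelCond B ∅ (GaloisRepAdic.ofResidualGaloisRep B.ρbar))
    (inputs : LocalInputs p) (hso : StrictOrdinaryOfNewform p)
    (hm : ∀ j, (F.FP.setup.kind j).isTwisted = true → ¬ p ^ (m + 1) ∣ F.FP.setup.n j - 1)
    {ζ : O} (hζ : IsPrimitiveRoot ζ (p ^ m)) (hm1 : 1 ≤ m)
    {r n : ℕ} (Lv : Level B r n) {D : ℕ} (hD : 0 < D) (ϖ : O) (mT : HeckeModel Lv B.χ D)
    (mU : HeckeModel Lv 1 D)
    (hop : ∀ ℓ : Nat.Primes, (ℓ : ℕ) ∉ Lv.S' →
      ∃ E : Matrix (Fin D) (Fin D) Lv.Λ, mT.op ℓ = mU.op ℓ + ϖ • E)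
    (Dd : GaloisRep.DeformationRingData O B.ρbar
      (levelCond B (Finset.univ.image fun i => (Lv.qv i : ℕ))))
    (b : Module.Basis (Fin 2) Dd.R Dd.ρ.V)
    (hres : residueMat Dd b = mapRep (ResidueField.map (algebraMap O Dd.R))
      (matOf B.ρbar.ρ B.bbar))
    {g : ℕ} (Φ : MvPowerSeries (LocVar s ⊕ Fin g) O →ₐ[O] MvPowerSeries (FrameVar s) Dd.R)
    (hΦs : Function.Surjective Φ)
    (hΦ : ∀ i el a c, Φ (MvPowerSeries.X (Sum.inl (i, el, a, c))) =
      frameConj Dd.R s i (matOf Dd.ρ.ρ b (F.FP.el i el)) a c -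
        algebraMap O (MvPowerSeries (FrameVar s) Dd.R) (F.FP.lift0 i el a c)) :
    Nonempty (LevelInput F.FP ϖ j₀ r g D n) := by
  classical
  have hp : p.Prime := Fact.out
  haveI : NeZero D := ⟨hD.ne'⟩
  haveI : ∀ _ : Bool, NeZero D := fun _ => ⟨hD.ne'⟩
  let M := twoModels mT mU
  obtain ⟨ρH, htype, hresH, hfrobH, hptH⟩ := exists_heckeRep inputs hso (twoTwists_eq B) M
  obtain ⟨φ, ⟨hφ, ⟨eφ⟩⟩, -⟩ := Dd.universal (heckeRing M) (heckeRing.residue_surjective' M) ρH
    htype hresH
  -- the representation at a point of the ring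
  have hpoint : ∀ (V : Type) [CommRing V] [IsDomain V] [IsDiscreteValuationRing V]
      [IsAdicComplete (maximalIdeal V) V] [Finite (ResidueField V)] [CharZero V] [Algebra O V]
      [IsLocalHom (algebraMap O V)], Function.Injective (algebraMap O V) →
      ∀ (f : heckeRing M →ₐ[O] V) (t : Bool),
        RingHom.ker (heckeRing.proj M t) ≤ RingHom.ker f →
        ∃ ρV : GaloisRepAdic V,
          IsLevelPoint Lv (twoTwists B t) (f.comp (heckeRing.lam M)) (pointSystem M f) ρV ∧
          ∀ τ, LinearMap.charpoly (ρV.ρ τ) =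
            (LinearMap.charpoly (Dd.ρ.ρ τ)).map (f.comp φ : Dd.R →+* V) := by
    intro V _ _ _ _ _ _ _ _ hinj f t ht
    obtain ⟨t', -, hρ⟩ := exists_levelPoint_of_hom inputs hso (twoTwists_eq B) M hinj f
    obtain ⟨ρV, hρV⟩ := hρ t ht
    refine ⟨ρV, hρV, fun τ => ?_⟩
    rw [Density.adic_charpoly_eq_of_isEquiv (hptH V hinj f (isLocalHom_of_algHom f) t ht ρV hρV) τ,
      charpoly_adic_baseChangeAlong, Density.adic_charpoly_eq_of_isEquiv ⟨eφ⟩ τ,
      charpoly_adic_baseChangeAlong, Polynomial.map_map]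
    rfl
  have hloc : ∀ {V : Type} [CommRing V] [IsDomain V] [IsDiscreteValuationRing V] [Algebra O V]
      [IsLocalHom (algebraMap O V)] (f : heckeRing M →ₐ[O] V),
      IsLocalHom (f.comp φ : Dd.R →+* V) := fun {V} _ _ _ _ _ f => by
    haveI := hφ
    haveI : IsLocalHom (f : heckeRing M →+* V) := isLocalHom_of_algHom f
    exact RingHom.isLocalHom_comp (f : heckeRing M →+* V) (φ : Dd.R →+* heckeRing M)
  choose T a a' hapow htr hdet' using exists_auxElement hbar hres
  have hroot : IsPrimitiveRoot (ζ ^ p ^ (m - 1)) p :=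
    hζ.pow (pow_pos hp.pos m) (by rw [← pow_succ, Nat.sub_add_cancel hm1])
  set z := ζ ^ p ^ (m - 1)
  have hz : ∀ i k, (Pi.mulSingle i z : Fin r → O) k ^ ppow p Lv.e k = 1 := fun i k => by
    rcases eq_or_ne k i with rfl | hk
    · rw [Pi.mulSingle_eq_same]
      exact (hroot.pow_eq_one_iff_dvd _).2 (dvd_pow_self p (Lv.pos_e k).ne')
    · rw [Pi.mulSingle_eq_of_ne hk, one_pow]
  let χi : Fin r → (Lv.Λ →ₐ[O] O) := fun i =>
    MonoidAlgebra.lift O O (Grp (ppow p Lv.e)) (homOf (Pi.mulSingle i z) (hz i))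
  have hχδ : ∀ i, χi i (delta O (N := ppow p Lv.e) i) = z := fun i => by
    show MonoidAlgebra.lift O O _ _ (MonoidAlgebra.of O _ (gen i)) = z
    rw [MonoidAlgebra.lift_of, homOf_gen, Pi.mulSingle_eq_same]
  let act : Bool → (Dd.R →ₐ[O] Module.End Lv.Λ (Fin D → Lv.Λ)) := fun t =>
    ((Matrix.toLinAlgEquiv' (R := Lv.Λ) (n := Fin D)).toAlgHom.restrictScalars O).comp
      ((heckeRing.proj M t).comp φ)
  have hact : ∀ t x v, act t x v = (heckeRing.proj M t (φ x)).mulVec v := fun t x v => rfl
  refine ⟨⟨Lv.e, Lv.le_e, Dd.R, matOf Dd.ρ.ρ b, Φ, hΦs, hΦ, a, hapow, χi, z, hroot, hχδ,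
    act true, act false, fun i v => ?_, fun i v hv => ?_, fun x hx v => ?_, ?_, ?_⟩⟩
  · -- `(a i - 1)` kills the norm component
    have hzero : heckeRing.proj M true
        (heckeRing.lam M (deltaNorm O (ppow p Lv.e) i) * (φ (a i) - 1)) = 0 := by
      refine heckeRing.eq_zero_of_points M true _ fun V _ _ _ _ _ _ _ _ _ hinj f hf => ?_
      obtain ⟨ρV, hρV, hch⟩ := hpoint V hinj f true hf
      rw [map_mul, map_sub, map_one]
      by_cases h1 : f (heckeRing.lam M (delta O (N := ppow p Lv.e) i)) = 1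
      · refine mul_eq_zero_of_right _ (sub_eq_zero.2 ?_)
        exact (aux_point hbar (f.comp φ) hρV hch (T i) (htr i) (hdet' i)).1 h1
      · refine mul_eq_zero_of_left ?_ _
        have h := congrArg (fun c => f (heckeRing.lam M c))
          (delta_mul_deltaNorm (O := O) (N := ppow p Lv.e) i)
        rw [map_mul, map_mul] at h
        exact (mul_left_eq_self₀.1 h).resolve_left h1
    rw [map_mul, heckeRing.proj_lam, map_sub, map_one] at hzero
    have hdiv : ∀ k l, ∃ c, (heckeRing.proj M true (φ (a i)) - 1) k l =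
        (delta O (N := ppow p Lv.e) i - 1) * c := fun k l => by
      have h := congrFun (congrFun hzero k) l
      rw [Matrix.scalar_apply, Matrix.diagonal_mul] at h
      exact Ideal.mem_span_singleton.1 (mem_span_delta_sub_one i h)
    choose C hC using hdiv
    refine ⟨(Matrix.of C).mulVec v, ?_⟩
    rw [hact, ← Matrix.smul_mulVec]
    have e : (delta O (N := ppow p Lv.e) i - 1) • Matrix.of C =
        heckeRing.proj M true (φ (a i)) - 1 := Matrix.ext fun k l => (hC k l).symm
    rw [e, Matrix.sub_mulVec, Matrix.one_mulVec]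
  · -- no fixed vector at a primitive character
    rw [mem_ker_smul_top_iff] at hv ⊢
    by_contra hne
    have hy : (((heckeRing.proj M true (φ (a i) - 1)).map (χi i)).mulVec fun k => χi i (v k)) = 0 :=
      funext fun k => by
        have h := hv k
        have e : act true (a i) v - v = (heckeRing.proj M true (φ (a i)) - 1).mulVec v := by
          rw [Matrix.sub_mulVec, Matrix.one_mulVec, hact]
        rw [e] at h
        rw [map_sub, map_one, Pi.zero_apply, ← h]
        exact ((χi i).toRingHom.map_mulVec _ v k).symm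
    have hdet := Matrix.exists_mulVec_eq_zero_iff.1
      ⟨fun k => χi i (v k), fun h => hne fun k => congrFun h k, hy⟩
    obtain ⟨V, _, _, _, _, _, _, _, _, _, hinj, f, hf, hfy, hflam⟩ :=
      heckeRing.exists_point_of_singular M true (χi i) (φ (a i) - 1) hdet
    obtain ⟨ρV, hρV, hch⟩ := hpoint V hinj f true hf
    rw [map_sub, map_one, sub_eq_zero] at hfy
    have h1 := (aux_point hbar (f.comp φ) hρV hch (T i) (htr i) (hdet' i)).2 hfy
    rw [AlgHom.comp_apply, hflam, hχδ] at h1
    exact hroot.ne_one hp.one_lt (hinj (h1.trans (map_one _).symm))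
  · -- the two components agree modulo `ϖ`
    let A : Subalgebra O (heckeRing M) :=
      { carrier := {y | ∃ E : Matrix (Fin D) (Fin D) Lv.Λ,
          heckeRing.proj M true y = heckeRing.proj M false y + ϖ • E}
        mul_mem' := by
          rintro y y' ⟨E, hE⟩ ⟨E', hE'⟩
          refine ⟨E * heckeRing.proj M true y' + heckeRing.proj M false y * E', ?_⟩
          rw [map_mul, map_mul, hE, hE', smul_add, add_mul, mul_add, ← smul_mul_assoc,
            ← mul_smul_comm, add_assoc, add_comm (_ * (ϖ • E'))]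
        add_mem' := by
          rintro y y' ⟨E, hE⟩ ⟨E', hE'⟩
          exact ⟨E + E', by rw [map_add, map_add, hE, hE', smul_add]; abel⟩
        algebraMap_mem' := fun o => ⟨0, by rw [AlgHom.commutes, AlgHom.commutes, smul_zero, add_zero]⟩ }
    have hA : ⊤ ≤ A := by
      rw [← heckeRing.adjoin_eq_top M]
      refine Algebra.adjoin_le ?_
      rintro _ (⟨c, rfl⟩ | ⟨ℓ, rfl⟩)
      · exact ⟨0, by simp only [heckeRing.proj_lam, smul_zero, add_zero]⟩
      · exact hop ℓ.1 ℓ.2
    obtain ⟨E, hE⟩ := hA (Algebra.mem_top (x := φ x))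
    refine ⟨E.mulVec v, ?_⟩
    have h0 : (heckeRing.proj M false (φ x)).mulVec v = 0 := by
      rw [← hact, hx]; rfl
    rw [hact, hE, Matrix.add_mulVec, h0, zero_add, Matrix.smul_mulVec]
  · intro x hx v
    have : heckeRing.proj M true (φ x) = 0 :=
      heckeRing.eq_zero_of_points M true (φ x) fun V _ _ _ _ _ _ _ _ _ hinj f hf => by
        obtain ⟨ρV, hρV, hch⟩ := hpoint V hinj f true hf
        exact hx V hinj (f.comp φ) (hloc f)
          (pointPred_of_isLevelPoint F (f.comp φ) (hloc f) hres hρV hch hm (hζ.map_of_injective hinj))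
    show act _ x v = 0
    rw [hact, this, Matrix.zero_mulVec]
  · intro x hx v
    have : heckeRing.proj M false (φ x) = 0 :=
      heckeRing.eq_zero_of_points M false (φ x) fun V _ _ _ _ _ _ _ _ _ hinj f hf => by
        obtain ⟨ρV, hρV, hch⟩ := hpoint V hinj f false hf
        exact hx V hinj (f.comp φ) (hloc f)
          (steinbergPred_of_isLevelPoint F j₀ (f.comp φ) hρV hch)
    show act _ x v = 0
    rw [hact, this, Matrix.zero_mulVec]

end Fermat.Agent.RT.Assembly

end
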