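import Fermat.Agent.RT.Assembly.RingData
import Fermat.Agent.RT.LocalAtP.TangentBound
import Fermat.Agent.FlatLocal.LocalBound
import Fermat.Agent.TwoAdic.Selmer.Decomposition

/-!
# The local bound at `p` for the conditions of the levels (PATCH part 4)
-/

set_option autoImplicit false

noncomputable section

open IsLocalRing

namespace Fermat.Agent.RT.Assembly

open Deformation (Mat matOf matOf_apply)

variable {O : Type} [CommRing O] [IsDomain O] [IsDiscreteValuationRing O]
  [IsAdicComplete (maximalIdeal O) O] [Finite (ResidueField O)] [CharZero O]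
  {p : ℕ} [Fact p.Prime]

theorem padicPlace_liesOverPrime : (padicPlace p).LiesOverPrime p :=
  TwoAdic.Selmer.liesOverPrime_padicPlace (q := ⟨p, Fact.out⟩)

/-- Every matrix of the residual representation has an eigenvalue in the residue field. -/
theorem exists_det_sub_smul_eq_zero (B : Base O p) (g : AlgebraicClosure ℚ ≃ₐ[ℚ] AlgebraicClosure ℚ) :
    ∃ c : ResidueField O,
      (matOf B.ρbar.ρ B.bbar g - c • (1 : Mat (ResidueField O))).det = 0 := by
  obtain ⟨α, β, h⟩ := B.split g
  refine ⟨α, ?_⟩
  have hc := LinearMap.charpoly_toMatrix (B.ρbar.ρ g) B.bbar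
  rw [h] at hc
  have he := congrArg (Polynomial.eval α) hc
  rw [Matrix.eval_charpoly] at he
  simp only [Polynomial.eval_mul, Polynomial.eval_sub, Polynomial.eval_X, Polynomial.eval_C,
    sub_self, zero_mul] at he
  rw [matOf_apply, Matrix.smul_one_eq_diagonal,
    show (Matrix.diagonal fun _ => α) = Matrix.scalar (Fin 2) α from rfl,
    ← neg_sub, Matrix.det_neg, he, mul_zero]

/-- `dim L_p ≤ 1 + h⁰` for the conditions of the levels, flat or strict ordinary. -/
theorem localBoundAtP_levelCond (B : Base O p) :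
    LocalBoundAtP (matOf B.ρbar.ρ B.bbar) (levelCond B) (padicPlace p) := by
  by_cases hp : p ∣ B.M₀
  · exact localBoundAtP_strictOrdinary Fact.out B.hp2 B.hpO _ _ (fun Q ρ h => ⟨h.1, h.2.2.1 hp⟩) _
      padicPlace_liesOverPrime
  · exact FlatLocal.localBoundAtP_flat B.hp2 B.hpO _ (exists_det_sub_smul_eq_zero B) _
      fun Q ρ h => ⟨h.1, h.2.1 hp⟩

end Fermat.Agent.RT.Assembly

end
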