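import Mathlib.Algebra.MonoidAlgebra.Basic
import Mathlib.FieldTheory.IsAlgClosed.AlgebraicClosure
import Mathlib.LinearAlgebra.Matrix.Charpoly.Eigs
import Mathlib.RingTheory.DiscreteValuationRing.Basic
import Mathlib.RingTheory.DedekindDomain.PID
import Mathlib.RingTheory.Ideal.GoingUp
import Mathlib.RingTheory.IntegralClosure.IntegrallyClosed
import Mathlib.RingTheory.LocalRing.ResidueField.Basic
import Mathlib.RingTheory.Nakayama
import Mathlib.RingTheory.OrzechProperty
import Mathlib.RingTheory.RootsOfUnity.PrimitiveRoots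

/-!
# The diamond trick (PATCH part 3)

`M` is free over `Λ = O[∏ ℤ/pᵉⁱ]` (the diamond action `δ`) and `R` acts on it `Λ`-linearly, with
elements `a i` satisfying `(a i - 1) M ⊆ (δ i - 1) M` and such that `a i` has no fixed vector at a
character of order `p`. Then `M` is free over `Λ` for the action `δ i ↦ a i` as well, and `R` acts
linearly for it.
-/

set_option autoImplicit false

noncomputable section

namespace Fermat.Agent.RT.Diamond

open IsLocalRing Module

variable {O : Type} [CommRing O] {r : ℕ} {N : Fin r → ℕ}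

variable (N) in
/-- The group of diamond operators. -/
abbrev Grp : Type := Multiplicative (∀ i, ZMod (N i))

variable (O N) in
/-- Its group algebra. -/
abbrev Alg : Type := MonoidAlgebra O (Grp N)

/-- The generators. -/
def gen (i : Fin r) : Grp N := Multiplicative.ofAdd (Pi.single i 1)

variable (O) in
/-- The generators in the group algebra. -/
def delta (i : Fin r) : Alg O N := MonoidAlgebra.of O (Grp N) (gen i)

section Hom

variable [∀ i, NeZero (N i)] {B : Type*} [CommMonoid B] (a : Fin r → B)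

/-- The homomorphism sending the `i`-th generator to `a i`. -/
def homOf (ha : ∀ i, a i ^ N i = 1) : Grp N →* B where
  toFun v := ∏ i, a i ^ (Multiplicative.toAdd v i).val
  map_one' := by simp
  map_mul' v w := by
    rw [← Finset.prod_mul_distrib]
    refine Finset.prod_congr rfl fun i _ => ?_
    rw [toAdd_mul, Pi.add_apply, ← pow_add, ZMod.val_add, ← pow_eq_pow_mod _ (ha i)]

theorem homOf_gen (ha : ∀ i, a i ^ N i = 1) (i : Fin r) : homOf a ha (gen i) = a i := by
  show ∏ j, a j ^ ((Pi.single i (1 : ZMod (N i)) : ∀ j, ZMod (N j)) j).val = a i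
  rw [Finset.prod_eq_single i (fun j _ hj => by simp [hj]) (by simp), Pi.single_eq_same,
    ZMod.val_one_eq_one_mod, ← pow_eq_pow_mod _ (ha i), pow_one]

omit [∀ i, NeZero (N i)] in
theorem gen_pow (i : Fin r) : gen (N := N) i ^ N i = 1 := by
  apply Multiplicative.toAdd.injective
  funext j
  rcases eq_or_ne j i with rfl | hj
  · simp [gen]
  · simp [gen, hj]

theorem eq_prod_gen (v : Grp N) : v = ∏ i, gen i ^ (Multiplicative.toAdd v i).val := by
  apply Multiplicative.toAdd.injective
  rw [toAdd_prod]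
  funext j
  rw [Finset.sum_apply, Finset.sum_eq_single j (fun i _ hi => by simp [gen, hi.symm]) (by simp)]
  simp [gen]

theorem hom_ext {f g : Grp N →* B} (h : ∀ i, f (gen i) = g (gen i)) : f = g := by
  refine MonoidHom.ext fun v => ?_
  rw [eq_prod_gen v, map_prod, map_prod]
  exact Finset.prod_congr rfl fun i _ => by rw [map_pow, map_pow, h]

end Hom

theorem delta_pow [∀ i, NeZero (N i)] (i : Fin r) : delta O (N := N) i ^ N i = 1 := by
  rw [delta, ← map_pow, gen_pow, map_one]

variable (O N) in
/-- The augmentation. -/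
def aug : Alg O N →ₐ[O] O := MonoidAlgebra.lift O O (Grp N) 1

variable (O N) in
/-- The ideal generated by the `δ i - 1`. -/
def augIdeal : Ideal (Alg O N) := Ideal.span (Set.range fun i => delta O (N := N) i - 1)

theorem sub_aug_mem [∀ i, NeZero (N i)] (c : Alg O N) :
    c - algebraMap O (Alg O N) (aug O N c) ∈ augIdeal O N := by
  let π := Ideal.Quotient.mkₐ O (augIdeal O N)
  have h : π = ((Algebra.ofId O (Alg O N ⧸ augIdeal O N)).comp (aug O N)) := by
    apply MonoidAlgebra.algHom_ext
    on_goal 2 => exact Subsingleton.elim _ _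
    intro v
    let g₁ : Grp N →* (Alg O N ⧸ augIdeal O N) :=
      π.toRingHom.toMonoidHom.comp (MonoidAlgebra.of O (Grp N))
    let g₂ : Grp N →* (Alg O N ⧸ augIdeal O N) :=
      ((Algebra.ofId O (Alg O N ⧸ augIdeal O N)).comp (aug O N)).toRingHom.toMonoidHom.comp
        (MonoidAlgebra.of O (Grp N))
    refine DFunLike.congr_fun (hom_ext (f := g₁) (g := g₂) fun i => ?_) v
    have h1 : π (delta O (N := N) i) = π 1 := by
      simp only [π, Ideal.Quotient.mkₐ_eq_mk, Ideal.Quotient.eq]
      exact Ideal.subset_span ⟨i, rfl⟩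
    have h2 : aug O N (MonoidAlgebra.single (gen i) 1) = 1 := by
      simp [aug, MonoidAlgebra.lift_single]
    rw [delta, MonoidAlgebra.of_apply, map_one] at h1
    show π (MonoidAlgebra.single (gen i) 1) =
      Algebra.ofId O (Alg O N ⧸ augIdeal O N) (aug O N (MonoidAlgebra.single (gen i) 1))
    rw [h1, h2, map_one]
  have := AlgHom.congr_fun h c
  rw [← Ideal.Quotient.eq]
  exact this

/-- The orders of the generators. -/
abbrev ppow (p : ℕ) (e : Fin r → ℕ) : Fin r → ℕ := fun i => p ^ e i

variable {p : ℕ} [hp : Fact p.Prime] {e : Fin r → ℕ}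

/-- The group algebra of a `p`-group over a local ring of residue characteristic `p` is local. -/
theorem isLocalRing_alg [IsLocalRing O] (hpO : (p : O) ∈ maximalIdeal O) :
    IsLocalRing (Alg O (ppow p e)) := by
  have : Module.Finite O (Alg O (ppow p e)) :=
    Module.Finite.of_basis (MonoidAlgebra.basis (Grp (ppow p e)) O)
  let res : Alg O (ppow p e) →+* ResidueField O := (residue O).comp (aug O (ppow p e)).toRingHom
  have hres : Function.Surjective res := fun x => by
    obtain ⟨x, rfl⟩ := residue_surjective x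
    exact ⟨algebraMap O _ x, by simp [res, aug, MonoidAlgebra.lift_single]⟩
  refine IsLocalRing.of_unique_max_ideal ⟨RingHom.ker res, RingHom.ker_isMaximal_of_surjective _ hres,
    fun 𝔐 h𝔐 => (h𝔐.eq_of_le ?_ fun x hx => ?_)⟩
  · exact (RingHom.ker_isMaximal_of_surjective _ hres).ne_top
  have hcomap : 𝔐.comap (algebraMap O (Alg O (ppow p e))) = maximalIdeal O :=
    eq_maximalIdeal (Ideal.isMaximal_comap_of_isIntegral_of_isMaximal 𝔐)
  -- `δ i - 1` is nilpotent modulo `𝔐`
  have hJ : augIdeal O (ppow p e) ≤ RingHom.ker res := by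
    refine Ideal.span_le.2 ?_
    rintro _ ⟨i, rfl⟩
    simp [res, aug, delta, MonoidAlgebra.lift_single]
  by_contra hxI
  obtain ⟨y, m, hm, hym⟩ := (RingHom.ker_isMaximal_of_surjective _ hres).exists_inv hxI
  have hdel : ∀ i, delta O (N := (ppow p e)) i - 1 ∈ 𝔐 := by
    intro i
    have : CharP (Alg O (ppow p e) ⧸ 𝔐) p := by
      have hfield := Ideal.Quotient.field 𝔐
      refine (CharP.charP_iff_prime_eq_zero hp.out).2 ?_
      rw [← map_natCast (Ideal.Quotient.mk 𝔐), Ideal.Quotient.eq_zero_iff_mem,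
        ← map_natCast (algebraMap O (Alg O (ppow p e))), ← Ideal.mem_comap, hcomap]
      exact hpO
    rw [← Ideal.Quotient.eq_zero_iff_mem]
    refine pow_eq_zero_iff (pow_ne_zero (e i) hp.out.ne_zero) |>.1 ?_
    rw [map_sub, map_one, sub_pow_char_pow, ← map_pow, delta_pow, map_one, one_pow, sub_self]
  have hmaug : algebraMap O (Alg O (ppow p e)) (aug O (ppow p e) m) ∈ 𝔐 := by
    rw [← Ideal.mem_comap, hcomap, ← residue_eq_zero_iff]
    exact hm
  have hmJ := Ideal.span_le.2 (show Set.range (fun i => delta O (N := (ppow p e)) i - 1) ⊆ (𝔐 : Set _) by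
    rintro _ ⟨i, rfl⟩; exact hdel i) (sub_aug_mem (O := O) (N := (ppow p e)) m)
  have hm𝔐 : m ∈ 𝔐 := by simpa using 𝔐.add_mem hmJ hmaug
  exact h𝔐.ne_top ((Ideal.eq_top_iff_one _).2 (hym ▸ 𝔐.add_mem (𝔐.mul_mem_left y hx) hm𝔐))

section Root

variable [IsDomain O] [IsIntegrallyClosed O] [CharZero O]

/-- A matrix of `p`-power order without fixed vector has `det (A - 1)` dividing `(ζ - 1) ^ D`. -/
theorem det_sub_one_dvd {ι : Type} [Fintype ι] [DecidableEq ι] {A : Matrix ι ι O} {j : ℕ}
    (hA : A ^ p ^ j = 1) (hdet : (A - 1).det ≠ 0) {ζ : O} (hζ : IsPrimitiveRoot ζ p) :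
    (A - 1).det ∣ (ζ - 1) ^ Fintype.card ι := by
  classical
  let K := AlgebraicClosure (FractionRing O)
  let f : O →+* K := (algebraMap (FractionRing O) K).comp (algebraMap O (FractionRing O))
  have hf : Function.Injective f :=
    (algebraMap (FractionRing O) K).injective.comp (IsFractionRing.injective O (FractionRing O))
  let A' : Matrix ι ι K := f.mapMatrix A
  have hroots := (IsAlgClosed.splits A'.charpoly).eq_prod_roots_of_monic A'.charpoly_monic
  set R := A'.charpoly.roots with hR
  have hcard : R.card = Fintype.card ι := by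
    rw [hR, ← (IsAlgClosed.splits A'.charpoly).natDegree_eq_card_roots,
      Matrix.charpoly_natDegree_eq_dim]
  have hev : f (A - 1).det = (R.map fun l => l - 1).prod := by
    have h1 : f (A - 1).det = (A' - 1).det := by
      rw [RingHom.map_det, map_sub, map_one]
    have h2 : A'.charpoly.eval 1 = (1 - A').det := by
      rw [Matrix.eval_charpoly]; simp
    have h3 : A'.charpoly.eval 1 = (R.map fun l => 1 - l).prod := by
      conv_lhs => rw [hroots]
      rw [Polynomial.eval_multiset_prod, Multiset.map_map]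
      simp
    rw [h1, ← neg_sub 1 A', Matrix.det_neg, ← h2, h3, ← hcard]
    rw [show (R.map fun l => l - 1) = R.map fun l => (-1) * (1 - l) from
      Multiset.map_congr rfl fun l _ => by ring, Multiset.prod_map_mul,
      Multiset.map_const', Multiset.prod_replicate]
  have hζK : IsPrimitiveRoot (f ζ) p := hζ.map_of_injective hf
  have hu : ∀ l ∈ R, ∃ u : K, IsIntegral O u ∧ (l - 1) * u = f ζ - 1 := by
    intro l hl
    have hev0 : A'.charpoly.eval l = 0 := (Polynomial.mem_roots'.1 hl).2
    rw [Matrix.eval_charpoly] at hev0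
    obtain ⟨v, hv0, hv⟩ := Matrix.exists_mulVec_eq_zero_iff.2 hev0
    rw [Matrix.sub_mulVec, sub_eq_zero] at hv
    have hv' : A'.mulVec v = l • v := hv.symm.trans (by ext; simp [Matrix.mulVec_diagonal])
    have hpowv : ∀ n : ℕ, (A' ^ n).mulVec v = l ^ n • v := by
      intro n
      induction n with
      | zero => simp
      | succ n ih =>
        rw [pow_succ, ← Matrix.mulVec_mulVec, hv', Matrix.mulVec_smul, ih, smul_smul, pow_succ']
    have hpow : l ^ p ^ j = 1 := by
      have := hpowv (p ^ j)
      rw [show A' ^ p ^ j = 1 from (map_pow f.mapMatrix A _).symm.trans (by rw [hA, map_one]),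
        Matrix.one_mulVec] at this
      exact smul_left_injective K hv0 (this.symm.trans (one_smul K v).symm)
    have hne : l ≠ 1 := by
      rintro rfl
      refine hdet (hf ?_)
      rw [hev, map_zero]
      exact Multiset.prod_eq_zero (Multiset.mem_map.2 ⟨1, hl, sub_self 1⟩)
    obtain ⟨k, -, hk⟩ := (Nat.dvd_prime_pow hp.out).1 (orderOf_dvd_of_pow_eq_one hpow)
    have hkpos : k ≠ 0 := by
      rintro rfl
      rw [pow_zero, orderOf_eq_one_iff] at hk
      exact hne hk
    have : NeZero (p ^ k) := ⟨pow_ne_zero _ hp.out.ne_zero⟩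
    have hprim : IsPrimitiveRoot l (p ^ k) := hk ▸ IsPrimitiveRoot.orderOf l
    obtain ⟨m, -, hm⟩ := hprim.eq_pow_of_pow_eq_one (ξ := f ζ) (by
      obtain ⟨k', rfl⟩ := Nat.exists_eq_succ_of_ne_zero hkpos
      rw [pow_succ', pow_mul, hζK.pow_eq_one, one_pow])
    refine ⟨∑ i ∈ Finset.range m, l ^ i, IsIntegral.sum _ fun i _ => IsIntegral.pow ?_ i, ?_⟩
    · exact ⟨Polynomial.X ^ p ^ j - Polynomial.C 1,
        Polynomial.monic_X_pow_sub_C 1 (pow_ne_zero _ hp.out.ne_zero), by simp [hpow]⟩
    · rw [mul_geom_sum, hm]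
  choose! u hu1 hu2 using hu
  have hint : IsIntegral O (R.map u).prod :=
    IsIntegral.multiset_prod fun x hx => by
      obtain ⟨l, hl, rfl⟩ := Multiset.mem_map.1 hx
      exact hu1 l hl
  have hprod : f (A - 1).det * (R.map u).prod = f ((ζ - 1) ^ Fintype.card ι) := by
    rw [hev, ← Multiset.prod_map_mul, Multiset.map_congr rfl hu2, Multiset.map_const',
      Multiset.prod_replicate, hcard, map_pow, map_sub, map_one]
  -- the integral quotient lies in `O`
  let q : FractionRing O :=
    algebraMap O _ ((ζ - 1) ^ Fintype.card ι) / algebraMap O _ (A - 1).det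
  have hd0 : algebraMap O (FractionRing O) (A - 1).det ≠ 0 :=
    fun h => hdet (IsFractionRing.injective O (FractionRing O) (h.trans (map_zero _).symm))
  have hq : algebraMap (FractionRing O) K q = (R.map u).prod := by
    rw [map_div₀, div_eq_iff (by rwa [map_ne_zero]), mul_comm]
    exact hprod.symm
  obtain ⟨w, hw⟩ := IsIntegrallyClosed.isIntegral_iff.1
    ((isIntegral_algebraMap_iff (algebraMap (FractionRing O) K).injective).1 (hq ▸ hint))
  refine ⟨w, IsFractionRing.injective O (FractionRing O) ?_⟩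
  rw [map_mul, hw, mul_div_cancel₀ _ hd0]

end Root

/-- Nakayama for a spanning family. -/
theorem span_eq_top_of_sup_smul {C : Type*} [CommRing C] [IsLocalRing C] {X : Type*}
    [AddCommGroup X] [Module C X] [Module.Finite C X] {ι : Type*} (w : ι → X) (J : Ideal C)
    (hJ : J ≤ maximalIdeal C)
    (h : ∀ x, ∃ y ∈ Submodule.span C (Set.range w), x - y ∈ J • (⊤ : Submodule C X)) :
    Submodule.span C (Set.range w) = ⊤ := by
  refine top_le_iff.1 (Submodule.le_of_le_smul_of_le_jacobson_bot (I := J) Module.Finite.fg_top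
    (hJ.trans (le_of_eq (IsLocalRing.jacobson_eq_maximalIdeal ⊥ bot_ne_top).symm)) fun x _ => ?_)
  obtain ⟨y, hy, hxy⟩ := h x
  exact Submodule.mem_sup.2 ⟨y, hy, x - y, hxy, add_sub_cancel _ _⟩

section Trick

variable [IsDomain O] [IsDiscreteValuationRing O] [CharZero O]
  {M : Type*} [AddCommGroup M] [Module O M] [Module (Alg O (ppow p e)) M]
  [IsScalarTower O (Alg O (ppow p e)) M] [Module.Finite (Alg O (ppow p e)) M]
  {R : Type*} [CommRing R] [Algebra O R]

/-- The diamond trick, with the change of basis. -/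
theorem exists_matrix_action_equiv {D : ℕ} (bD : Basis (Fin D) (Alg O (ppow p e)) M)
    (hpO : (p : O) ∈ maximalIdeal O)
    (ρ : R →ₐ[O] Module.End (Alg O (ppow p e)) M) (a : Fin r → R) (ha : ∀ i, a i ^ p ^ e i = 1)
    {ζ : O} (hζ : IsPrimitiveRoot ζ p) (χ : Fin r → (Alg O (ppow p e) →ₐ[O] O))
    (hχ : ∀ i, χ i (delta O (N := (ppow p e)) i) = ζ)
    (hold : ∀ i (x : M), ∃ y : M, ρ (a i) x - x = (delta O (N := (ppow p e)) i - 1 : Alg O (ppow p e)) • y)
    (hnew : ∀ i (x : M), ρ (a i) x - x ∈ RingHom.ker (χ i) • (⊤ : Submodule (Alg O (ppow p e)) M) →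
      x ∈ RingHom.ker (χ i) • (⊤ : Submodule (Alg O (ppow p e)) M)) :
    ∃ (ρ' : R →ₐ[O] Matrix (Fin D) (Fin D) (Alg O (ppow p e)))
      (Ψ : (Fin D → Alg O (ppow p e)) ≃ₗ[O] M),
      (∀ f v, Ψ ((ρ' f).mulVec v) = ρ f (Ψ v)) ∧
      (∀ j, Ψ (Pi.single j 1) = bD j) ∧
      (∀ i, ρ' (a i) = Matrix.scalar (Fin D) (delta O (N := (ppow p e)) i)) ∧
      (∀ f, ρ f = 0 → ρ' f = 0) ∧
      ∀ (c : O) (g : R), (∀ x, ∃ y : M, ρ g x = c • y) → ∃ B, ρ' g = c • B := by
  classical
  have := isLocalRing_alg (O := O) (e := e) hpO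
  have : Module.Finite O (Alg O (ppow p e)) :=
    Module.Finite.of_basis (MonoidAlgebra.basis (Grp (ppow p e)) O)
  have : Module.Finite O M := Module.Finite.trans (Alg O (ppow p e)) M
  let γ : Alg O (ppow p e) →ₐ[O] R := MonoidAlgebra.lift O R (Grp (ppow p e)) (homOf a ha)
  have hγ : ∀ i, γ (delta O (N := (ppow p e)) i) = a i := fun i => by
    simp only [γ, delta, MonoidAlgebra.lift_of]
    exact homOf_gen a ha i
  have hρ : ∀ f g x, ρ (f * g) x = ρ f (ρ g x) := fun f g x => by rw [map_mul]; rfl
  -- `(a i - 1) M = (δ i - 1) M`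
  have key : ∀ i x, ∃ y : M, (delta O (N := (ppow p e)) i - 1 : Alg O (ppow p e)) • x = ρ (a i) y - y := by
    intro i
    choose y hy using fun j => hold i (bD j)
    let B : M →ₗ[Alg O (ppow p e)] M := bD.constr (Alg O (ppow p e)) y
    have hB : ρ (a i) - 1 = (delta O (N := (ppow p e)) i - 1 : Alg O (ppow p e)) • B := bD.ext fun j => by
      simp only [LinearMap.sub_apply, Module.End.one_apply, LinearMap.smul_apply, B,
        Basis.constr_basis]
      exact hy j
    set Bm := LinearMap.toMatrix bD bD B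
    have hAm : LinearMap.toMatrix bD bD (ρ (a i)) - 1 = (delta O (N := (ppow p e)) i - 1 : Alg O (ppow p e)) • Bm := by
      rw [← LinearMap.toMatrix_one bD, ← map_sub, hB, map_smul]
    set Ā : Matrix (Fin D) (Fin D) O := (χ i).toRingHom.mapMatrix (LinearMap.toMatrix bD bD (ρ (a i)))
    have hĀ : Ā ^ p ^ e i = 1 := by
      have h : LinearMap.toMatrix bD bD (ρ (a i)) ^ p ^ e i = 1 := by
        show LinearMap.toMatrixAlgEquiv bD (ρ (a i)) ^ p ^ e i = 1
        rw [← map_pow, ← map_pow, ha, map_one, map_one]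
      rw [← map_pow, h, map_one]
    have hĀ1 : Ā - 1 = (ζ - 1) • (χ i).toRingHom.mapMatrix Bm := by
      have := congrArg (χ i).toRingHom.mapMatrix hAm
      rw [map_sub, map_one] at this
      rw [this]
      ext k l
      simp [hχ]
    have hdet : (Ā - 1).det ≠ 0 := by
      intro h0
      obtain ⟨v, hv0, hv⟩ := Matrix.exists_mulVec_eq_zero_iff.2 h0
      let x : M := ∑ k, algebraMap O (Alg O (ppow p e)) (v k) • bD k
      have hrepr : ∀ k, bD.repr x k = algebraMap O (Alg O (ppow p e)) (v k) := fun k => by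
        simp [x, Finsupp.single_apply]
      have hmem : ∀ z : M, z ∈ RingHom.ker (χ i) • (⊤ : Submodule (Alg O (ppow p e)) M) ↔
          ∀ k, χ i (bD.repr z k) = 0 := by
        intro z
        constructor
        · intro hz k
          refine Submodule.smul_induction_on (p := fun z => χ i (bD.repr z k) = 0) hz ?_ ?_
          · intro c hc w _
            simp [show χ i c = 0 from hc]
          · intro w w' hw hw'
            simp [hw, hw']
        · intro hz
          rw [← bD.sum_repr z]
          exact Submodule.sum_mem _ fun k _ => Submodule.smul_mem_smul (hz k) trivial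
      have hfix : ρ (a i) x - x ∈ RingHom.ker (χ i) • (⊤ : Submodule (Alg O (ppow p e)) M) := by
        rw [hmem]
        intro k
        have e1 := congrFun (LinearMap.toMatrix_mulVec_repr bD bD (ρ (a i)) x) k
        rw [map_sub, Finsupp.sub_apply, map_sub, ← e1, hrepr, AlgHom.commutes]
        have e2 := congrFun hv k
        simp only [Matrix.mulVec, dotProduct, Pi.zero_apply, Matrix.sub_apply, sub_mul,
          Finset.sum_sub_distrib, Matrix.one_apply, ite_mul, one_mul, zero_mul,
          Finset.sum_ite_eq, Finset.mem_univ, if_true] at e2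
        simp only [Matrix.mulVec, dotProduct, hrepr, map_sum, map_mul, AlgHom.commutes]
        exact e2
      refine hv0 (funext fun k => ?_)
      have := (hmem x).1 (hnew i x hfix) k
      rwa [hrepr, AlgHom.commutes] at this
    have hunit : IsUnit ((χ i).toRingHom.mapMatrix Bm).det := by
      obtain ⟨w, hw⟩ := det_sub_one_dvd hĀ hdet hζ
      rw [hĀ1, Matrix.det_smul, mul_assoc] at hw
      have h1 : ζ - 1 ≠ 0 := sub_ne_zero.2 (hζ.ne_one hp.out.one_lt)
      exact IsUnit.of_mul_eq_one _ ((mul_eq_left₀ (pow_ne_zero _ h1)).1 hw.symm)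
    have : IsLocalHom (χ i).toRingHom :=
      IsLocalHom.of_surjective _ fun z => ⟨algebraMap O _ z, (χ i).commutes z⟩
    have hBu : IsUnit B.det := by
      rw [← LinearMap.det_toMatrix bD]
      exact isUnit_of_map_unit (χ i).toRingHom _ (by rwa [RingHom.map_det])
    intro x
    have : Module.Free (Alg O (ppow p e)) M := Module.Free.of_basis bD
    obtain ⟨z, hz⟩ := ((Module.End.isUnit_iff _).1 ((LinearMap.isUnit_iff_isUnit_det B).2 hBu)).2 x
    refine ⟨z, ?_⟩
    rw [← hz]
    exact (LinearMap.congr_fun hB z).symm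
  -- the basis for the new action
  let ψ : (Fin D → Alg O (ppow p e)) →ₗ[O] M :=
    { toFun := fun v => ∑ j, ρ (γ (v j)) (bD j)
      map_add' := fun v w => by simp [Finset.sum_add_distrib]
      map_smul' := fun c v => by simp [Finset.smul_sum] }
  have hψsmul : ∀ (c : Alg O (ppow p e)) v, ψ (c • v) = ρ (γ c) (ψ v) := fun c v => by
    show ∑ j, ρ (γ (c * v j)) (bD j) = ρ (γ c) (∑ j, ρ (γ (v j)) (bD j))
    rw [map_sum]
    exact Finset.sum_congr rfl fun j _ => by rw [map_mul, hρ]
  have hψ : Function.Surjective ψ := by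
    have hscal : ∀ (c : O) x, ρ (γ (algebraMap O (Alg O (ppow p e)) c)) x = c • x := fun c x => by
      rw [γ.commutes, ρ.commutes]; rfl
    have hgen : ∀ x : M, ∃ (c : Fin D → O) (z : Fin r → M),
        x = (∑ j, c j • bD j) + ∑ i, (ρ (a i) (z i) - z i) := by
      intro x
      have hex : ∀ c ∈ augIdeal O (ppow p e), ∀ x : M, ∃ z : Fin r → M,
          c • x = ∑ i, (delta O (N := (ppow p e)) i - 1 : Alg O (ppow p e)) • z i := by
        intro c hc x
        obtain ⟨l, hl⟩ := (Ideal.mem_span_range_iff_exists_fun).1 hc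
        exact ⟨fun i => l i • x, by
          rw [← hl, Finset.sum_smul]
          exact Finset.sum_congr rfl fun i _ => by rw [smul_smul, mul_comm]⟩
      choose z hz using fun j => hex _ (sub_aug_mem (bD.repr x j)) (bD j)
      choose y hy using fun i => key i (∑ j, z j i)
      refine ⟨fun j => aug O (ppow p e) (bD.repr x j), y, ?_⟩
      conv_lhs => rw [← bD.sum_repr x]
      rw [← Finset.sum_congr rfl fun i _ => hy i]
      simp only [Finset.smul_sum]
      rw [Finset.sum_comm (γ := Fin r), ← Finset.sum_add_distrib]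
      refine Finset.sum_congr rfl fun j _ => ?_
      rw [← hz j, sub_smul, algebraMap_smul, add_sub_cancel]
    intro x
    let instNew : Module (Alg O (ppow p e)) M := Module.compHom M
      ({ toFun := fun c => (ρ (γ c)).restrictScalars O
         map_one' := by ext; simp
         map_mul' := fun c d => by ext; simp
         map_zero' := by ext; simp
         map_add' := fun c d => by ext; simp } : Alg O (ppow p e) →+* Module.End O M)
    have hsm : ∀ (c : Alg O (ppow p e)) (y : M), c • y = ρ (γ c) y := fun _ _ => rfl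
    have : IsScalarTower O (Alg O (ppow p e)) M := IsScalarTower.of_algebraMap_smul fun c y => by
      rw [hsm, hscal]
    have : Module.Finite (Alg O (ppow p e)) M := Module.Finite.of_restrictScalars_finite O _ _
    have htop := span_eq_top_of_sup_smul (C := Alg O (ppow p e)) (fun j => bD j) (maximalIdeal _) le_rfl
      fun y => by
        obtain ⟨c, z, hy⟩ := hgen y
        refine ⟨∑ j, algebraMap O (Alg O (ppow p e)) (c j) • bD j,
          Submodule.sum_mem _ fun j _ => Submodule.smul_mem _ _ (Submodule.subset_span ⟨j, rfl⟩), ?_⟩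
        have e1 : ∑ j, algebraMap O (Alg O (ppow p e)) (c j) • bD j = ∑ j, c j • bD j :=
          Finset.sum_congr rfl fun j _ => by rw [hsm, hscal]
        rw [e1, hy, add_sub_cancel_left]
        refine Submodule.sum_mem _ fun i _ => ?_
        have e2 : ρ (a i) (z i) - z i = (delta O (N := (ppow p e)) i - 1 : Alg O (ppow p e)) • z i := by
          rw [hsm, map_sub, map_one, hγ, map_sub, map_one]; rfl
        rw [e2]
        refine Submodule.smul_mem_smul ?_ trivial
        rw [mem_maximalIdeal, mem_nonunits_iff]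
        intro hu
        have := hu.map (aug O (ppow p e))
        simp [aug, delta, MonoidAlgebra.lift_single] at this
    obtain ⟨v, hv⟩ := (Submodule.mem_span_range_iff_exists_fun _).1
      (htop.ge (Submodule.mem_top (x := x)))
    exact ⟨v, hv⟩
  have hψi : Function.Injective ψ := by
    let eqv : M ≃ₗ[O] (Fin D → Alg O (ppow p e)) := bD.equivFun.restrictScalars O
    have h := OrzechProperty.injective_of_surjective_endomorphism (eqv.toLinearMap ∘ₗ ψ)
      (eqv.surjective.comp hψ)
    exact Function.Injective.of_comp (f := eqv) h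
  let Ψ : (Fin D → Alg O (ppow p e)) ≃ₗ[O] M := LinearEquiv.ofBijective ψ ⟨hψi, hψ⟩
  -- transport of the action
  let L : R → Module.End (Alg O (ppow p e)) (Fin D → Alg O (ppow p e)) := fun f =>
    { toFun := fun v => Ψ.symm (ρ f (Ψ v))
      map_add' := fun v w => by simp
      map_smul' := fun c v => by
        apply Ψ.injective
        rw [LinearEquiv.apply_symm_apply, RingHom.id_apply]
        show ρ f (ψ (c • v)) = ψ (c • Ψ.symm (ρ f (ψ v)))
        rw [hψsmul, hψsmul, show ψ (Ψ.symm (ρ f (ψ v))) = ρ f (ψ v) from Ψ.apply_symm_apply _,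
          ← hρ, mul_comm, hρ] }
  have hL : ∀ f v, Ψ (L f v) = ρ f (Ψ v) := fun f v => Ψ.apply_symm_apply _
  let Lh : R →ₐ[O] Module.End (Alg O (ppow p e)) (Fin D → Alg O (ppow p e)) :=
    { toFun := L
      map_one' := LinearMap.ext fun v => Ψ.injective (by rw [hL]; simp)
      map_mul' := fun f g => LinearMap.ext fun v => Ψ.injective (by
        rw [hL, Module.End.mul_apply, hL, hL, hρ])
      map_zero' := LinearMap.ext fun v => Ψ.injective (by rw [hL]; simp)
      map_add' := fun f g => LinearMap.ext fun v => Ψ.injective (by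
        rw [hL, LinearMap.add_apply, map_add Ψ, hL, hL, map_add, LinearMap.add_apply])
      commutes' := fun c => LinearMap.ext fun v => Ψ.injective (by
        rw [hL, ρ.commutes]; exact (map_smul Ψ c v).symm) }
  let T : Module.End (Alg O (ppow p e)) (Fin D → Alg O (ppow p e)) ≃ₐ[Alg O (ppow p e)] Matrix (Fin D) (Fin D) (Alg O (ppow p e)) :=
    LinearMap.toMatrixAlgEquiv'
  refine ⟨(T.toAlgHom.restrictScalars O).comp Lh, Ψ, fun f v => ?_, fun j => ?_, fun i => ?_,
    fun f hf => ?_, fun c g hg => ?_⟩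
  · rw [← hL f v]
    refine congrArg Ψ ?_
    show (LinearMap.toMatrix' (L f)).mulVec v = L f v
    exact LinearMap.congr_fun (Matrix.toLin'_toMatrix' (L f)) v
  · show ∑ k, ρ (γ ((Pi.single j (1 : Alg O (ppow p e)) : Fin D → _) k)) (bD k) = bD j
    rw [Finset.sum_eq_single j (fun k _ hk => by simp [hk]) (by simp)]
    simp
  · have : L (a i) = algebraMap (Alg O (ppow p e)) _ (delta O (N := (ppow p e)) i) := LinearMap.ext fun v => Ψ.injective (by
      rw [hL, Module.algebraMap_end_apply]
      show _ = ψ (delta O (N := (ppow p e)) i • v)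
      rw [hψsmul, hγ]; rfl)
    show T (L (a i)) = _
    rw [this, AlgEquiv.commutes]
    rfl
  · show T (L f) = 0
    rw [show L f = 0 from LinearMap.ext fun v => Ψ.injective (by rw [hL, hf]; simp), map_zero]
  · choose y hy using fun k => hg (Ψ (Pi.single k 1))
    refine ⟨Matrix.of fun j k => Ψ.symm (y k) j, Matrix.ext fun j k => ?_⟩
    show T (L g) j k = _
    rw [LinearMap.toMatrixAlgEquiv'_apply, Matrix.smul_apply, Matrix.of_apply, ← Pi.smul_apply,
      ← map_smul, ← hy k]
    rfl

/-- The diamond trick: a basis in which `R` acts linearly over `Λ` with `a i` acting as `δ i`. -/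
theorem exists_matrix_action {D : ℕ} (bD : Basis (Fin D) (Alg O (ppow p e)) M)
    (hpO : (p : O) ∈ maximalIdeal O)
    (ρ : R →ₐ[O] Module.End (Alg O (ppow p e)) M) (a : Fin r → R) (ha : ∀ i, a i ^ p ^ e i = 1)
    {ζ : O} (hζ : IsPrimitiveRoot ζ p) (χ : Fin r → (Alg O (ppow p e) →ₐ[O] O))
    (hχ : ∀ i, χ i (delta O (N := (ppow p e)) i) = ζ)
    (hold : ∀ i (x : M), ∃ y : M, ρ (a i) x - x = (delta O (N := (ppow p e)) i - 1 : Alg O (ppow p e)) • y)
    (hnew : ∀ i (x : M), ρ (a i) x - x ∈ RingHom.ker (χ i) • (⊤ : Submodule (Alg O (ppow p e)) M) →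
      x ∈ RingHom.ker (χ i) • (⊤ : Submodule (Alg O (ppow p e)) M)) :
    ∃ (ρ' : R →ₐ[O] Matrix (Fin D) (Fin D) (Alg O (ppow p e))),
      (∀ i, ρ' (a i) = Matrix.scalar (Fin D) (delta O (N := (ppow p e)) i)) ∧
      (∀ f, ρ f = 0 → ρ' f = 0) ∧
      ∀ (c : O) (g : R), (∀ x, ∃ y : M, ρ g x = c • y) → ∃ B, ρ' g = c • B := by
  obtain ⟨ρ', -, -, -, h⟩ := exists_matrix_action_equiv bD hpO ρ a ha hζ χ hχ hold hnew
  exact ⟨ρ', h⟩

end Trick

end Fermat.Agent.RT.Diamond

end
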