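import Fermat.Agent.RT.Assembly.Models.Build
import Fermat.Agent.RT.Assembly.Models.Congr

/-!
# The Hecke models of the levels (PATCH parts 1 and 6)

Modulo `ϖ` the two twists agree, so a basis of the part for `χ` reduces to the reduction of a
basis of the part for the trivial character; in these bases the matrices agree modulo `ϖ`.
-/

set_option autoImplicit false
set_option linter.style.haveILetI false

noncomputable section

open IsLocalRing

namespace Fermat.Agent.RT.Assembly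

variable {O : Type} [CommRing O] [IsDomain O] [IsDiscreteValuationRing O]
  [IsAdicComplete (maximalIdeal O) O] [Finite (ResidueField O)] [CharZero O]
  {p : ℕ} [Fact p.Prime]

namespace Models

open TW MvPolynomial

variable {B : Base O p} {r n : ℕ} (Lv : Level B r n) (ϖ : O)

/-- The ideal of `ϖ` in the group ring. -/
abbrev unifIdeal : Ideal Lv.Λ := Ideal.span {algebraMap O Lv.Λ ϖ}

theorem unifIdeal_le (hϖ : ϖ ∈ maximalIdeal O) : unifIdeal Lv ϖ ≤ RingHom.ker Lv.resΛ := by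
  rw [Ideal.span_le, Set.singleton_subset_iff]
  exact (resΛ_algebraMap Lv ϖ).trans ((residue_eq_zero_iff ϖ).2 hϖ)

theorem θ_mod_eq {χ' : MulChar (ZMod B.N₀) O} (hχ' : ∀ u : (ZMod B.N₀)ˣ, χ' u ^ p = 1)
    (hϖ : Irreducible ϖ) :
    (Lv.θ χ').ringHomComp (Ideal.Quotient.mk (unifIdeal Lv ϖ)) =
      (Lv.θ 1).ringHomComp (Ideal.Quotient.mk (unifIdeal Lv ϖ)) := by
  ext u
  rw [MulChar.ringHomComp_apply, MulChar.ringHomComp_apply, Level.θ, Level.θ, tautTwist_apply,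
    tautTwist_apply, map_mul, map_mul]
  congr 1
  rw [Ideal.Quotient.eq, ← map_sub, MulChar.one_apply (Units.isUnit _), Ideal.mem_span_singleton]
  refine map_dvd (algebraMap O Lv.Λ) (Ideal.mem_span_singleton.1 ?_)
  rw [← hϖ.maximalIdeal_eq, ← residue_eq_zero_iff, map_sub, map_one,
    residue_twist_eq_one B hχ', sub_self]

/-- The twists agree modulo `ϖ`, in the form taken by `red`. -/
theorem neben_mod_eq {χ' : MulChar (ZMod B.N₀) O} (hχ' : ∀ u : (ZMod B.N₀)ˣ, χ' u ^ p = 1)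
    (hϖ : Irreducible ϖ) (a : ℤ) (ha : IsUnit (a : ZMod Lv.N)) :
    Ideal.Quotient.mk (unifIdeal Lv ϖ) (neben (Lv.θ χ') (a : ZMod Lv.N)) =
      neben ((Lv.θ 1).ringHomComp (Ideal.Quotient.mk (unifIdeal Lv ϖ))) (a : ZMod Lv.N) := by
  rw [map_neben _ _ a ha, θ_mod_eq Lv ϖ hχ' hϖ]

/-- The reduction of the residual map. -/
theorem exists_idem_mod (hϖ : Irreducible ϖ) (Φ₀ : MulChar (ZMod Lv.N) (Lv.Λ ⧸ unifIdeal Lv ϖ)) :
    ∃ (_ : IsLocalRing (Lv.Λ ⧸ unifIdeal Lv ϖ))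
      (m' : Ideal (HeckePoly (Lv.Λ ⧸ unifIdeal Lv ϖ)))
      (ef : Module.End (Lv.Λ ⧸ unifIdeal Lv ϖ) (heckeH1 Φ₀ Lv.L Lv.N_dvd_L)),
      IsLocalIdem (heckeAct Φ₀ Lv.N_dvd_L) m' ef ∧
      m'.comap (MvPolynomial.map (Ideal.Quotient.mk (unifIdeal Lv ϖ))) = mLv Lv := by
  have hϖm : ϖ ∈ maximalIdeal O := by
    rw [hϖ.maximalIdeal_eq]; exact Ideal.mem_span_singleton_self ϖ
  have hle := unifIdeal_le Lv ϖ hϖm
  let f := Ideal.Quotient.mk (unifIdeal Lv ϖ)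
  haveI : Nontrivial (Lv.Λ ⧸ unifIdeal Lv ϖ) :=
    Ideal.Quotient.nontrivial_iff.2 fun h => (RingHom.ker_ne_top Lv.resΛ) (top_le_iff.1 (h ▸ hle))
  haveI hloc : IsLocalRing (Lv.Λ ⧸ unifIdeal Lv ϖ) :=
    IsLocalRing.of_surjective' f Ideal.Quotient.mk_surjective
  haveI : IsLocalHom f := IsLocalHom.of_surjective f Ideal.Quotient.mk_surjective
  haveI : IsLocalHom (algebraMap O (Lv.Λ ⧸ unifIdeal Lv ϖ)) :=
    ⟨fun o ho => isUnit_of_map_unit (algebraMap O Lv.Λ) o (isUnit_of_map_unit f _ ho)⟩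
  haveI : Module.Finite O (Lv.Λ ⧸ unifIdeal Lv ϖ) :=
    Module.Finite.of_surjective (Ideal.Quotient.mkₐ O (unifIdeal Lv ϖ)).toLinearMap
      Ideal.Quotient.mk_surjective
  haveI : IsAdicComplete (maximalIdeal (Lv.Λ ⧸ unifIdeal Lv ϖ)) (Lv.Λ ⧸ unifIdeal Lv ϖ) :=
    IsLocalRing.isAdicComplete_of_module_finite (𝒪 := O)
  let resf : Lv.Λ ⧸ unifIdeal Lv ϖ →+* ResidueField O :=
    Ideal.Quotient.lift _ Lv.resΛ fun x hx => hle hx
  have hresf : Function.Surjective resf := fun x => by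
    obtain ⟨c, rfl⟩ := resΛ_surjective Lv x
    exact ⟨f c, rfl⟩
  haveI := finite_heckeH1 (Φ := Φ₀) Lv.N_dvd_L ((coverHyp_level Lv).map f)
  haveI := residualIdeal_isMaximal resf hresf (aLv Lv)
  obtain ⟨ef, hef⟩ := exists_isLocalIdem (heckeAct Φ₀ Lv.N_dvd_L) (residualIdeal resf (aLv Lv))
  exact ⟨hloc, _, ef, hef, residualIdeal_comap f resf (aLv Lv)⟩

/-- Bases of the two parts in which the matrices of the operators agree modulo `ϖ`. -/
theorem exists_congr_basis {χ' : MulChar (ZMod B.N₀) O}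
    (hχ' : ∀ u : (ZMod B.N₀)ˣ, χ' u ^ p = 1) (hϖ : Irreducible ϖ)
    (b : Module.Basis (Fin (baseRank B)) Lv.Λ (LinearMap.range (eLv Lv χ'))) :
    ∃ b₁ : Module.Basis (Fin (baseRank B)) Lv.Λ (LinearMap.range (eLv Lv 1)), ∀ ℓ : Nat.Primes,
      ∃ E : Matrix (Fin (baseRank B)) (Fin (baseRank B)) Lv.Λ,
        modelOp Lv b ℓ = modelOp Lv b₁ ℓ + ϖ • E := by
  obtain ⟨_, m', ef, hef, hm⟩ := exists_idem_mod Lv ϖ hϖ
    (neben ((Lv.θ 1).ringHomComp (Ideal.Quotient.mk (unifIdeal Lv ϖ))))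
  obtain ⟨b₁, hb⟩ := exists_basis_red_eq (h₀ := Lv.N_dvd_L) (neben_mod_eq Lv ϖ hχ' hϖ)
    (map_neben (Lv.θ 1) _) (coverHyp_level Lv) Ideal.Quotient.mk_surjective hm
    (eLv_spec Lv χ') (eLv_spec Lv 1) hef b (partBasis Lv (one_pow_twist B))
  refine ⟨b₁, fun ℓ => ?_⟩
  have hP : MvPolynomial.map (Ideal.Quotient.mk (unifIdeal Lv ϖ)) (twPoly (Lv.θ χ') (X ℓ)) =
      MvPolynomial.map (Ideal.Quotient.mk (unifIdeal Lv ϖ)) (twPoly (Lv.θ 1) (X ℓ)) := by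
    rw [map_twPoly, map_twPoly, θ_mod_eq Lv ϖ hχ' hϖ]
  have key : ∀ i j, modelOp Lv b ℓ i j - modelOp Lv b₁ ℓ i j ∈ unifIdeal Lv ϖ := fun i j =>
    Ideal.Quotient.eq.1 (map_matHom_eq_of_red_eq (neben_mod_eq Lv ϖ hχ' hϖ)
      (map_neben (Lv.θ 1) _) (eLv_spec Lv χ') (eLv_spec Lv 1) b b₁ hb
      (linearIndependent_red (neben_mod_eq Lv ϖ hχ' hϖ) (coverHyp_level Lv) (eLv_spec Lv χ')
        (hEis_level Lv χ') b) hP i j)
  choose E hE using fun i j => Ideal.mem_span_singleton'.1 (key i j)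
  refine ⟨Matrix.of E, Matrix.ext fun i j => ?_⟩
  rw [Matrix.add_apply, Matrix.smul_apply, Matrix.of_apply, Algebra.smul_def, mul_comm, hE,
    add_sub_cancel]

end Models

/-- Models of one rank at all levels, for the twist and for the trivial character, agreeing
modulo `ϖ`. -/
theorem exists_models (B : Base O p) (ϖ : O) (hϖ : Irreducible ϖ) :
    ∃ D : ℕ, 0 < D ∧ ∀ (r n : ℕ) (Lv : Level B r n),
      ∃ (m : HeckeModel Lv B.χ D) (m₁ : HeckeModel Lv 1 D),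
        ∀ ℓ : Nat.Primes, (ℓ : ℕ) ∉ Lv.S' →
          ∃ E : Matrix (Fin D) (Fin D) Lv.Λ, m.op ℓ = m₁.op ℓ + ϖ • E := by
  refine ⟨Models.baseRank B, Models.baseRank_pos B, fun r n Lv => ?_⟩
  let b := Models.partBasis Lv B.χ_pow
  obtain ⟨b₁, hb⟩ := Models.exists_congr_basis Lv ϖ B.χ_pow hϖ b
  exact ⟨Models.mkModel Lv b B.χ_pow, Models.mkModel Lv b₁ (Models.one_pow_twist B),
    fun ℓ _ => hb ℓ⟩

end Fermat.Agent.RT.Assembly

end
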