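import Fermat.Agent.RT.Assembly.Final
import Fermat.Agent.RT.Assembly.LevelBuild
import Fermat.Agent.RT.Assembly.LocalBound
import Fermat.Agent.RT.Assembly.Models
import Fermat.Agent.RT.Global.AdjointGW

/-!
# No minimal level has a twisted place (PATCH part 6)

`false_of_base`: the models and the universal rings at all depths give inputs to the patching
argument at a twisted place, which is impossible.
-/

set_option autoImplicit false
set_option linter.style.haveILetI false

noncomputable section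

open IsLocalRing

namespace Fermat.Agent.RT.Assembly

open Deformation (matOf)
open LocalParam

variable {O : Type} [CommRing O] [IsDomain O] [IsDiscreteValuationRing O]
  [IsAdicComplete (maximalIdeal O) O] [Finite (ResidueField O)] [CharZero O]
  {p : ℕ} [Fact p.Prime]

/-- A root of unity of `p`-power order fixed by the `n`-th power has order at most `p ^ m`. -/
theorem pow_eq_one_of_fixed {V : Type} [CommRing V] [IsDomain V] {q m : ℕ}
    (hm : ¬ p ^ (m + 1) ∣ q - 1) (hq : 1 ≤ q) {z : V} (hzq : z ^ q = z)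
    (hz : ∃ k : ℕ, z ^ p ^ k = 1) : z ^ p ^ m = 1 := by
  obtain ⟨k, hk⟩ := hz
  obtain ⟨j, -, hj⟩ := (Nat.dvd_prime_pow (Fact.out : p.Prime)).1 (orderOf_dvd_of_pow_eq_one hk)
  have hz0 : z ≠ 0 := fun h => by
    simp [h, zero_pow (pow_ne_zero k (Fact.out : p.Prime).ne_zero)] at hk
  have hq1 : z ^ (q - 1) = 1 := mul_right_cancel₀ hz0 (by
    rw [← pow_succ, Nat.sub_add_cancel hq, hzq, one_mul])
  have hd := orderOf_dvd_of_pow_eq_one hq1
  rw [hj] at hd
  have hjm : j ≤ m := by
    by_contra hlt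
    exact hm ((pow_dvd_pow p (Nat.lt_of_not_le hlt)).trans hd)
  exact orderOf_dvd_iff_pow_eq_one.1 (hj ▸ pow_dvd_pow p hjm)

/-- The residual representation is ramified at most at `M₀` and `p`. -/
theorem adjointGW_base (B : Base O p)
    (hbar : levelCond B ∅ (GaloisRepAdic.ofResidualGaloisRep B.ρbar))
    {P₀ : ValuationSubring (AlgebraicClosure ℚ)} (hP₀ : P₀.LiesOverPrime p) :
    AdjointGW p (matOf B.ρbar.ρ B.bbar) (insert p B.M₀.primeFactors) P₀ := by
  have hp : p.Prime := Fact.out
  haveI : CharP (ResidueField O) p := (CharP.charP_iff_prime_eq_zero hp).2 (by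
    rw [← map_natCast (residue O), residue_eq_zero_iff]; exact B.hpO)
  refine adjointGW p B.hp2 B.ρbar B.absIrr B.det B.bbar _ (fun q hq => ?_) (fun q hq hqp hqS => ?_)
    hP₀
  · rcases Finset.mem_insert.1 hq with rfl | h
    · exact hp
    · exact Nat.prime_of_mem_primeFactors h
  · have hM : ¬ q ∣ B.M₀ := fun h => hqS (Finset.mem_insert_of_mem
      (hq.mem_primeFactors h fun h0 => B.squarefree.ne_zero (by rw [h0, zero_mul])))
    exact fun A hA τ hτ => ρbar_inertia hbar hq hqp hM hA hτ

/-- **No minimal level has a twisted place.** -/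
theorem false_of_base (inputs : LocalInputs p) (hso : StrictOrdinaryOfNewform p) (B : Base O p)
    {m s : ℕ} (hm1 : 1 ≤ m) {ζ : O} (hζ : IsPrimitiveRoot ζ (p ^ m)) (F : Frames B m s)
    (j₀ : Fin s) (hj₀ : (F.FP.setup.kind j₀).isTwisted = true)
    (hbar : levelCond B ∅ (GaloisRepAdic.ofResidualGaloisRep B.ρbar))
    (hm : ∀ j, (F.FP.setup.kind j).isTwisted = true → ¬ p ^ (m + 1) ∣ F.FP.setup.n j - 1) :
    False := by
  have hs : 0 < s := j₀.pos
  obtain ⟨ϖ, hϖ⟩ := IsDiscreteValuationRing.exists_irreducible O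
  obtain ⟨D, hD, hmod⟩ := exists_models B ϖ hϖ
  obtain ⟨r, hr⟩ := exists_levelRings B hs F (padicPlace p) padicPlace_liesOverPrime hbar
    (adjointGW_base B hbar padicPlace_liesOverPrime) (localBoundAtP_levelCond B)
  refine false_of_levelInputs B.hp2 B.hpO hs F.FP j₀ hj₀ ϖ
    (by rw [hϖ.maximalIdeal_eq]; exact Ideal.mem_span_singleton_self ϖ)
    (fun V _ _ j ht z hz hk => pow_eq_one_of_fixed (hm j ht) (F.FP.setup.twisted j ht).2.1 hz hk)
    (r := r) hD fun n => ?_
  obtain ⟨Lv, Dd, b, hres, Φ, hΦs, hΦ⟩ := hr n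
  obtain ⟨mT, mU, hop⟩ := hmod r n Lv
  exact nonempty_levelInput F j₀ hbar inputs hso hm hζ hm1 Lv hD ϖ mT mU hop Dd b hres Φ hΦs hΦ

end Fermat.Agent.RT.Assembly

end
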