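import Fermat.Agent.Lifting.Minimal.NoTW
import Fermat.Agent.RT.Assembly.Contradiction

/-!
# The patching contradiction in the form used at minimal levels
-/

set_option autoImplicit false

noncomputable section

open IsLocalRing

namespace Fermat.Agent.RT.Assembly

/-- The patching contradiction. -/
theorem falseOfBase (p : ℕ) [Fact p.Prime] : Lifting.Minimal.FalseOfBase p := by
  intro O _ _ _ _ _ _ B m s F j₀ hm1 hζ hm hj₀ hbar _ inputs hso
  obtain ⟨ζ, hζ⟩ := hζ
  exact false_of_base inputs hso B hm1 hζ F j₀ hj₀ hbar hm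

/-- **No residually unramified `q ≡ 1 (mod p)` in a minimal level**, from the externals. -/
theorem noMinimalTWLevel_of_inputs (hS29 : RT.EigenformResidualRep)
    (h35 : BadPrime.NewformMultRep)
    (hin : ∀ (p : ℕ) [Fact p.Prime], p ≠ 2 → LocalInputs p)
    (hso : ∀ (p : ℕ) [Fact p.Prime], p ≠ 2 → StrictOrdinaryOfNewform p) :
    Lifting.Minimal.NoMinimalTWLevel :=
  Lifting.Minimal.noMinimalTWLevel hS29 h35 (fun p _ _ => falseOfBase p) hin hso

end Fermat.Agent.RT.Assembly

end
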