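import Fermat.Agent.Deformation.Tower
import Fermat.Agent.RT.Assembly.Diamond
import Fermat.Agent.RT.Patch.Main

/-!
# A level of the patching argument from a diamond action

An action of `R` on `Λ^D` in which `a i` is the `i`-th diamond operator gives, after adding
framing variables and reducing modulo `𝔪ⁿ`, an action of `P` as required at level `n`.
-/

set_option autoImplicit false

noncomputable section

open IsLocalRing

namespace Fermat.Agent.RT.Assembly

open Diamond Patch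

theorem one_add_pow_prime_pow_sub_one_mem {A : Type*} [CommRing A] {I : Ideal A} {p : ℕ}
    (hp : (p : A) ∈ I) {x : A} (hx : x ∈ I) (k : ℕ) : (1 + x) ^ p ^ k - 1 ∈ I ^ (k + 1) := by
  induction k with
  | zero => simpa using hx
  | succ k ih =>
    set y := (1 + x) ^ p ^ k
    have hy : y - 1 ∈ I := Ideal.pow_le_self (Nat.succ_ne_zero k) ih
    have hsum : ∑ i ∈ Finset.range p, y ^ i ∈ I := by
      rw [← Ideal.Quotient.eq_zero_iff_mem, map_sum]
      have h1 : Ideal.Quotient.mk I y = 1 := by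
        rw [← map_one (Ideal.Quotient.mk I), Ideal.Quotient.eq]; exact hy
      simp only [map_pow, h1, one_pow, Finset.sum_const, Finset.card_range, nsmul_eq_mul, mul_one]
      rw [← map_natCast (Ideal.Quotient.mk I), Ideal.Quotient.eq_zero_iff_mem]
      exact hp
    rw [pow_succ (n := k) p, pow_mul, ← geom_sum_mul, pow_succ' I (k + 1)]
    exact Ideal.mul_mem_mul hsum ih

variable {O : Type} [CommRing O] [IsLocalRing O] {d r p : ℕ} [Fact p.Prime]
  {P : Type} [CommRing P] [Algebra O P]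

local notation "𝕊" => MvPowerSeries (Fin d) O

/-- The level from a diamond action. -/
theorem exists_isLevel (hpO : (p : O) ∈ maximalIdeal O) {ι : Type} (ϖ : O) (K : ι → Ideal P)
    (g₀ : P) {R : Type} [CommRing R] [Algebra O R] {σ : Type} [Finite σ]
    (eqv : Fin d ≃ Fin r ⊕ σ) (Φ : P →ₐ[O] MvPowerSeries σ R) (hΦ : Function.Surjective Φ)
    (n : ℕ) {e : Fin r → ℕ} (he : ∀ i, n ≤ e i) {D : ℕ}
    (ρ' : R →ₐ[O] Matrix (Fin D) (Fin D) (Alg O (ppow p e))) (a : Fin r → R)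
    (ha : ∀ i, ρ' (a i) = Matrix.scalar (Fin D) (delta O (N := ppow p e) i))
    (hkill : ∀ f ∈ ⨅ j, K j, ∀ m, ρ' (MvPowerSeries.coeff m (Φ f)) = 0)
    (hdiv : ∀ m, ∃ B, ρ' (MvPowerSeries.coeff m (Φ g₀)) = ϖ • B) :
    ∃ ρ, IsLevel (d := d) ϖ K g₀ n D ρ := by
  classical
  let Y : Fin d → Lvl 𝕊 n := fun j => Ideal.Quotient.mk _ (MvPowerSeries.X j)
  have hX : ∀ j, (MvPowerSeries.X j : 𝕊) ∈ maximalIdeal 𝕊 := fun j => by
    rw [mem_maximalIdeal, mem_nonunits_iff, MvPowerSeries.isUnit_iff_constantCoeff,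
      MvPowerSeries.constantCoeff_X]
    exact not_isUnit_zero
  have hp𝕊 : (p : 𝕊) ∈ maximalIdeal 𝕊 := by
    rw [mem_maximalIdeal, mem_nonunits_iff, MvPowerSeries.isUnit_iff_constantCoeff, map_natCast]
    exact hpO
  let u : Fin r → Lvl 𝕊 n := fun i => 1 + Y (eqv.symm (Sum.inl i))
  have hu : ∀ i, u i ^ p ^ e i = 1 := fun i => by
    show (1 + Ideal.Quotient.mk _ (MvPowerSeries.X _)) ^ p ^ e i = 1
    rw [← map_one (Ideal.Quotient.mk (maximalIdeal 𝕊 ^ n)), ← map_add, ← map_pow,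
      Ideal.Quotient.eq]
    exact Ideal.pow_le_pow_right ((he i).trans (Nat.le_succ _))
      (one_add_pow_prime_pow_sub_one_mem hp𝕊 (hX _) (e i))
  let κ : Alg O (ppow p e) →ₐ[O] Lvl 𝕊 n :=
    MonoidAlgebra.lift O (Lvl 𝕊 n) (Grp (ppow p e)) (homOf u hu)
  let ρ'' : R →ₐ[O] Matrix (Fin D) (Fin D) (Lvl 𝕊 n) := κ.mapMatrix.comp ρ'
  let Cs := Algebra.adjoin (Lvl 𝕊 n) (Set.range ρ'')
  let : IsMulCommutative Cs := Algebra.isMulCommutative_adjoin _
    (by rintro _ ⟨x, rfl⟩ _ ⟨y, rfl⟩; exact (Commute.all x y).map ρ'')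
  let _ : CommRing Cs := { (inferInstance : Ring Cs) with mul_comm := IsMulCommutative.is_comm.comm }
  let _ : Algebra R Cs := (ρ''.toRingHom.codRestrict Cs
    fun x => Algebra.subset_adjoin (Set.mem_range_self x)).toAlgebra
  have halg : ∀ x : R, ((algebraMap R Cs x : Cs) : Matrix (Fin D) (Fin D) (Lvl 𝕊 n)) = ρ'' x :=
    fun _ => rfl
  let xs : σ → Cs := fun s => algebraMap (Lvl 𝕊 n) Cs (Y (eqv.symm (Sum.inr s)))
  have hxs : Ideal.span (Set.range xs) ^ n = ⊥ := by
    refine le_bot_iff.1 ?_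
    calc Ideal.span (Set.range xs) ^ n
        ≤ ((maximalIdeal 𝕊).map ((algebraMap (Lvl 𝕊 n) Cs).comp (Ideal.Quotient.mk _))) ^ n := by
          refine Ideal.pow_right_mono (Ideal.span_le.2 ?_) n
          rintro _ ⟨s, rfl⟩
          exact Ideal.mem_map_of_mem _ (hX _)
      _ = ⊥ := by rw [← Ideal.map_pow, ← Ideal.map_map, Ideal.map_quotient_self, Ideal.map_bot]
  let ev := Deformation.evalTrunc (𝒪 := R) xs n hxs
  let ρ : P →+* Matrix (Fin D) (Fin D) (Lvl 𝕊 n) :=
    (Cs.val.toRingHom.comp ev.toRingHom).comp Φ.toRingHom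
  have hsum : ∀ f, ρ f = ∑ m ∈ (MvPowerSeries.truncTotal n (Φ f)).support,
      ρ'' ((MvPowerSeries.truncTotal n (Φ f)).coeff m) *
        ((∏ s ∈ m.support, xs s ^ m s : Cs) : Matrix (Fin D) (Fin D) (Lvl 𝕊 n)) := fun f => by
    show ((ev (Φ f) : Cs) : Matrix (Fin D) (Fin D) (Lvl 𝕊 n)) = _
    rw [Deformation.evalTrunc_apply, MvPolynomial.aeval_def, MvPolynomial.eval₂_eq,
      AddSubmonoidClass.coe_finsetSum]
    rfl
  have hcoeff : ∀ (q : MvPowerSeries σ R) m,
      (MvPowerSeries.truncTotal n q).coeff m = MvPowerSeries.coeff m q ∨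
        (MvPowerSeries.truncTotal n q).coeff m = 0 := fun q m => by
    rw [MvPowerSeries.coeff_truncTotal_eq_ite]
    split_ifs with h
    · exact Or.inl rfl
    · exact Or.inr rfl
  have hscalar : ∀ c : O, ρ (algebraMap O P c) =
      Matrix.scalar (Fin D) (Ideal.Quotient.mk _ (MvPowerSeries.C c)) := fun c => by
    show ((ev (Φ (algebraMap O P c)) : Cs) : Matrix (Fin D) (Fin D) (Lvl 𝕊 n)) = _
    rw [Φ.commutes, IsScalarTower.algebraMap_apply O R (MvPowerSeries σ R), AlgHom.commutes,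
      halg, AlgHom.commutes]
    rfl
  refine ⟨ρ, hscalar, fun j => ?_, fun f hf => ?_, ?_⟩
  · obtain ⟨k, rfl⟩ := eqv.symm.surjective j
    rcases k with i | s
    · obtain ⟨g, hg⟩ := hΦ (algebraMap R _ (a i - 1))
      refine ⟨g, ?_⟩
      show ((ev (Φ g) : Cs) : Matrix (Fin D) (Fin D) (Lvl 𝕊 n)) = _
      rw [hg, AlgHom.commutes, halg, map_sub, map_one]
      show κ.mapMatrix (ρ' (a i)) - 1 = _
      rw [ha]
      have h1 : κ (delta O (N := ppow p e) i) = u i := by
        simp only [κ, delta, MonoidAlgebra.lift_of]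
        exact homOf_gen u hu i
      ext k l
      rcases eq_or_ne k l with rfl | h
      · simp [h1, u, Y]
      · simp [h]
    · obtain ⟨g, hg⟩ := hΦ (MvPowerSeries.X s)
      refine ⟨g, ?_⟩
      show ((ev (Φ g) : Cs) : Matrix (Fin D) (Fin D) (Lvl 𝕊 n)) = _
      rw [hg, Deformation.evalTrunc_X]
      rfl
  · rw [hsum]
    refine Finset.sum_eq_zero fun m _ => ?_
    rcases hcoeff (Φ f) m with h | h <;> rw [h]
    · rw [show ρ'' (MvPowerSeries.coeff m (Φ f)) = κ.mapMatrix (ρ' _) from rfl, hkill f hf m,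
        map_zero, zero_mul]
    · rw [map_zero, zero_mul]
  · choose B hB using hdiv
    have hex : ∀ m, ∃ B', ρ'' ((MvPowerSeries.truncTotal n (Φ g₀)).coeff m) = ϖ • B' := fun m => by
      rcases hcoeff (Φ g₀) m with h | h <;> rw [h]
      · exact ⟨κ.mapMatrix (B m), by
          show κ.mapMatrix (ρ' _) = _
          rw [hB, map_smul]⟩
      · exact ⟨0, by simp⟩
    choose B' hB' using hex
    refine ⟨∑ m ∈ (MvPowerSeries.truncTotal n (Φ g₀)).support, B' m *
      ((∏ s ∈ m.support, xs s ^ m s : Cs) : Matrix (Fin D) (Fin D) (Lvl 𝕊 n)), ?_⟩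
    rw [hsum, hscalar, Finset.mul_sum]
    refine Finset.sum_congr rfl fun m _ => ?_
    rw [hB', ← mul_assoc, Algebra.smul_def]
    rfl

end Fermat.Agent.RT.Assembly

end
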