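import Fermat.Agent.EichlerShimura.ResidualCharacter
import Fermat.Agent.RT.FreyResidual
import Mathlib.RingTheory.Polynomial.Cyclotomic.Roots
import Mathlib.RingTheory.AdjoinRoot
import Mathlib.FieldTheory.Finite.GaloisField

/-!
# The coefficient ring of the assembly

For a prime `p` and `m`: a complete discrete valuation ring of characteristic zero with finite
residue field of characteristic `p` containing a given finite field, and a primitive `p ^ m`-th root of unity.
-/

set_option autoImplicit false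

noncomputable section

open IsLocalRing Polynomial

namespace Fermat.Agent.RT.Assembly

theorem exists_coeffRing_of_finite (p : ℕ) [Fact p.Prime] (m : ℕ) (k : Type) [Field k] [Finite k]
    [CharP k p] :
    ∃ (O : Type) (_ : CommRing O) (_ : IsDomain O) (_ : IsDiscreteValuationRing O)
      (_ : IsAdicComplete (maximalIdeal O) O) (_ : Finite (ResidueField O)) (_ : CharZero O),
      (p : O) ∈ maximalIdeal O ∧ (∃ ζ : O, IsPrimitiveRoot ζ (p ^ m)) ∧
      Nonempty (k →+* ResidueField O) := by
  classical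
  have hp : p.Prime := Fact.out
  letI := Fintype.ofFinite k
  obtain ⟨f, -, hk⟩ := FiniteField.card k p
  have hf : (f : ℕ) ≠ 0 := f.ne_zero
  set d := p ^ (f : ℕ) - 1 with hd
  have hp21 : 1 < p ^ (f : ℕ) := Nat.one_lt_pow hf hp.one_lt
  have hd0 : 0 < d := by omega
  set n := p ^ m * d with hn
  have hn0 : 0 < n := Nat.mul_pos (pow_pos hp.pos m) hd0
  let Φ : ℤ[X] := cyclotomic n ℤ
  have hΦ : Φ.Monic := cyclotomic.monic n ℤ
  haveI : Module.Finite ℤ (AdjoinRoot Φ) := (AdjoinRoot.powerBasis' hΦ).finite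
  haveI : Module.Free ℤ (AdjoinRoot Φ) := Module.Free.of_basis (AdjoinRoot.powerBasis' hΦ).basis
  let K := AlgebraicClosure (ZMod p)
  haveI : CharP K p := charP_of_injective_algebraMap (algebraMap (ZMod p) K).injective p
  obtain ⟨x₀, hx₀⟩ := IsAlgClosed.exists_root (cyclotomic n K)
    (degree_cyclotomic_pos n K hn0).ne'
  have hroot : eval₂ (Int.castRingHom K) x₀ Φ = 0 := by
    rw [eval₂_eq_eval_map, map_cyclotomic]
    exact hx₀
  let ψ : AdjoinRoot Φ →+* K := AdjoinRoot.lift (Int.castRingHom K) x₀ hroot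
  obtain ⟨O, iC, iD, iV, iA, iF, iZ, hpO, χ, j, -⟩ :=
    EichlerShimura.exists_padic_lift p (AdjoinRoot Φ) K ψ
  haveI : NeZero (n : O) := ⟨Nat.cast_ne_zero.2 hn0.ne'⟩
  set ζn : O := χ (AdjoinRoot.root Φ) with hζn
  have hζ : IsPrimitiveRoot ζn n := by
    rw [← isRoot_cyclotomic_iff, IsRoot.def, ← map_cyclotomic n (Int.castRingHom O),
      eval_map, show Int.castRingHom O = χ.comp (AdjoinRoot.of Φ) from RingHom.ext_int _ _, hζn,
      ← hom_eval₂, AdjoinRoot.eval₂_root, map_zero]
  refine ⟨O, iC, iD, iV, iA, iF, iZ, hpO, ⟨ζn ^ d, hζ.pow hn0 (by rw [hn, Nat.mul_comm])⟩, ?_⟩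
  -- the residue field contains a primitive `d`-th root of unity
  have hp0 : (p : ResidueField O) = 0 := by
    rw [← map_natCast (residue O), residue_eq_zero_iff]
    exact hpO
  haveI : CharP (ResidueField O) p := (CharP.charP_iff_prime_eq_zero hp).2 hp0
  have hdp : ¬ p ∣ d := fun h => by
    have h1 : p ∣ d + 1 := by
      rw [hd, Nat.sub_add_cancel hp21.le]
      exact dvd_pow_self p hf
    exact hp.ne_one (Nat.dvd_one.1 ((Nat.dvd_add_right h).1 h1))
  haveI : NeZero (d : ResidueField O) := ⟨fun h => hdp ((CharP.cast_eq_zero_iff _ p d).1 h)⟩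
  haveI : NeZero (d : O) := ⟨Nat.cast_ne_zero.2 hd0.ne'⟩
  have hζd : IsPrimitiveRoot (ζn ^ p ^ m) d := hζ.pow hn0 hn
  have hres : IsPrimitiveRoot (residue O (ζn ^ p ^ m)) d := by
    rw [← isRoot_cyclotomic_iff] at hζd ⊢
    rw [← map_cyclotomic d (residue O)]
    exact hζd.map
  letI : Algebra (ZMod p) (ResidueField O) := ZMod.algebra _ p
  -- hence the polynomial defining `k` splits
  have hsplit : (X ^ p ^ (f : ℕ) - X : (ResidueField O)[X]).Splits := by
    have h1 : (X ^ p ^ (f : ℕ) - X : (ResidueField O)[X]) = X * (X ^ d - C 1) := by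
      rw [map_one, mul_sub, mul_one, ← pow_succ', Nat.sub_add_cancel hp21.le]
    rw [h1]
    exact Splits.X.mul
      (X_pow_sub_one_splits hres)
  letI : Algebra (ZMod p) k := ZMod.algebra _ p
  haveI : IsSplittingField (ZMod p) k (X ^ p ^ (f : ℕ) - X) :=
    FiniteField.isSplittingField_of_card_eq p _ hk
  exact ⟨(IsSplittingField.lift k (X ^ p ^ (f : ℕ) - X : (ZMod p)[X]) (by
    simpa using hsplit)).toRingHom⟩

theorem exists_coeffRing (p : ℕ) [Fact p.Prime] (m : ℕ) :
    ∃ (O : Type) (_ : CommRing O) (_ : IsDomain O) (_ : IsDiscreteValuationRing O)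
      (_ : IsAdicComplete (maximalIdeal O) O) (_ : Finite (ResidueField O)) (_ : CharZero O),
      (p : O) ∈ maximalIdeal O ∧ (∃ ζ : O, IsPrimitiveRoot ζ (p ^ m)) ∧
      Nonempty (GaloisField p 2 →+* ResidueField O) :=
  exists_coeffRing_of_finite p m (GaloisField p 2)

/-- Over a field containing `𝔽_{p²}` all quadratic polynomials over `ZMod p` split. -/
theorem exists_roots_of_galoisField {p : ℕ} [Fact p.Prime] (hp2 : p ≠ 2) {k : Type} [Field k]
    (e : GaloisField p 2 →+* k) (f : ZMod p →+* k) (t d : ZMod p) :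
    ∃ α β : k, (X ^ 2 - C (f t) * X + C (f d)) = (X - C α) * (X - C β) := by
  haveI : Finite (GaloisField p 2) := inferInstance
  obtain ⟨α, β, h⟩ := exists_roots_of_natCard_sq hp2 (GaloisField.card p 2 two_ne_zero)
    (algebraMap (ZMod p) (GaloisField p 2)) t d
  refine ⟨e α, e β, ?_⟩
  have h' := congrArg (Polynomial.map e) h
  simp only [Polynomial.map_add, Polynomial.map_sub, Polynomial.map_mul, Polynomial.map_pow,
    map_X, map_C] at h'
  have hf : ∀ x, e (algebraMap (ZMod p) (GaloisField p 2) x) = f x :=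
    fun x => RingHom.congr_fun (RingHom.ext_zmod _ f : e.comp (algebraMap _ _) = f) x
  rwa [hf, hf] at h'

end Fermat.Agent.RT.Assembly
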