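import Fermat.Agent.RT.Assembly.Defs
import Fermat.Agent.RT.TW.AddPrimeLevel
import Fermat.Agent.RT.TW.FreeSubgroup
import Fermat.Agent.RT.Systems.TrivialChar
import Fermat.Agent.RT.Systems.Transport
import Fermat.Agent.Hecke.EigenChar
import Mathlib.FieldTheory.Finite.GaloisField
import Mathlib.FieldTheory.IsAlgClosed.AlgebraicClosure

/-!
# Eigenclasses of all the Hecke operators over a finite field

* `HasSystem.mul_prime`: a system occurs at the level times an auxiliary prime;
* `exists_eigenclass_map`: change of the coefficient field of a class;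
* `exists_eigenclass`: a system over a finite field comes from an eigenclass of every operator
  over a finite extension containing `𝔽_{p²}`.
-/

set_option autoImplicit false
set_option linter.style.haveILetI false

noncomputable section

namespace Fermat.Agent.RT.Assembly

open TW Systems CongruenceSubgroup Periods
open scoped MatrixGroups

section LevelRaise

variable {k : Type} [Field k] {L q : ℕ} [NeZero L] {S : Finset ℕ} {a : Nat.Primes → k}

/-- A system occurs at the level times an auxiliary prime. -/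
theorem HasSystem.mul_prime (h : HasSystem L S a) (hq : q.Prime) (hqL : ¬ q ∣ L) (hqS : q ∉ S)
    (ha : a ⟨q, hq⟩ ^ 2 ≠ ((q : k) + 1) ^ 2) : HasSystem (L * q) (insert q S) a := by
  obtain ⟨x, hx0, hx⟩ := h
  obtain ⟨B⟩ := exists_addPrimeBezout hq hqL
  have key : ∀ (i : heckeH1 (1 : MulChar (ZMod 1) k) L (one_dvd L) →ₗ[k]
      heckeH1 (1 : MulChar (ZMod 1) k) (L * q) ((one_dvd L).mul_right q)),
      (∀ (ℓ : Nat.Primes), (ℓ : ℕ) ≠ q → ∀ y,
        heckeOp (1 : MulChar (ZMod 1) k) ((one_dvd L).mul_right q) ℓ (i y) =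
        i (heckeOp (1 : MulChar (ZMod 1) k) (one_dvd L) ℓ y)) → i x ≠ 0 → HasSystem (L * q) (insert q S) a := by
    intro i hi h0
    refine ⟨i x, h0, fun ℓ hℓ => ?_⟩
    rw [Finset.mem_insert, not_or] at hℓ
    exact (hi ℓ hℓ.1 x).trans (by rw [hx ℓ hℓ.2, map_smul])
  by_cases hq1 : (q : k) + 1 = 0
  · refine key (degDiag 1 (one_dvd L) hq hqL).opH1
      (fun ℓ hℓ y => opH1_degDiag_comm (one_dvd L) hq hqL ℓ hℓ y) fun h0 => ?_
    have h1 := degCores_degDiag (one_dvd L) hq hqL B x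
    rw [h0, map_zero, hx ⟨q, hq⟩ hqS] at h1
    refine ha ?_
    rw [(smul_eq_zero.1 h1.symm).resolve_right hx0, hq1]
  · refine key (degRes q 1 (one_dvd L)).opH1
      (fun ℓ hℓ y => opH1_degRes_comm (one_dvd L) hq ℓ hℓ y) fun h0 => ?_
    have h1 := degCores_degRes (one_dvd L) hq hqL B x
    rw [h0, map_zero] at h1
    exact hq1 ((smul_eq_zero.1 h1.symm).resolve_right hx0)

end LevelRaise

/-- A class over a field gives one over an extension, with the same eigenvalues. -/
theorem exists_eigenclass_map {k k' : Type} [Field k] [Field k'] (g : k →+* k') {L : ℕ}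
    {y : heckeH1 (trivChar k) L (one_dvd L)} (hy0 : y ≠ 0) :
    ∃ y' : heckeH1 (trivChar k') L (one_dvd L), y' ≠ 0 ∧ ∀ (ℓ : Nat.Primes) (c : k),
      heckeOp (trivChar k) (one_dvd L) ℓ y = c • y →
        heckeOp (trivChar k') (one_dvd L) ℓ y' = g c • y' := by
  obtain ⟨y', hy'⟩ := homOfClass_surjective (g.toAddMonoidHom.comp (homOfClass (A := k) (R := L) y))
  refine ⟨y', fun h => hy0 (homOfClass_injective (AddMonoidHom.ext fun γ => g.injective ?_)),
    fun ℓ c hc => homOfClass_injective ?_⟩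
  · have h2 := DFunLike.congr_fun hy' γ
    rw [h, map_zero] at h2
    rw [map_zero, AddMonoidHom.zero_apply, map_zero]
    exact h2.symm
  · rw [homOfClass_heckeOp, hy', heckeHom_comp (S := k) ℓ.2, ← homOfClass_heckeOp, hc, map_smul,
      map_smul, hy']
    refine AddMonoidHom.ext fun γ => ?_
    show g (c * homOfClass (A := k) (R := L) y γ) = g c * g (homOfClass (A := k) (R := L) y γ)
    rw [map_mul]

theorem HasSystem.map {k k' : Type} [Field k] [Field k'] (g : k →+* k') {L : ℕ} {S : Finset ℕ}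
    {a : Nat.Primes → k} (h : HasSystem L S a) : HasSystem L S (fun ℓ => g (a ℓ)) := by
  obtain ⟨y, hy0, hy⟩ := h
  obtain ⟨y', h0, h'⟩ := exists_eigenclass_map g hy0
  exact ⟨y', h0, fun ℓ hℓ => h' ℓ _ (hy ℓ hℓ)⟩

theorem finiteDimensional_heckeH1_triv (K : Type) [Field K] (L : ℕ) [NeZero L] :
    FiniteDimensional K (heckeH1 (trivChar K) L (one_dvd L)) := by
  haveI : Group.FG SL(2, ℤ) := TW.groupFG_SL2Z
  obtain ⟨s, hs⟩ := (inferInstance : Group.FG (Gamma0 L)).out
  let f : heckeH1 (trivChar K) L (one_dvd L) →ₗ[K] (s → K) :=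
    { toFun := fun y γ => homOfClass (A := K) (R := L) y (Additive.ofMul (γ : Gamma0 L))
      map_add' := fun _ _ => funext fun _ => by rw [map_add]; rfl
      map_smul' := fun _ _ => funext fun _ => by rw [map_smul]; rfl }
  refine FiniteDimensional.of_injective f ((injective_iff_map_eq_zero f).2 fun y hy => ?_)
  refine homOfClass_injective ?_
  rw [map_zero]
  let H : Subgroup (Gamma0 L) := (AddSubgroup.toSubgroup' (homOfClass (A := K) (R := L) y).ker)
  have hH : (⊤ : Subgroup (Gamma0 L)) ≤ H := by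
    rw [← hs, Subgroup.closure_le]
    exact fun γ hγ => congrFun hy ⟨γ, hγ⟩
  exact AddMonoidHom.ext fun γ => hH (Subgroup.mem_top (Additive.toMul γ))

/-- A system over a finite field comes from an eigenclass of every operator over a finite
extension containing `𝔽_{p²}`. -/
theorem exists_eigenclass (p : ℕ) [Fact p.Prime] {k₀ : Type} [Field k₀] [Finite k₀] [CharP k₀ p]
    {L : ℕ} [NeZero L] {S : Finset ℕ} {a₀ : Nat.Primes → k₀} (h : HasSystem L S a₀) :
    ∃ (k : Type) (_ : Field k) (_ : Finite k) (_ : CharP k p) (f : k₀ →+* k)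
      (a : Nat.Primes → k) (y : heckeH1 (1 : MulChar (ZMod 1) k) L (one_dvd L)),
      y ≠ 0 ∧ (∀ ℓ, heckeOp (1 : MulChar (ZMod 1) k) (one_dvd L) ℓ y = a ℓ • y) ∧
      (∀ ℓ : Nat.Primes, (ℓ : ℕ) ∉ S → a ℓ = f (a₀ ℓ)) ∧
      Nonempty (GaloisField p 2 →+* k) := by
  classical
  letI : Algebra (ZMod p) k₀ := ZMod.algebra k₀ p
  let K := AlgebraicClosure k₀
  haveI : CharP K p := charP_of_injective_algebraMap (algebraMap k₀ K).injective p
  letI : Algebra (ZMod p) K := ZMod.algebra K p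
  haveI := finiteDimensional_heckeH1_triv K L
  obtain ⟨x, hx0, hx⟩ := HasSystem.map (algebraMap k₀ K) h
  let W : Submodule K (heckeH1 (trivChar K) L (one_dvd L)) :=
    ⨅ (ℓ : Nat.Primes) (_ : (ℓ : ℕ) ∉ S),
      LinearMap.ker (heckeOp (trivChar K) (one_dvd L) ℓ - algebraMap k₀ K (a₀ ℓ) • 1)
  have hW : ∀ w, w ∈ W ↔ ∀ ℓ : Nat.Primes, (ℓ : ℕ) ∉ S →
      heckeOp (trivChar K) (one_dvd L) ℓ w = algebraMap k₀ K (a₀ ℓ) • w := fun w => by
    simp [W, sub_eq_zero]
  have hstab : ∀ t, ∀ w ∈ W, (heckeAct (trivChar K) (one_dvd L)).toRingHom t w ∈ W := by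
    intro t w hw
    rw [hW] at hw ⊢
    intro ℓ hℓ
    show heckeOp (trivChar K) (one_dvd L) ℓ (heckeAct (trivChar K) (one_dvd L) t w) =
      _ • heckeAct (trivChar K) (one_dvd L) t w
    rw [← heckeAct_X (Φ := trivChar K) (one_dvd L) ℓ, ← Module.End.mul_apply, ← map_mul, mul_comm,
      map_mul, Module.End.mul_apply, heckeAct_X, hw ℓ hℓ, map_smul]
  obtain ⟨v, hvW, hv0, hv⟩ := Hecke.exists_common_eigenvector
    (heckeAct (trivChar K) (one_dvd L)).toRingHom W
    (fun h0 => hx0 ((Submodule.mem_bot K).1 (h0 ▸ (hW x).2 hx))) hstab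
  have hv' : ∀ ℓ : Nat.Primes, ∃ c : K, heckeOp (trivChar K) (one_dvd L) ℓ v = c • v := fun ℓ => by
    obtain ⟨c, hc⟩ := hv (MvPolynomial.X ℓ)
    refine ⟨c, ?_⟩
    rw [← heckeAct_X (Φ := trivChar K) (one_dvd L) ℓ]
    exact hc
  choose c hc using hv'
  set φ := homOfClass (A := K) (R := L) v with hφ
  have hφ0 : φ ≠ 0 := fun h0 => hv0 (homOfClass_injective (h0.trans (map_zero _).symm))
  obtain ⟨γ₀, hγ₀⟩ : ∃ γ, φ γ ≠ 0 := by
    by_contra! hall
    exact hφ0 (AddMonoidHom.ext hall)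
  haveI : Group.FG SL(2, ℤ) := TW.groupFG_SL2Z
  obtain ⟨s, hs⟩ := (inferInstance : Group.FG (Gamma0 L)).out
  -- the finite field containing the values of `φ / φ γ₀` and `𝔽_{p²}`
  let e : GaloisField p 2 →ₐ[ZMod p] K := IsAlgClosed.lift
  let T : Set K := ((fun γ : Gamma0 L => φ (Additive.ofMul γ) / φ γ₀) '' s) ∪ Set.range e
  haveI : Finite T := ((s.finite_toSet.image _).union (Set.finite_range e)).to_subtype
  let F : IntermediateField k₀ K := IntermediateField.adjoin k₀ T
  haveI : FiniteDimensional k₀ F :=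
    IntermediateField.finiteDimensional_adjoin fun t _ => Algebra.IsIntegral.isIntegral t
  haveI : Finite F := Module.finite_of_finite k₀
  haveI : CharP F p := charP_of_injective_algebraMap (algebraMap k₀ F).injective p
  have hval : ∀ γ, φ γ / φ γ₀ ∈ F := by
    let H : Subgroup (Gamma0 L) :=
      { carrier := {γ | φ (Additive.ofMul γ) / φ γ₀ ∈ F}
        one_mem' := by simp
        mul_mem' := fun {a b} ha hb => by
          simp only [Set.mem_ofPred_eq, ofMul_mul, map_add, add_div] at *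
          exact add_mem ha hb
        inv_mem' := fun {a} ha => by
          simp only [Set.mem_ofPred_eq, ofMul_inv, map_neg, neg_div] at *
          exact neg_mem ha }
    have hH : (⊤ : Subgroup (Gamma0 L)) ≤ H := by
      rw [← hs, Subgroup.closure_le]
      exact fun γ hγ => IntermediateField.subset_adjoin k₀ T (Or.inl ⟨γ, hγ, rfl⟩)
    exact fun γ => hH (Subgroup.mem_top (Additive.toMul γ))
  let ψ : Additive (Gamma0 L) →+ F := AddMonoidHom.mk' (fun γ => ⟨φ γ / φ γ₀, hval γ⟩)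
    fun γ δ => Subtype.ext (show φ (γ + δ) / φ γ₀ = φ γ / φ γ₀ + φ δ / φ γ₀ by
      rw [map_add, add_div])
  obtain ⟨y, hy⟩ := homOfClass_surjective ψ
  have hψ : ∀ γ, (algebraMap F K) (ψ γ) = (φ γ₀)⁻¹ * φ γ := fun γ => div_eq_inv_mul _ _
  -- the eigenvalues lie in the field
  have hT : ∀ ℓ : Nat.Primes, ∀ γ,
      algebraMap F K (heckeHom F F ℓ.2 ψ γ) = c ℓ * algebraMap F K (ψ γ) := by
    intro ℓ γ
    have h1 : (algebraMap F K).toAddMonoidHom.comp ψ = homOfClass (A := K) (R := L) ((φ γ₀)⁻¹ • v) :=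
      AddMonoidHom.ext fun δ => by rw [map_smul]; exact hψ δ
    have h2 := DFunLike.congr_fun (heckeHom_comp (S' := K) (S := F) ℓ.2
      (algebraMap F K).toAddMonoidHom ψ) γ
    rw [h1, ← homOfClass_heckeOp, map_smul, hc, smul_comm, map_smul, ← h1] at h2
    exact h2.symm
  have hcF : ∀ ℓ : Nat.Primes, c ℓ ∈ F := fun ℓ => by
    have h1 := hT ℓ γ₀
    rw [hψ, inv_mul_cancel₀ hγ₀, mul_one] at h1
    rw [← h1]
    exact SetLike.coe_mem _
  refine ⟨F, inferInstance, inferInstance, inferInstance, algebraMap k₀ F,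
    fun ℓ => ⟨c ℓ, hcF ℓ⟩, y, fun h0 => ?_, fun ℓ => homOfClass_injective ?_, fun ℓ hℓ => ?_,
    ⟨e.toRingHom.codRestrict F fun z => IntermediateField.subset_adjoin k₀ T (Or.inr ⟨z, rfl⟩)⟩⟩
  · have h1 := DFunLike.congr_fun hy γ₀
    erw [h0, map_zero] at h1
    have h2 := congrArg Subtype.val h1.symm
    exact div_ne_zero hγ₀ hγ₀ h2
  · erw [homOfClass_heckeOp, map_smul, hy]
    exact AddMonoidHom.ext fun γ => (algebraMap F K).injective (hT ℓ γ)
  · refine Subtype.ext ?_
    have h1 := (hW v).1 hvW ℓ hℓ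
    rw [hc ℓ] at h1
    exact smul_left_injective K hv0 h1

end Fermat.Agent.RT.Assembly

end
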