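import Fermat.Agent.Deformation.Tower
import Fermat.Agent.RT.Generators
import Mathlib.Algebra.MvPolynomial.Funext
import Mathlib.RingTheory.DiscreteValuationRing.Basic

/-!
# A power series vanishing at all small points is zero
-/

set_option autoImplicit false

noncomputable section

open IsLocalRing

namespace Fermat.Agent.RT.Assembly

variable {V : Type} [CommRing V] [IsDomain V] [IsDiscreteValuationRing V] [CharZero V]
  [IsAdicComplete (maximalIdeal V) V] {σ : Type} [Finite σ]

omit [IsDomain V] [IsDiscreteValuationRing V] [CharZero V] [IsAdicComplete (maximalIdeal V) V] [Finite σ] in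
theorem algHom_coe_eq_aeval (φ : MvPowerSeries σ V →ₐ[V] V) (q : MvPolynomial σ V) :
    φ (q : MvPowerSeries σ V) = MvPolynomial.aeval (fun i => φ (MvPowerSeries.X i)) q := by
  induction q using MvPolynomial.induction_on with
  | C a =>
    rw [MvPolynomial.coe_C, MvPolynomial.aeval_C]
    exact φ.commutes a
  | add p q hp hq => rw [MvPolynomial.coe_add, map_add, map_add, hp, hq]
  | mul_X p i hp =>
    rw [MvPolynomial.coe_mul, MvPolynomial.coe_X, map_mul, map_mul, hp, MvPolynomial.aeval_X]

/-- A power series killed by every evaluation at points of the maximal ideal is zero. -/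
theorem eq_zero_of_forall_eval (f : MvPowerSeries σ V)
    (h : ∀ φ : MvPowerSeries σ V →ₐ[V] V,
      (∀ i, φ (MvPowerSeries.X i) ∈ maximalIdeal V) → φ f = 0) : f = 0 := by
  classical
  by_contra hf
  obtain ⟨m₀, hm₀⟩ : ∃ m, MvPowerSeries.coeff m f ≠ 0 := by
    by_contra hall
    push Not at hall
    exact hf (MvPowerSeries.ext fun m => by rw [hall m, map_zero])
  have hex : ∃ d : ℕ, ∃ m, m.degree = d ∧ MvPowerSeries.coeff m f ≠ 0 := ⟨_, m₀, rfl, hm₀⟩
  set d := Nat.find hex
  obtain ⟨m₁, hm₁, hm₁0⟩ := Nat.find_spec hex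
  set q : MvPolynomial σ V := MvPowerSeries.truncTotal (d + 1) f
  have hq : ∀ m, q.coeff m = if m.degree < d + 1 then MvPowerSeries.coeff m f else 0 := fun m =>
    MvPowerSeries.coeff_truncTotal_eq_ite ..
  have hhom : ∀ m ∈ q.support, m.degree = d := by
    intro m hm
    rw [MvPolynomial.mem_support_iff, hq] at hm
    split_ifs at hm with hlt
    · refine le_antisymm (Nat.lt_succ_iff.1 hlt) ?_
      by_contra hd
      exact Nat.find_min hex (not_le.1 hd) ⟨m, rfl, hm⟩
    · exact absurd rfl hm
  have hq0 : q ≠ 0 := fun h0 => hm₁0 (by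
    have := hq m₁
    rw [h0, MvPolynomial.coeff_zero, if_pos (hm₁ ▸ Nat.lt_succ_self d)] at this
    exact this.symm)
  have : Infinite V := Infinite.of_injective (Nat.cast : ℕ → V) Nat.cast_injective
  obtain ⟨u, hu⟩ : ∃ u : σ → V, MvPolynomial.eval u q ≠ 0 := by
    by_contra hall
    push Not at hall
    exact hq0 (MvPolynomial.funext fun u => by rw [hall u, map_zero])
  obtain ⟨π, hπ⟩ := IsDiscreteValuationRing.exists_irreducible V
  have hπ0 : π ≠ 0 := hπ.ne_zero
  have hπm : maximalIdeal V = Ideal.span {π} := (IsDiscreteValuationRing.irreducible_iff_uniformizer π).1 hπ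
  refine hu (IsHausdorff.haus (I := maximalIdeal V) inferInstance _ fun k => ?_)
  rw [SModEq.zero, smul_eq_mul, Ideal.mul_top]
  rcases Nat.eq_zero_or_pos k with rfl | hk
  · simp
  have hy : ∀ i, π ^ k * u i ∈ maximalIdeal V := fun i => by
    rw [hπm]
    exact Ideal.mul_mem_right _ _ (Ideal.pow_mem_of_mem _ (Ideal.mem_span_singleton_self π) k hk)
  obtain ⟨φ, hφ⟩ := exists_eval (L := V) (fun i => π ^ k * u i) hy
  have h1 : φ (q : MvPowerSeries σ V) = π ^ (k * d) * MvPolynomial.eval u q := by
    rw [algHom_coe_eq_aeval, MvPolynomial.aeval_def, MvPolynomial.eval₂_eq, MvPolynomial.eval_eq,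
      Finset.mul_sum]
    refine Finset.sum_congr rfl fun m hm => ?_
    simp only [hφ, Algebra.algebraMap_self, RingHom.id_apply, mul_pow, Finset.prod_mul_distrib,
      ← pow_mul]
    rw [Finset.prod_pow_eq_pow_sum, ← Finset.mul_sum,
      show ∑ i ∈ m.support, m i = d from (Finsupp.degree_apply _).symm.trans (hhom m hm)]
    ring
  have h2 : φ (f - q) ∈ Ideal.span {π ^ (k * (d + 1))} := by
    have := Ideal.mem_map_of_mem φ (Deformation.sub_truncTotal_mem f (d + 1))
    rw [Deformation.map_varsIdeal_pow] at this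
    rw [pow_mul, ← Ideal.span_singleton_pow]
    refine Ideal.pow_right_mono (Ideal.span_le.2 ?_) _ this
    rintro _ ⟨i, rfl⟩
    show φ (MvPowerSeries.X i) ∈ _
    rw [hφ]
    exact Ideal.mem_span_singleton.2 (dvd_mul_right _ _)
  have h3 := h φ fun i => by rw [hφ]; exact hy i
  rw [map_sub, h3, zero_sub, Ideal.neg_mem_iff, h1, Ideal.mem_span_singleton, mul_add, mul_one,
    pow_add, mul_dvd_mul_iff_left (pow_ne_zero _ hπ0)] at h2
  rw [hπm, Ideal.span_singleton_pow, Ideal.mem_span_singleton]
  exact h2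

end Fermat.Agent.RT.Assembly

end
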