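import Fermat.Agent.RT.Assembly.FrameLevel
import Fermat.Agent.RT.Assembly.LevelInput
import Fermat.Agent.RT.Assembly.Vanish
import Fermat.Agent.RT.LocalParam.Main
import Mathlib.RingTheory.MvPowerSeries.Rename

/-!
# The patching argument from its input at every level (PATCH part 6)
-/

set_option autoImplicit false

noncomputable section

open IsLocalRing

namespace Fermat.Agent.RT.Assembly

open Diamond LocalParam LocalRing

local notation "Γℚ" => (AlgebraicClosure ℚ ≃ₐ[ℚ] AlgebraicClosure ℚ)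

section Eval

variable {R V : Type} [CommRing R] [IsLocalRing R] [CommRing V] {s : ℕ}

/-- A framed conjugate goes to a conjugate. -/
theorem map_frameConj (ev : MvPowerSeries (FrameVar s) R →+* V) (f : R →+* V)
    (hev : ∀ x, ev (algebraMap R _ x) = f x) (i : Fin s) :
    ∃ u : (Mat V)ˣ, ∀ M : Mat R, (frameConj R s i M).map ev = u * M.map f * (u⁻¹ : (Mat V)ˣ) := by
  refine ⟨Units.map ev.mapMatrix.toMonoidHom (isUnit_one_add_frameY R s i).unit, fun M => ?_⟩
  have h : (M.map (algebraMap R (MvPowerSeries (FrameVar s) R))).map ev = M.map f := by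
    rw [Matrix.map_map]
    exact Matrix.ext fun a c => hev _
  have hinv : (1 + frameY R s i)⁻¹ = (((isUnit_one_add_frameY R s i).unit⁻¹ : (Mat _)ˣ) : Mat _) := by
    rw [Matrix.coe_units_inv, IsUnit.unit_spec]
  rw [frameConj, hinv, Matrix.map_mul, Matrix.map_mul, h]
  rfl

end Eval

variable {O : Type} [CommRing O] [IsDomain O] [IsDiscreteValuationRing O]
  [IsAdicComplete (maximalIdeal O) O] [Finite (ResidueField O)] [CharZero O]
  {p m s g : ℕ} [Fact p.Prime]

namespace FramePlaces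

variable (FP : FramePlaces O p m s)

/-- The matrices of variables in the normal form. -/
def coordMat (j : Fin s) (e : Fin 2) : Mat (MvPowerSeries (LocVar s ⊕ Fin g) O) :=
  ((FP.G j : Mat O).map (algebraMap O (MvPowerSeries (LocVar s ⊕ Fin g) O))) *
    (Matrix.of fun a c => MvPowerSeries.X (Sum.inl (j, e, a, c))) *
    ((((FP.G j)⁻¹ : (Mat O)ˣ) : Mat O).map (algebraMap O (MvPowerSeries (LocVar s ⊕ Fin g) O)))

/-- The change of coordinates: an entry of `(Φ, Σ)` in the normal form in terms of the entries in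
the basis of the representation. -/
def coord : Idx (Fin s) (Fin g) → MvPowerSeries (LocVar s ⊕ Fin g) O
  | Sum.inl (j, b, a, c) => FP.coordMat (g := g) j (if b then 1 else 0) a c
  | Sum.inr t => MvPowerSeries.X (Sum.inr t)

theorem inv_mul_coordMat_mul (j : Fin s) (e : Fin 2) :
    ((((FP.G j)⁻¹ : (Mat O)ˣ) : Mat O).map (algebraMap O (MvPowerSeries (LocVar s ⊕ Fin g) O))) *
      FP.coordMat (g := g) j e *
      ((FP.G j : Mat O).map (algebraMap O (MvPowerSeries (LocVar s ⊕ Fin g) O))) =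
      Matrix.of fun a c => MvPowerSeries.X (Sum.inl (j, e, a, c)) := by
  set α := algebraMap O (MvPowerSeries (LocVar s ⊕ Fin g) O)
  set u := Units.map α.mapMatrix.toMonoidHom (FP.G j)
  show ((u⁻¹ : (Mat (MvPowerSeries (LocVar s ⊕ Fin g) O))ˣ) : Mat (MvPowerSeries (LocVar s ⊕ Fin g) O)) *
    ((u : Mat (MvPowerSeries (LocVar s ⊕ Fin g) O)) * _ * ((u⁻¹ : (Mat (MvPowerSeries (LocVar s ⊕ Fin g) O))ˣ) : Mat (MvPowerSeries (LocVar s ⊕ Fin g) O))) * (u : Mat (MvPowerSeries (LocVar s ⊕ Fin g) O)) = _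
  simp only [mul_assoc, Units.inv_mul, mul_one, Units.inv_mul_cancel_left]

theorem coord_mem (i : Idx (Fin s) (Fin g)) :
    FP.coord (g := g) i ∈ maximalIdeal (MvPowerSeries (LocVar s ⊕ Fin g) O) := by
  have hX : ∀ v : LocVar s ⊕ Fin g, (MvPowerSeries.X v : MvPowerSeries (LocVar s ⊕ Fin g) O) ∈
      maximalIdeal (MvPowerSeries (LocVar s ⊕ Fin g) O) := fun v => by
    rw [mem_maximalIdeal_mvPowerSeries, MvPowerSeries.constantCoeff_X]
    exact zero_mem _
  rcases i with ⟨j, b, a, c⟩ | t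
  · simp only [coord, coordMat, Matrix.mul_apply, Matrix.of_apply]
    exact Ideal.sum_mem _ fun k _ => Ideal.mul_mem_right _ _
      (Ideal.sum_mem _ fun l _ => Ideal.mul_mem_left _ _ (hX _))
  · exact hX _

theorem exists_coordHom : ∃ Θ : PSR (Fin s) (Fin g) O →ₐ[O] MvPowerSeries (LocVar s ⊕ Fin g) O,
    Function.Surjective Θ ∧ ∀ i, Θ (MvPowerSeries.X i) = FP.coord i := by
  refine exists_mvPowerSeries_surjective
    (residue_surjective_mvPowerSeries (σ := LocVar s ⊕ Fin g) (L := O) residue_surjective)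
    FP.coord FP.coord_mem ?_
  refine le_trans maximalIdeal_mvPowerSeries (sup_le ?_ (le_sup_of_le_left le_sup_right))
  refine le_sup_of_le_left (le_sup_of_le_left (Ideal.span_le.2 ?_))
  rintro _ ⟨⟨j, e, a, c⟩ | t, rfl⟩
  · have h := congrFun (congrFun (FP.inv_mul_coordMat_mul (g := g) j e) a) c
    simp only [Matrix.mul_apply, Matrix.of_apply] at h
    rw [← h]
    refine Ideal.sum_mem _ fun k _ => Ideal.mul_mem_right _ _ (Ideal.sum_mem _ fun l _ =>
      Ideal.mul_mem_left _ _ (Ideal.subset_span ?_))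
    refine ⟨Sum.inl (j, decide (e = 1), l, k), ?_⟩
    show FP.coordMat j (if decide (e = 1) = true then 1 else 0) l k = _
    fin_cases e <;> simp
  · exact Ideal.subset_span ⟨Sum.inr t, rfl⟩

/-- At a point, the coordinates give conjugates of the representation's matrices. -/
theorem exists_conj {R V : Type} [CommRing R] [IsLocalRing R] [Algebra O R] [CommRing V]
    [Algebra O V] {rR : Γℚ →* Mat R}
    {Φ : MvPowerSeries (LocVar s ⊕ Fin g) O →ₐ[O] MvPowerSeries (FrameVar s) R}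
    (hΦ : ∀ i el a c, Φ (MvPowerSeries.X (Sum.inl (i, el, a, c))) =
      frameConj R s i (rR (FP.el i el)) a c -
        algebraMap O (MvPowerSeries (FrameVar s) R) (FP.lift0 i el a c))
    {Θ : PSR (Fin s) (Fin g) O →ₐ[O] MvPowerSeries (LocVar s ⊕ Fin g) O}
    (hΘ : ∀ i, Θ (MvPowerSeries.X i) = FP.coord i)
    (ev : MvPowerSeries (FrameVar s) R →+* V) (f : R →ₐ[O] V)
    (hev : ∀ x, ev (algebraMap R _ x) = f x) (v : Idx (Fin s) (Fin g) → V)
    (hv : ∀ i, v i = ev (Φ (Θ (MvPowerSeries.X i)))) (j : Fin s) :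
    ∃ w : (Mat V)ˣ,
      phiAt FP.setup v j = w * (rR (FP.el j 0)).map f * (w⁻¹ : (Mat V)ˣ) ∧
      sigAt FP.setup v j = w * (rR (FP.el j 1)).map f * (w⁻¹ : (Mat V)ˣ) := by
  obtain ⟨u, hu⟩ := map_frameConj ev (f : R →+* V) hev j
  let h : MvPowerSeries (LocVar s ⊕ Fin g) O →+* V := ev.comp Φ.toRingHom
  have hO : ∀ x : O, h (algebraMap O _ x) = algebraMap O V x := fun x => by
    show ev (Φ (algebraMap O _ x)) = _
    rw [Φ.commutes, IsScalarTower.algebraMap_apply O R (MvPowerSeries (FrameVar s) R), hev,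
      f.commutes]
  set Gu : (Mat V)ˣ := Units.map (algebraMap O V).mapMatrix.toMonoidHom (FP.G j)
  refine ⟨Gu * u, ?_⟩
  have hGm : ∀ M : Mat O, (M.map (algebraMap O (MvPowerSeries (LocVar s ⊕ Fin g) O))).map h =
      M.map (algebraMap O V) := fun M => by
    rw [Matrix.map_map]
    exact Matrix.ext fun a c => hO _
  -- the value of the coordinate matrices
  have key : ∀ e : Fin 2, (FP.coordMat (g := g) j e).map h =
      (Gu : Mat V) * (u * (rR (FP.el j e)).map f * (u⁻¹ : (Mat V)ˣ)) * (Gu⁻¹ : (Mat V)ˣ) -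
        (if e = 0 then ((FP.setup.kind j).centre (FP.setup.n j)).1
          else ((FP.setup.kind j).centre (FP.setup.n j)).2).map (algebraMap O V) := by
    intro e
    have hX : (Matrix.of fun a c => (MvPowerSeries.X (Sum.inl (j, e, a, c)) :
        MvPowerSeries (LocVar s ⊕ Fin g) O)).map h =
        u * (rR (FP.el j e)).map f * (u⁻¹ : (Mat V)ˣ) - (FP.lift0 j e).map (algebraMap O V) := by
      rw [← AlgHom.coe_toRingHom f, ← hu]
      refine Matrix.ext fun a c => ?_
      simp only [Matrix.map_apply, Matrix.of_apply, Matrix.sub_apply]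
      show ev (Φ _) = _
      rw [hΦ, map_sub, IsScalarTower.algebraMap_apply O R (MvPowerSeries (FrameVar s) R), hev,
        f.commutes]
    rw [coordMat, Matrix.map_mul, Matrix.map_mul, hGm, hGm, hX, lift0, Matrix.map_mul,
      Matrix.map_mul]
    show (Gu : Mat V) * (_ - ((Gu⁻¹ : (Mat V)ˣ) : Mat V) * (_ * (Gu : Mat V))) *
      ((Gu⁻¹ : (Mat V)ˣ) : Mat V) = _
    rw [mul_sub, sub_mul, mul_assoc (Gu : Mat V) (((Gu⁻¹ : (Mat V)ˣ) : Mat V) * _),
      ← mul_assoc ((Gu⁻¹ : (Mat V)ˣ) : Mat V) _ (Gu : Mat V), Units.mul_inv_cancel_right,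
      Units.mul_inv_cancel_left]
  have hcoord : ∀ b : Bool, (Matrix.of fun a c => v (Sum.inl (j, b, a, c))) =
      (FP.coordMat (g := g) j (if b then 1 else 0)).map h := fun b => Matrix.ext fun a c => by
    simp only [Matrix.of_apply, Matrix.map_apply, hv, hΘ]
    rfl
  have hinv : ∀ M : Mat V, (Gu : Mat V) * ((u : Mat V) * M * ((u⁻¹ : (Mat V)ˣ) : Mat V)) *
      ((Gu⁻¹ : (Mat V)ˣ) : Mat V) =
      ((Gu * u : (Mat V)ˣ) : Mat V) * M * (((Gu * u)⁻¹ : (Mat V)ˣ) : Mat V) := fun M => by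
    simp only [mul_inv_rev, Units.val_mul, mul_assoc]
  constructor
  · rw [phiAt, hcoord, key, hinv]
    simp
  · rw [sigAt, hcoord, key, hinv]
    simp

end FramePlaces

/-- An evaluation at small points sends series with small constant term into the maximal ideal. -/
theorem eval_mem {V : Type} [CommRing V] [IsLocalRing V] {σ : Type} [Finite σ]
    (ev : MvPowerSeries σ V →ₐ[V] V) (hev : ∀ i, ev (MvPowerSeries.X i) ∈ maximalIdeal V)
    (y : MvPowerSeries σ V) (hy : MvPowerSeries.constantCoeff y ∈ maximalIdeal V) :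
    ev y ∈ maximalIdeal V := by
  have h := Ideal.mem_map_of_mem ev (Deformation.sub_algebraMap_constantCoeff_mem y)
  rw [Ideal.map_span, ← Set.range_comp] at h
  have h' := Ideal.span_le.2 (show Set.range _ ⊆ (maximalIdeal V : Set V) by
    rintro _ ⟨i, rfl⟩; exact hev i) h
  rw [map_sub, ev.commutes] at h'
  simpa using add_mem h' hy

theorem isPoint_of_conj {V : Type} [CommRing V] [IsDomain V] [Algebra O V]
    (FP : FramePlaces O p m s) {M : Γℚ → Mat V} (hM : PointPred FP (algebraMap O V) M)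
    (v : Idx (Fin s) (Fin g) → V)
    (hv : ∀ j, ∃ w : (Mat V)ˣ,
      phiAt FP.setup v j = w * M (FP.el j 0) * (w⁻¹ : (Mat V)ˣ) ∧
      sigAt FP.setup v j = w * M (FP.el j 1) * (w⁻¹ : (Mat V)ˣ))
    (hord : ∀ j, (FP.setup.kind j).isTwisted = true → ∀ z : V, z ^ FP.setup.n j = z →
      (∃ k : ℕ, z ^ p ^ k = 1) → z ^ p ^ m = 1) :
    IsPoint FP.setup v := by
  intro j
  obtain ⟨w, hΦ, hS⟩ := hv j
  obtain ⟨h1, h2, h3, h4, h5, h6⟩ := hM j
  rw [hΦ, hS]
  refine ⟨?_, ?_, ?_, fun ht => ?_, fun ht => ?_, fun β hβ => ?_⟩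
  · rw [Units.conj_pow]
    simp only [mul_assoc, Units.inv_mul_cancel_left]
    rw [← mul_assoc (M _) (M _), h1, mul_assoc]
  · rw [Matrix.det_units_conj, h2]
  · rw [Matrix.det_units_conj, h3]
  · obtain ⟨z, hzn, hzk, hz1, hzt⟩ := h4 ht
    exact ⟨z, hord j ht z hzn hzk, hz1, by rw [Matrix.trace_units_conj]; exact hzt⟩
  · rw [Matrix.trace_units_conj]
    exact h5 ht
  · rw [Matrix.trace_units_conj]
    exact h6 β hβ

/-- Patching: no family of level inputs exists at a twisted place. -/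
theorem false_of_levelInputs (hp2 : p ≠ 2) (hpO : (p : O) ∈ maximalIdeal O)
    (hs : 0 < s) (FP : FramePlaces O p m s) (j₀ : Fin s)
    (hj₀ : (FP.setup.kind j₀).isTwisted = true) (ϖ : O) (hϖ : ϖ ∈ maximalIdeal O)
    (hord : ∀ (V : Type) [CommRing V] [IsDomain V] (j : Fin s),
      (FP.setup.kind j).isTwisted = true → ∀ z : V,
      z ^ FP.setup.n j = z → (∃ k : ℕ, z ^ p ^ k = 1) → z ^ p ^ m = 1)
    {r D : ℕ} (hD : 0 < D) (hlev : ∀ n, Nonempty (LevelInput FP ϖ j₀ r (r + (s - 1)) D n)) :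
    False := by
  classical
  let g' := r + (s - 1)
  let P := PSR (Fin s) (Fin g') O
  obtain ⟨𝒦, h𝒦, hQ, hpt⟩ := exists_kernels hp2 hpO (τ := Fin g') FP.setup
  obtain ⟨Q₀, hQ₀p, hpQ₀, hmQ₀, hfQ₀, hKQ₀⟩ := hQ j₀ hj₀
  let g₀ : P := fAt FP.setup (MvPowerSeries.X : Idx (Fin s) (Fin g') → P) j₀
  have : Finite (ResidueField P) :=
    Finite.of_surjective (ResidueField.map (algebraMap O P)) fun y => by
      obtain ⟨c, hc⟩ := residue_surjective_mvPowerSeries (σ := Idx (Fin s) (Fin g')) (L := O)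
        (R := O) residue_surjective y
      exact ⟨residue O c, (ResidueField.map_residue _ _).trans hc⟩
  have : NeZero D := ⟨hD.ne'⟩
  -- the number of variables
  obtain ⟨eS⟩ : Nonempty (Fin (r + (4 * s - 1)) ≃ Fin r ⊕ FrameVar s) := by
    refine ⟨(Fintype.equivFinOfCardEq ?_).symm⟩
    rw [Fintype.card_sum, Fintype.card_fin, ← Nat.card_eq_fintype_card, card_frameVar s hs]
  obtain ⟨eK⟩ : Nonempty (Fin (r + (4 * s - 1)) ≃ (Fin s × Fin 3) ⊕ Fin g') := by
    refine ⟨(Fintype.equivFinOfCardEq ?_).symm⟩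
    rw [Fintype.card_sum, Fintype.card_prod, Fintype.card_fin, Fintype.card_fin, Fintype.card_fin]
    omega
  have : ∀ K : {K // K ∈ 𝒦}, K.1.IsPrime := fun K => (h𝒦 K.1 K.2).1
  refine Patch.false_of_levels (d := r + (4 * s - 1)) (P := P) ϖ (fun K : {K // K ∈ 𝒦} => K.1)
    (fun K => ?_) Q₀ (hmQ₀ (Ideal.mem_map_of_mem _ hϖ)) (fun K => hKQ₀ K.1 K.2) g₀ hfQ₀
    (D := D) fun n => ?_
  · obtain ⟨-, -, ψ, hψ⟩ := h𝒦 K.1 K.2
    refine ⟨((Ideal.Quotient.mk K.1).comp ψ.toRingHom).comp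
      (MvPowerSeries.renameEquiv O eK).toAlgHom.toRingHom, ?_⟩
    exact RingHom.IsIntegral.trans _ _
      (RingHom.isIntegral_of_surjective _ (MvPowerSeries.renameEquiv O eK).surjective)
      hψ.to_isIntegral
  obtain ⟨L⟩ := hlev n
  obtain ⟨Θ, hΘs, hΘ⟩ := FP.exists_coordHom (g := g')
  let Φ' : P →ₐ[O] MvPowerSeries (FrameVar s) L.R := L.Φ.comp Θ
  -- the values at points of an element of `P`, coefficientwise
  have hpoint : ∀ (f : P) (V : Type) [CommRing V] [IsDomain V] [IsDiscreteValuationRing V]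
      [CharZero V] [IsAdicComplete (maximalIdeal V) V] [Algebra O V] [IsLocalHom (algebraMap O V)]
      (φ : L.R →ₐ[O] V), IsLocalHom (φ : L.R →+* V) →
      (∀ F : P →ₐ[O] V, (∀ i, F (MvPowerSeries.X i) ∈ maximalIdeal V) →
        (∀ j, ∃ w : (Mat V)ˣ,
          phiAt FP.setup (F ∘ MvPowerSeries.X) j =
            w * (L.rR (FP.el j 0)).map φ * (w⁻¹ : (Mat V)ˣ) ∧
          sigAt FP.setup (F ∘ MvPowerSeries.X) j =
            w * (L.rR (FP.el j 1)).map φ * (w⁻¹ : (Mat V)ˣ)) → F f = 0) →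
      ∀ k, φ (MvPowerSeries.coeff k (Φ' f)) = 0 := by
    intro f V _ _ _ _ _ _ _ φ hφloc hF k
    have h0 : MvPowerSeries.map (φ : L.R →+* V) (Φ' f) = 0 := by
      refine eq_zero_of_forall_eval _ fun ev hev => ?_
      let F₀ : P →+* V := ev.toRingHom.comp ((MvPowerSeries.map (φ : L.R →+* V)).comp Φ'.toRingHom)
      have hFO : ∀ c : O, F₀ (algebraMap O P c) = algebraMap O V c := fun c => by
        show ev (MvPowerSeries.map (φ : L.R →+* V) (Φ' (algebraMap O P c))) = _
        rw [Φ'.commutes, IsScalarTower.algebraMap_apply O L.R (MvPowerSeries (FrameVar s) L.R)]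
        rw [MvPowerSeries.algebraMap_apply, MvPowerSeries.map_C]
        exact (ev.commutes _).trans (φ.commutes c)
      let F : P →ₐ[O] V := { F₀ with commutes' := hFO }
      refine hF F (fun i => ?_) fun j => ?_
      · have hi : (MvPowerSeries.X i : P) ∈ maximalIdeal P := by
          rw [mem_maximalIdeal_mvPowerSeries, MvPowerSeries.constantCoeff_X]
          exact zero_mem _
        have : IsLocalHom (Φ' : P →+* MvPowerSeries (FrameVar s) L.R) :=
          IsLocalHom.of_surjective _ (L.Φ_surjective.comp hΘs)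
        have hy := map_nonunit (Φ' : P →+* MvPowerSeries (FrameVar s) L.R) _ hi
        rw [mem_maximalIdeal_mvPowerSeries] at hy
        exact eval_mem ev hev _ (by
          show MvPowerSeries.constantCoeff (MvPowerSeries.map (φ : L.R →+* V) (Φ' (MvPowerSeries.X i))) ∈ _
          rw [MvPowerSeries.constantCoeff_map]
          exact map_nonunit (φ : L.R →+* V) _ hy)
      · exact FP.exists_conj L.Φ_X hΘ (ev.toRingHom.comp (MvPowerSeries.map (φ : L.R →+* V))) φ
          (fun x => by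
            rw [RingHom.comp_apply, MvPowerSeries.algebraMap_apply, MvPowerSeries.map_C]
            exact ev.commutes _) _ (fun i => rfl) j
    have := congrArg (MvPowerSeries.coeff k) h0
    rwa [MvPowerSeries.coeff_map, map_zero] at this
  obtain ⟨ρ', hρ'a, hρ'0, hρ'div⟩ := Diamond.exists_matrix_action (Pi.basisFun _ (Fin D)) hpO L.ρ
    L.a L.a_pow L.hζ L.χ L.χ_delta L.old L.new
  refine exists_isLevel hpO ϖ _ g₀ eS Φ' (L.Φ_surjective.comp hΘs) n L.le_e ρ' L.a hρ'a
    (fun f hf k => hρ'0 _ ?_) fun k => hρ'div ϖ _ (L.congr _ ?_)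
  · refine LinearMap.ext fun v => L.points _ (fun V _ _ _ _ _ _ _ _ hinj φ hloc hφ =>
      hpoint f V φ hloc (fun F hF hconj => ?_) k) v
    have hφ' : PointPred FP (algebraMap O V) fun γ => (L.rR γ).map φ :=
      φ.comp_algebraMap ▸ (show PointPred FP ((φ : L.R →+* V).comp (algebraMap O L.R))
        fun γ => (L.rR γ).map φ from hφ)
    obtain ⟨K, hK, hKF⟩ := hpt V hinj F hF
      (isPoint_of_conj FP hφ' _ hconj fun j ht z => hord V j ht z)
    exact hKF (Submodule.mem_iInf _ |>.1 hf ⟨K, hK⟩)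
  · refine LinearMap.ext fun v => L.points₁ _ (fun V _ _ _ _ _ _ _ _ hinj φ hloc hφ =>
      hpoint g₀ V φ hloc (fun F hF hconj => ?_) k) v
    obtain ⟨w, hw, -⟩ := hconj j₀
    have hfun : ∀ v : Idx (Fin s) (Fin g') → P,
        F (fAt FP.setup v j₀) = fAt FP.setup (F ∘ v) j₀ := fun v => by
      simp [fAt, phiAt, Matrix.trace_fin_two, Function.comp]
    rw [hfun, fAt, hw, Matrix.trace_units_conj, sub_eq_zero]
    exact hφ

end Fermat.Agent.RT.Assembly

end
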