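import Fermat.Agent.Lifting.Minimal.BaseFacts
import Fermat.Agent.RT.Assembly.RingData

/-!
# The frame of a curve at a place of a minimal level

At a prime `q ≠ p` of a minimal level: a tame pair and, over the coefficient ring, a normal form
(scalar or Jordan when twisted, Steinberg when ramified, special when split) with the change of
basis to a given residual basis.
-/

set_option autoImplicit false
set_option linter.style.haveILetI false

noncomputable section

open IsLocalRing Polynomial
open Fermat.Agent.Deformation (Mat matOf matOf_apply)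

namespace Fermat.Agent.RT.Assembly

open Lifting LocalParam

local notation "ℚ̄" => AlgebraicClosure ℚ
local notation "Γℚ" => (AlgebraicClosure ℚ ≃ₐ[ℚ] AlgebraicClosure ℚ)

/-- The split normal form: distinct Frobenius eigenvalues `qε, ε`, trivial inertia. -/
theorem exists_split_basis {W : WeierstrassCurve ℤ} {p : ℕ} [Fact p.Prime] (hΔ : W.Δ ≠ 0) {q : ℕ}
    (hq0 : (q : ZMod p) ≠ 0) (hq1 : (q : ZMod p) ≠ 1)
    (hunr : ResiduallyUnramifiedAt W p q) (T : TamePair p q) {ε : ZMod p} (hε : ε * ε = 1)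
    (hch : LinearMap.charpoly ((Residual.torsRep W p hΔ).ρ T.F) =
      X ^ 2 - C (ε * ((q : ZMod p) + 1)) * X + C (q : ZMod p)) :
    ∃ b : Module.Basis (Fin 2) (ZMod p) (Residual.torsRep W p hΔ).V,
      matOf (Residual.torsRep W p hΔ).ρ b T.σ = 1 ∧
      matOf (Residual.torsRep W p hΔ).ρ b T.F = !![(q : ZMod p) * ε, 0; 0, ε] := by
  set ρ := Residual.torsRep W p hΔ
  haveI : Module.Finite (ZMod p) ρ.V := Module.finite_of_finrank_eq_succ ρ.finrank_eq
  have hσ : ρ.ρ T.σ = 1 :=
    (Minimal.torsRep_isUnramifiedAt_iff_residual hΔ q).2 hunr T.A T.hA T.σ T.hσ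
  set F := ρ.ρ T.F with hF
  have hfac : LinearMap.charpoly F = (X - C ((q : ZMod p) * ε)) * (X - C ε) := by
    have hC : C ε * C ε = (1 : (ZMod p)[X]) := by rw [← map_mul, hε, map_one]
    rw [hch]
    simp only [map_mul, map_add, map_one]
    linear_combination -(C (q : ZMod p)) * hC
  have hprod : (F - ((q : ZMod p) * ε) • 1) * (F - ε • 1) = 0 := by
    have h := LinearMap.aeval_self_charpoly F
    rw [hfac, map_mul, map_sub, map_sub, aeval_X, aeval_C, aeval_C] at h
    simpa [Algebra.algebraMap_eq_smul_one] using h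
  have hcomm : (F - ε • 1) * (F - ((q : ZMod p) * ε) • 1) = 0 := by
    have h := LinearMap.aeval_self_charpoly F
    rw [hfac, mul_comm, map_mul, map_sub, map_sub, aeval_X, aeval_C, aeval_C] at h
    simpa [Algebra.algebraMap_eq_smul_one] using h
  have hε0 : ε ≠ 0 := fun h => by simp [h] at hε
  have hne : ∀ c : ZMod p, c = ε ∨ c = (q : ZMod p) * ε → F - c • 1 ≠ 0 := by
    intro c hc h0
    have hFc : F = c • 1 := sub_eq_zero.1 h0
    let b₀ := Module.finBasisOfFinrankEq (ZMod p) ρ.V ρ.finrank_eq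
    have h1 := hch
    rw [hFc, ← LinearMap.charpoly_toMatrix _ b₀, Matrix.charpoly_fin_two] at h1
    have h2 : c * c = (q : ZMod p) := by
      have := congrArg (fun f => Polynomial.coeff f 0) h1
      simpa [Matrix.det_fin_two, LinearMap.toMatrix_apply, Polynomial.coeff_X_pow,
        Polynomial.coeff_C, Polynomial.coeff_X, Polynomial.coeff_zero_eq_eval_zero, pow_two] using this
    rcases hc with rfl | rfl
    · exact hq1 (by rw [← h2, hε])
    · refine hq1 (mul_left_cancel₀ hq0 ?_)
      calc (q : ZMod p) * q = (q : ZMod p) * q * (ε * ε) := by rw [hε, mul_one]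
        _ = (q : ZMod p) * ε * ((q : ZMod p) * ε) := by ring
        _ = (q : ZMod p) * 1 := by rw [h2, mul_one]
  obtain ⟨x, hx⟩ : ∃ x, (F - ε • 1 : Module.End (ZMod p) ρ.V) x ≠ 0 := by
    by_contra! h
    exact hne ε (Or.inl rfl) (LinearMap.ext h)
  obtain ⟨y, hy⟩ : ∃ y, (F - ((q : ZMod p) * ε) • 1 : Module.End (ZMod p) ρ.V) y ≠ 0 := by
    by_contra! h
    exact hne _ (Or.inr rfl) (LinearMap.ext h)
  set v := (F - ε • 1 : Module.End (ZMod p) ρ.V) x with hvdef
  set w := (F - ((q : ZMod p) * ε) • 1 : Module.End (ZMod p) ρ.V) y with hwdef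
  have hv : F v = ((q : ZMod p) * ε) • v := sub_eq_zero.1 (LinearMap.congr_fun hprod x)
  have hw : F w = ε • w := sub_eq_zero.1 (LinearMap.congr_fun hcomm y)
  have hli : LinearIndependent (ZMod p) ![v, w] := LinearIndependent.pair_iff.2 fun s t hst => by
    have h1 := congrArg F hst
    rw [map_add, map_smul, map_smul, hv, hw, map_zero] at h1
    have hs : (s * ((q : ZMod p) * ε - ε)) • v = 0 := by
      have h2 := congrArg (fun z => ε • z) hst
      simp only [smul_add, smul_zero, smul_smul] at h1 h2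
      have h3 := congrArg₂ (· - ·) h1 h2
      simp only [sub_zero, mul_comm ε t, add_sub_add_right_eq_sub, ← sub_smul] at h3
      rw [← h3]
      congr 1
      ring
    have hne' : (q : ZMod p) * ε - ε ≠ 0 := by
      rw [← sub_one_mul]
      exact mul_ne_zero (sub_ne_zero.2 hq1) hε0
    have hs0 : s = 0 := (mul_eq_zero.1 ((smul_eq_zero.1 hs).resolve_right hx)).resolve_right hne'
    subst hs0
    rw [zero_smul, zero_add, smul_eq_zero] at hst
    exact ⟨rfl, hst.resolve_right hy⟩
  let b := basisOfLinearIndependentOfCardEqFinrank hli (by simp [ρ.finrank_eq])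
  have hb0 : b 0 = v := by simp [b]
  have hb1 : b 1 = w := by simp [b]
  have h0 : ρ.ρ T.F (b 0) = ((q : ZMod p) * ε) • b 0 := by rw [hb0]; exact hv
  have h1 : ρ.ρ T.F (b 1) = ε • b 1 := by rw [hb1]; exact hw
  refine ⟨b, (matOf_eq_one_iff ρ.ρ b T.σ).2 hσ, ?_⟩
  rw [matOf_apply]
  ext i j
  fin_cases i <;> fin_cases j <;> simp [LinearMap.toMatrix_apply, h0, h1]

variable {O : Type} [CommRing O] [IsLocalRing O]

/-- An invertible matrix over the residue field lifts. -/
theorem exists_units_lift (u : (Mat (ResidueField O))ˣ) :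
    ∃ G : (Mat O)ˣ, (G : Mat O).map (residue O) = (u : Mat (ResidueField O)) := by
  choose g hg using fun x : ResidueField O => residue_surjective x
  let G : Mat O := (u : Mat (ResidueField O)).map g
  have hG : G.map (residue O) = (u : Mat (ResidueField O)) := Matrix.ext fun i j => hg _
  have hu : IsUnit G.det := by
    refine IsUnit.of_map (residue O) _ ?_
    rw [RingHom.map_det, RingHom.mapMatrix_apply, hG]
    exact (Matrix.isUnit_iff_isUnit_det _).1 u.isUnit
  exact ⟨((Matrix.isUnit_iff_isUnit_det _).2 hu).unit, hG⟩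

/-- The centre conjugated by a lift of a change of basis reduces to the residual matrices. -/
theorem exists_conj_centre {V : Type} [AddCommGroup V] [Module (ResidueField O) V]
    (r : Γℚ →* Module.End (ResidueField O) V) (bbar b : Module.Basis (Fin 2) (ResidueField O) V) :
    ∃ G : (Mat O)ˣ, ∀ (C₀ : Mat O) (x : Γℚ), C₀.map (residue O) = matOf r b x →
      (((G⁻¹ : (Mat O)ˣ) : Mat O) * (C₀ * (G : Mat O))).map (residue O) = matOf r bbar x := by
  obtain ⟨u, hu⟩ := Deformation.exists_conj_of_basis r bbar b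
  obtain ⟨G, hG⟩ := exists_units_lift u
  refine ⟨G, fun C₀ x hx => ?_⟩
  have hinv : (((G⁻¹ : (Mat O)ˣ) : Mat O)).map (residue O) =
      ((u⁻¹ : (Mat (ResidueField O))ˣ) : Mat (ResidueField O)) := by
    refine (left_inv_eq_right_inv ?_ (Units.mul_inv u))
    rw [← hG, ← Matrix.map_mul, Units.inv_mul, Matrix.map_one _ (map_zero _) (map_one _)]
  rw [Matrix.map_mul, Matrix.map_mul, hx, hG, hinv, ← hu x, Units.inv_mul_cancel_left]

variable {W : WeierstrassCurve ℤ} {p : ℕ} [Fact p.Prime] [CharP (ResidueField O) p]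

/-- A sign lifts. -/
theorem exists_sign_lift {ι : ZMod p →+* ResidueField O} {e : ZMod p} (he : e * e = 1) :
    ∃ β : O, β * β = 1 ∧ residue O β = ι e := by
  rcases mul_self_eq_one_iff.1 he with rfl | rfl
  · exact ⟨1, one_mul 1, by simp⟩
  · exact ⟨-1, by simp, by simp⟩

/-- The local datum at a place: the normal form, and the change of basis. -/
theorem exists_localFrame (hΔ : W.Δ ≠ 0) (hW : W.IsSemistableModel)
    (ι : ZMod p →+* ResidueField O)
    (bbar : Module.Basis (Fin 2) (ResidueField O)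
      ((Residual.torsRep W p hΔ).baseChangeAlong ι).V)
    (hS29 : EigenformResidualRep) (h35 : BadPrime.NewformMultRep) (hp2 : p ≠ 2)
    (hirr : W.ModRepIsIrreducible p) {M : ℕ} (hM : Minimal.IsMinimalResidualLevel W p M) {q : ℕ}
    (hq : q.Prime) (hqp : q ≠ p) (hqM : q ∣ M)
    (hall : ResiduallyUnramifiedAt W p q → (q : ZMod p) = 1 ∨ (q : ZMod p) ^ 2 ≠ 1) :
    ∃ (T : TamePair p q) (κ : Kind O) (G : (Mat O)ˣ),
      (κ.isTwisted = true ↔ ResiduallyUnramifiedAt W p q ∧ (q : ZMod p) = 1) ∧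
      (κ.isTwisted = true →
        (∀ ε, κ = .scalar ε ∨ κ = .jordan ε → ε * ε = 1) ∧ 1 ≤ q ∧ p ∣ q - 1) ∧
      (∀ β y₀, κ = .steinberg β y₀ → β * β = 1 ∧ IsUnit ((q : O))) ∧
      (∀ β, κ = .special β → β * β = 1 ∧ IsUnit ((q : O)) ∧ IsUnit ((q : O) * (q : O) - 1)) ∧
      (((G⁻¹ : (Mat O)ˣ) : Mat O) * ((κ.centre q).1 * (G : Mat O))).map (residue O) =
        matOf ((Residual.torsRep W p hΔ).baseChangeAlong ι).ρ bbar T.F ∧
      (((G⁻¹ : (Mat O)ˣ) : Mat O) * ((κ.centre q).2 * (G : Mat O))).map (residue O) =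
        matOf ((Residual.torsRep W p hΔ).baseChangeAlong ι).ρ bbar T.σ := by
  obtain ⟨A, σ, hA, -⟩ := Galois.exists_valuationSubring_isFrobeniusAt hq
  obtain ⟨T, -⟩ := exists_tamePair Fact.out hq hqp.symm A hA
  have hq0 : (q : ZMod p) ≠ 0 := fun h => hqp
    ((Nat.prime_dvd_prime_iff_eq (Fact.out : p.Prime) hq).1 ((ZMod.natCast_eq_zero_iff q p).1 h)).symm
  have hres : ∀ n : ℕ, residue O (n : O) = ι (n : ZMod p) := fun n => by
    rw [map_natCast, map_natCast]
  have hqu : IsUnit (q : O) := by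
    rw [← residue_ne_zero_iff_isUnit, hres]
    exact (_root_.map_ne_zero ι).2 hq0
  have hmap : ∀ (a b c d : ZMod p) (a' b' c' d' : O), residue O a' = ι a → residue O b' = ι b →
      residue O c' = ι c → residue O d' = ι d →
      (!![a', b'; c', d'] : Mat O).map (residue O) = (!![a, b; c, d] : Mat (ZMod p)).map ι := by
    intro a b c d a' b' c' d' ha hb hc hd
    ext i j
    fin_cases i <;> fin_cases j <;> simp [ha, hb, hc, hd]
  have hone : (1 : Mat O).map (residue O) = (1 : Mat (ZMod p)).map ι := by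
    rw [Matrix.map_one _ (map_zero _) (map_one _), Matrix.map_one _ (map_zero _) (map_one _)]
  by_cases hu : ResiduallyUnramifiedAt W p q
  · by_cases hq1 : (q : ZMod p) = 1
    · obtain ⟨ε, hε, hch⟩ :=
        hM.frobenius_charpoly_of_one_mod hΔ hS29 h35 hp2 hirr hq hqp hqM hq1 T.A T.hA T.F T.hF
      obtain ⟨β, hβ, hβr⟩ := exists_sign_lift (O := O) (ι := ι) hε
      have hdvd : p ∣ q - 1 := (Nat.modEq_iff_dvd' hq.one_le).1
        ((ZMod.natCast_eq_natCast_iff 1 q p).1 (by rw [Nat.cast_one, hq1]))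
      obtain ⟨b, hbσ, hbF⟩ := Minimal.exists_twisted_basis hΔ hu T hch
      obtain ⟨b', hb'⟩ := Minimal.exists_basis_baseChange hΔ ι b
      obtain ⟨G, hG⟩ := exists_conj_centre _ bbar b'
      rcases hbF with hbF | hbF
      · refine ⟨T, .scalar β, G, iff_of_true rfl ⟨hu, hq1⟩,
          fun _ => ⟨fun ε' h => ?_, hq.one_le, hdvd⟩, fun _ _ h => by simp at h,
          fun _ h => by simp at h, hG _ _ ?_, hG _ _ ?_⟩
        · rcases h with h | h <;> simp at h
          rw [← h, hβ]
        · rw [hb', hbF]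
          show (β • (1 : Mat O)).map (residue O) = _
          ext i j
          fin_cases i <;> fin_cases j <;> simp [hβr]
        · rw [hb', hbσ]
          exact hone
      · refine ⟨T, .jordan β, G, iff_of_true rfl ⟨hu, hq1⟩,
          fun _ => ⟨fun ε' h => ?_, hq.one_le, hdvd⟩, fun _ _ h => by simp at h,
          fun _ h => by simp at h, hG _ _ ?_, hG _ _ ?_⟩
        · rcases h with h | h <;> simp at h
          rw [← h, hβ]
        · rw [hb', hbF]
          exact hmap ε 1 0 ε β 1 0 β hβr (by simp) (by simp) hβr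
        · rw [hb', hbσ]
          exact hone
    · have hq2 := (hall hu).resolve_left hq1
      obtain ⟨ε, hε, hch⟩ := hM.frobenius_charpoly hΔ hS29 h35 hp2 hirr hq hqp hqM T.A T.hA T.F T.hF
      obtain ⟨β, hβ, hβr⟩ := exists_sign_lift (O := O) (ι := ι) hε
      obtain ⟨b, hbσ, hbF⟩ := exists_split_basis hΔ hq0 hq1 hu T hε hch
      obtain ⟨b', hb'⟩ := Minimal.exists_basis_baseChange hΔ ι b
      obtain ⟨G, hG⟩ := exists_conj_centre _ bbar b'
      refine ⟨T, .special β, G, iff_of_false (fun h => Bool.false_ne_true h) fun h => hq1 h.2,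
        fun h => absurd h Bool.false_ne_true, fun _ _ h => by simp at h, fun β' h => ?_,
        hG _ _ ?_, hG _ _ ?_⟩
      · simp at h
        subst h
        refine ⟨hβ, hqu, ?_⟩
        rw [← residue_ne_zero_iff_isUnit, map_sub, map_mul, map_one, hres, ← map_mul, ← pow_two,
          ← map_one ι, ← map_sub, _root_.map_ne_zero]
        exact sub_ne_zero.2 hq2
      · rw [hb', hbF]
        exact hmap _ 0 0 ε _ 0 0 β (by rw [map_mul, hres, hβr, map_mul]) (by simp) (by simp) hβr
      · rw [hb', hbσ]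
        exact hone
  · obtain ⟨b, e, y, he, hbF, hbσ⟩ := Minimal.exists_steinberg_basis hΔ hW hq hqp hu T
    obtain ⟨β, hβ, hβr⟩ := exists_sign_lift (O := O) (ι := ι) he
    obtain ⟨y₀, hy₀⟩ := residue_surjective (R := O) (ι y)
    obtain ⟨b', hb'⟩ := Minimal.exists_basis_baseChange hΔ ι b
    obtain ⟨G, hG⟩ := exists_conj_centre _ bbar b'
    refine ⟨T, .steinberg β y₀, G, iff_of_false (fun h => Bool.false_ne_true h) fun h => hu h.1,
      fun h => absurd h Bool.false_ne_true, fun β' y' h => ?_, fun _ h => by simp at h,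
      hG _ _ ?_, hG _ _ ?_⟩
    · simp at h
      rw [← h.1]
      exact ⟨hβ, hqu⟩
    · rw [hb', hbF]
      exact hmap _ y 0 e _ y₀ 0 β (by rw [map_mul, hres, hβr, map_mul]) hy₀ (by simp) hβr
    · rw [hb', hbσ]
      exact hmap 1 1 0 1 1 1 0 1 (by simp) (by simp) (by simp) (by simp)

end Fermat.Agent.RT.Assembly

end
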