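import Fermat.Agent.RT.Assembly.Twist
import Mathlib.RingTheory.RootsOfUnity.PrimitiveRoots

/-!
# A twisting character of order `p`, ramified at every prime of a given squarefree modulus
-/

set_option autoImplicit false

noncomputable section

namespace Fermat.Agent.RT.Assembly

variable {O : Type} [CommRing O] {p : ℕ}

/-- The powers of a root of unity as a character of `ℤ/p`. -/
def rootPow [NeZero p] (z : Oˣ) (hz : z ^ p = 1) : Multiplicative (ZMod p) →* Oˣ where
  toFun x := z ^ x.toAdd.val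
  map_one' := by rw [toAdd_one, ZMod.val_zero, pow_zero]
  map_mul' x y := by
    rw [toAdd_mul, ZMod.val_add, ← pow_eq_pow_mod _ hz, pow_add]

/-- For a squarefree `N₀` made of primes `q ≡ 1 (mod p)`: a character modulo `N₀` of order
dividing `p`, ramified at each of them. -/
theorem exists_twistChar [Fact p.Prime] {ζ : O} (hζ : IsPrimitiveRoot ζ p) {N₀ : ℕ}
    (hsf : Squarefree N₀) (hq : ∀ q : ℕ, q.Prime → q ∣ N₀ → p ∣ q - 1) :
    ∃ χ : MulChar (ZMod N₀) O, (∀ u : (ZMod N₀)ˣ, χ u ^ p = 1) ∧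
      ∀ q : ℕ, q.Prime → q ∣ N₀ → NontrivialAt χ q := by
  classical
  have hp : p.Prime := Fact.out
  haveI : NeZero p := ⟨hp.ne_zero⟩
  haveI : Fact (1 < p) := ⟨hp.one_lt⟩
  haveI : NeZero N₀ := ⟨hsf.ne_zero⟩
  set z : Oˣ := (hζ.isUnit hp.ne_zero).unit with hz
  have hzu : IsPrimitiveRoot z p := hζ.isUnit_unit hp.ne_zero
  let J := {q : ℕ // q ∈ N₀.primeFactors}
  have hJ : ∀ j : J, (j : ℕ).Prime ∧ (j : ℕ) ∣ N₀ := fun j =>
    ⟨Nat.prime_of_mem_primeFactors j.2, Nat.dvd_of_mem_primeFactors j.2⟩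
  let comp : J → ((ZMod N₀)ˣ →* Oˣ) := fun j =>
    ((rootPow z hzu.pow_eq_one).comp (logHom (hJ j).1 (hq _ (hJ j).1 (hJ j).2))).comp
      (ZMod.unitsMap (hJ j).2)
  let h : (ZMod N₀)ˣ →* Oˣ := ∏ j, comp j
  have happ : ∀ u, h u = ∏ j, comp j u := fun u => MonoidHom.finsetProd_apply _ _ u
  refine ⟨MulChar.ofUnitHom h, fun u => ?_, fun q hqp hqN => ?_⟩
  · rw [MulChar.ofUnitHom_coe, ← Units.val_pow_eq_pow_val, happ, ← Finset.prod_pow,
      Finset.prod_eq_one fun j _ => ?_, Units.val_one]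
    show (z ^ _) ^ p = 1
    rw [← pow_mul, mul_comm, pow_mul, hzu.pow_eq_one, one_pow]
  · obtain ⟨N', hN'⟩ := hqN
    have hcop : ¬ q ∣ N' := fun hd => by
      have : q * q ∣ N₀ := hN' ▸ mul_dvd_mul_left q hd
      exact hqp.ne_one (Nat.isUnit_iff.1 (hsf q this))
    have D : TwistData p N₀ N' (fun _ : Fin 1 => q) (fun _ : Fin 1 => 1) :=
      { eq := by simpa using hN'
        pos := Nat.pos_of_ne_zero fun h0 => hsf.ne_zero (by rw [hN', h0, mul_zero])
        prime := fun _ => hqp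
        inj := fun a b _ => Subsingleton.elim a b
        not_dvd := fun _ => hcop
        dvd_sub := fun _ => by rw [pow_one]; exact hq q hqp ⟨N', hN'⟩ }
    have hqN' : q ∣ N₀ := ⟨N', hN'⟩
    obtain ⟨w, hw⟩ := logHom_surjective hqp (hq q hqp hqN') (Multiplicative.ofAdd 1)
    obtain ⟨u, hu, hu'⟩ := D.exists_unit (fun _ => w) 1
    have hu1 : ∀ r : ℕ, r.Prime → r ∣ N₀ → r ≠ q →
        (ZMod.cast (u : ZMod N₀) : ZMod r) = 1 := by
      intro r hr hrN hrq
      have hrN' : r ∣ N' := by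
        rw [hN'] at hrN
        exact (hr.dvd_mul.1 hrN).resolve_left fun h =>
          hrq ((Nat.prime_dvd_prime_iff_eq hr hqp).1 h)
      have h1 : (ZMod.cast (u : ZMod N₀) : ZMod N') = 1 := by
        rw [← ZMod.unitsMap_val D.dvd_right, hu', Units.val_one]
      have h2 := congrArg (ZMod.castHom hrN' (ZMod r)) h1
      rw [map_one, ← ZMod.castHom_apply (h := D.dvd_right) (u : ZMod N₀), ← RingHom.comp_apply,
        ZMod.castHom_comp] at h2
      simpa using h2
    refine ⟨hqN', u, hu1, ?_⟩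
    let j₀ : J := ⟨q, Nat.mem_primeFactors.2 ⟨hqp, hqN', hsf.ne_zero⟩⟩
    have hval : h u = z := by
      rw [happ, Finset.prod_eq_single j₀ (fun j _ hj => ?_) (fun hj => absurd (Finset.mem_univ _) hj)]
      · show rootPow z hzu.pow_eq_one (logHom _ _ (ZMod.unitsMap _ u)) = z
        rw [show ZMod.unitsMap (hJ j₀).2 u = w from hu 0, hw]
        show z ^ (1 : ZMod p).val = z
        rw [ZMod.val_one, pow_one]
      · show rootPow z hzu.pow_eq_one (logHom _ _ (ZMod.unitsMap _ u)) = 1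
        rw [show ZMod.unitsMap (hJ j).2 u = 1 from Units.ext (by
          rw [ZMod.unitsMap_val, Units.val_one]
          exact hu1 _ (hJ j).1 (hJ j).2 fun e => hj (Subtype.ext e)), map_one, map_one]
    rw [MulChar.ofUnitHom_coe, hval]
    intro h1
    exact hzu.ne_one hp.one_lt (Units.ext h1)

end Fermat.Agent.RT.Assembly

end
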