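import Fermat.Agent.Semistable.AuxPrimeTwelve
import Fermat.Agent.RT.Assembly.CurveFrames
import Fermat.Agent.RT.Assembly.EigenClass
import Fermat.Agent.RT.Assembly.TwistChar
import Fermat.Agent.RT.Assembly.CoeffRing
import Fermat.Agent.RT.Systems.ResidualBridge

/-!
# The patching data of a curve at a minimal level

`exists_base`: from a semistable `W`, an odd `p` with `W[p]` irreducible, a minimal residual level
`M` and a residually unramified `q₀ ≡ 1 (mod p)` in it: a coefficient ring, the base with all such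
primes twisted, and the frames at the primes of `M` other than `p`.
-/

set_option autoImplicit false
set_option linter.style.haveILetI false

noncomputable section

open IsLocalRing Polynomial
open Fermat.Agent.Deformation (matOf)

namespace Fermat.Agent.RT.Assembly

open Lifting Lifting.Minimal LocalParam

local notation "ℚ̄" => AlgebraicClosure ℚ
local notation "Γℚ" => (AlgebraicClosure ℚ ≃ₐ[ℚ] AlgebraicClosure ℚ)

variable {W : WeierstrassCurve ℤ} {p M : ℕ} [Fact p.Prime]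

/-- A good `q ≠ p` is residually unramified. -/
theorem residuallyUnramifiedAt_of_good (hΔ : W.Δ ≠ 0) {q : ℕ} (hq : q.Prime) (hqp : q ≠ p)
    (hgood : W.IsGoodPrimeFor q) : ResiduallyUnramifiedAt W p q := fun A hA σ hσ x =>
  haveI := EC.Reducible.isElliptic_rat W hΔ
  Subtype.ext (EC.smul_eq_of_mem_inertia W A hq hA hgood hσ
    (fun h => hqp ((Nat.prime_dvd_prime_iff_eq hq (Fact.out : p.Prime)).1 h))
    (EC.Reducible.nsmul_coe_eq_zero x))

/-- The auxiliary level and the residual system there. -/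
theorem exists_auxLevel (hS29 : EigenformResidualRep) (hΔ : W.Δ ≠ 0) (hW : W.IsSemistableModel)
    (hp2 : p ≠ 2) (hirr : W.ModRepIsIrreducible p)
    (hM : IsMinimalResidualLevel W p M) :
    ∃ r₀ : ℕ, Squarefree (M * r₀) ∧
      (p = 3 → ∃ q : ℕ, q.Prime ∧ q ∣ r₀ ∧ q % 12 = 11) ∧
      (∀ q : ℕ, q.Prime → q ∣ r₀ → q ≠ p ∧ W.IsGoodPrimeFor q ∧
        (W.apOfModel q : ZMod p) ^ 2 ≠ ((q : ZMod p) + 1) ^ 2) ∧
      HasSystem (M * r₀) ((p * M * W.Δ.natAbs).primeFactors ∪ r₀.primeFactors)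
        (residualSystem W (ZMod p)) := by
  classical
  have hp : p.Prime := Fact.out
  haveI : NeZero M := ⟨hM.pos.ne'⟩
  have hΔ' : W.Δ.natAbs ≠ 0 := Int.natAbs_ne_zero.2 hΔ
  set T := (p * M * W.Δ.natAbs).primeFactors with hT
  have hbase : HasSystem M T (residualSystem W (ZMod p)) := by
    obtain ⟨g, 𝔪, hg, hmax, hpm, hcong⟩ := hM.exists_newform hS29 hΔ hp
    refine Systems.hasSystem_of_eigenform hg.1 hmax hpm T (fun ℓ => W.apOfModel ℓ)
      fun ℓ hℓT hℓ => ?_
    rw [hT, Nat.mem_primeFactors] at hℓT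
    simp only [hℓ, true_and, ne_eq, mul_eq_zero, hp.ne_zero, hM.pos.ne', hΔ', or_self,
      not_false_eq_true, and_true, hℓ.dvd_mul, not_or] at hℓT
    obtain ⟨⟨hℓp, hℓM⟩, hℓΔ⟩ := hℓT
    exact hcong ℓ hℓ (fun h => hℓΔ (Int.natCast_dvd.1 h)) hℓM fun h => hℓp (h ▸ dvd_rfl)
  by_cases h3 : p = 3
  · subst h3
    obtain ⟨r, hr, hrT, hr3, hgood, hr12, hne⟩ :=
      Semistable.exists_aux_prime_twelve hΔ hW hirr T
    have hrM : ¬ r ∣ M := fun h => hrT (Nat.mem_primeFactors.2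
      ⟨hr, (h.mul_left 3).mul_right _, mul_ne_zero (mul_ne_zero (by norm_num) hM.pos.ne') hΔ'⟩)
    refine ⟨r, ?_, fun _ => ⟨r, hr, dvd_rfl, hr12⟩, fun q hq hqr => ?_, ?_⟩
    · exact (Nat.squarefree_mul ((hr.coprime_iff_not_dvd.2 hrM).symm)).2
        ⟨hM.squarefree, hr.squarefree⟩
    · obtain rfl := (Nat.prime_dvd_prime_iff_eq hq hr).1 hqr
      exact ⟨hr3, hgood, hne⟩
    · rw [hr.primeFactors, Finset.union_comm, ← Finset.insert_eq]
      exact hbase.mul_prime hr hrM hrT hne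
  · refine ⟨1, by rw [mul_one]; exact hM.squarefree, fun h => absurd h h3,
      fun q hq hq1 => absurd (Nat.eq_one_of_dvd_one hq1) hq.ne_one, ?_⟩
    rw [Nat.primeFactors_one, Finset.union_empty, mul_one]
    exact hbase

/-- **The patching data of a curve.** -/
theorem exists_base (hS29 : EigenformResidualRep) (h35 : BadPrime.NewformMultRep)
    (hΔ : W.Δ ≠ 0) (hW : W.IsSemistableModel) (hp2 : p ≠ 2) (hirr : W.ModRepIsIrreducible p)
    (hM : IsMinimalResidualLevel W p M)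
    (hall : ∀ q : ℕ, q.Prime → q ∣ M → q ≠ p → ResiduallyUnramifiedAt W p q →
      (q : ZMod p) = 1 ∨ (q : ZMod p) ^ 2 ≠ 1)
    (hflat : ¬ p ∣ M → ∀ (k : Type) [Field k] [Finite k] (ι : ZMod p →+* k),
      (GaloisRepAdic.ofResidualGaloisRep
        ((Residual.torsRep W p hΔ).baseChangeAlong ι)).IsFlatAt p)
    {q₀ : ℕ} (hq₀ : q₀.Prime) (hq₀M : q₀ ∣ M) (hq₀p : q₀ ≠ p)
    (hq₀u : ResiduallyUnramifiedAt W p q₀) (hq₀1 : (q₀ : ZMod p) = 1) :
    ∃ (O : Type) (_ : CommRing O) (_ : IsDomain O) (_ : IsDiscreteValuationRing O)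
      (_ : IsAdicComplete (maximalIdeal O) O) (_ : Finite (ResidueField O)) (_ : CharZero O)
      (B : Base O p) (m s : ℕ) (F : Frames B m s) (j₀ : Fin s),
      1 ≤ m ∧ (∃ ζ : O, IsPrimitiveRoot ζ (p ^ m)) ∧
      (∀ j, (F.FP.setup.kind j).isTwisted = true → ¬ p ^ (m + 1) ∣ F.FP.setup.n j - 1) ∧
      (F.FP.setup.kind j₀).isTwisted = true ∧ F.FP.setup.n j₀ = q₀ ∧
      levelCond B ∅ (GaloisRepAdic.ofResidualGaloisRep B.ρbar) ∧
      ∀ (V : Type) [CommRing V] [IsDomain V] (j : Fin s),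
        (F.FP.setup.kind j).isTwisted = true → ∀ z : V, z ^ F.FP.setup.n j = z →
        (∃ k : ℕ, z ^ p ^ k = 1) → z ^ p ^ m = 1 := by
  classical
  have hp : p.Prime := Fact.out
  have hM0 : M ≠ 0 := hM.pos.ne'
  have hΔ' : W.Δ.natAbs ≠ 0 := Int.natAbs_ne_zero.2 hΔ
  obtain ⟨r₀, hsf, hcover, hr₀, hsys⟩ := exists_auxLevel hS29 hΔ hW hp2 hirr hM
  have hr₀0 : r₀ ≠ 0 := fun h => hsf.ne_zero (by rw [h, mul_zero])
  haveI : NeZero (M * r₀) := ⟨hsf.ne_zero⟩
  set S := (p * M * W.Δ.natAbs).primeFactors ∪ r₀.primeFactors with hSdef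
  have hS : ∀ ℓ : ℕ, ℓ.Prime → ℓ ∉ S → ℓ ≠ p ∧ ¬ ℓ ∣ M ∧ W.IsGoodPrimeFor ℓ := by
    intro ℓ hℓ hℓS
    rw [hSdef, Finset.mem_union, not_or, Nat.mem_primeFactors] at hℓS
    simp only [hℓ, true_and, ne_eq, mul_eq_zero, hp.ne_zero, hM0, hΔ', or_self,
      not_false_eq_true, and_true, hℓ.dvd_mul, not_or] at hℓS
    obtain ⟨⟨⟨hℓp, hℓM⟩, hℓΔ⟩, -⟩ := hℓS
    exact ⟨fun h => hℓp (h ▸ dvd_rfl), hℓM, fun h => hℓΔ (Int.natCast_dvd.1 h)⟩
  have hpS : p ∈ S := Finset.mem_union_left _ (Nat.mem_primeFactors.2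
    ⟨hp, (dvd_mul_right p M).mul_right _, mul_ne_zero (mul_ne_zero hp.ne_zero hM0) hΔ'⟩)
  -- the coefficient ring
  set m := M.primeFactors.sup fun q => padicValNat p (q - 1) with hm
  obtain ⟨k, _, _, _, f, a₁, y₁, hy₁, hy₁eig, ha₁, ⟨e₂⟩⟩ := exists_eigenclass p hsys
  obtain ⟨O, iC, iD, iV, iA, iF, iZ, hpO, ⟨ζ₀, hζ₀⟩, ⟨g⟩⟩ := exists_coeffRing_of_finite p (m + 1) k
  have hp0 : (p : ResidueField O) = 0 := by
    rw [← map_natCast (residue O), residue_eq_zero_iff]
    exact hpO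
  haveI : CharP (ResidueField O) p := (CharP.charP_iff_prime_eq_zero hp).2 hp0
  set ζ : O := ζ₀ ^ p ^ m with hζdef
  have hζ : IsPrimitiveRoot ζ p := hζ₀.pow (pow_pos hp.pos _) (pow_succ p m)
  set ι : ZMod p →+* ResidueField O := ZMod.castHom dvd_rfl _
  obtain ⟨y, hy, hy_map⟩ := exists_eigenclass_map g hy₁
  have hyeig := fun ℓ : Nat.Primes => hy_map ℓ _ (hy₁eig ℓ)
  let a : Nat.Primes → ResidueField O := fun ℓ => g (a₁ ℓ)
  have ha : ∀ ℓ : Nat.Primes, (ℓ : ℕ) ∉ S → a ℓ = residualSystem W (ResidueField O) ℓ := by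
    intro ℓ hℓ
    show g (a₁ ℓ) = _
    rw [ha₁ ℓ hℓ, residualSystem, residualSystem, ← RingHom.comp_apply, map_intCast]
  set ρbar := (Residual.torsRep W p hΔ).baseChangeAlong ι with hρbar
  let bbar : Module.Basis (Fin 2) (ResidueField O) ρbar.V :=
    Module.finBasisOfFinrankEq _ _ ρbar.finrank_eq
  -- the twisted primes
  let P₀ := M.primeFactors.filter fun q =>
    q ≠ p ∧ ResiduallyUnramifiedAt W p q ∧ (q : ZMod p) = 1
  set N₀ := ∏ q ∈ P₀, q with hN₀
  have hN₀M : N₀ ∣ M := by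
    rw [← Nat.prod_primeFactors_of_squarefree hM.squarefree]
    exact Finset.prod_dvd_prod_of_subset _ _ _ (Finset.filter_subset _ _)
  have hN₀iff : ∀ q : ℕ, q.Prime → (q ∣ N₀ ↔
      q ∣ M ∧ q ≠ p ∧ ResiduallyUnramifiedAt W p q ∧ (q : ZMod p) = 1) := by
    intro q hq
    rw [hN₀, Prime.dvd_finsetProd_iff hq.prime]
    constructor
    · rintro ⟨r, hr, hqr⟩
      rw [Finset.mem_filter, Nat.mem_primeFactors] at hr
      obtain rfl := (Nat.prime_dvd_prime_iff_eq hq hr.1.1).1 hqr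
      exact ⟨hr.1.2.1, hr.2⟩
    · rintro ⟨hqM, h⟩
      exact ⟨q, Finset.mem_filter.2 ⟨Nat.mem_primeFactors.2 ⟨hq, hqM, hM0⟩, h⟩, dvd_rfl⟩
  obtain ⟨χ, hχp, hχ⟩ := exists_twistChar hζ (hM.squarefree.squarefree_of_dvd hN₀M)
    fun q hq hqN => (Nat.modEq_iff_dvd' hq.one_le).1 ((ZMod.natCast_eq_natCast_iff 1 q p).1
      (by rw [Nat.cast_one, ((hN₀iff q hq).1 hqN).2.2.2]))
  let B : Base O p :=
    { M₀ := M
      r₀ := r₀
      N₀ := N₀
      S := S
      a := a
      χ := χ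
      ρbar := ρbar
      bbar := bbar
      hp2 := hp2
      hpO := hpO
      squarefree := hsf
      N₀_dvd := hN₀M
      p_not_dvd := ⟨fun h => ((hN₀iff p hp).1 h).2.1 rfl, fun h => (hr₀ p hp h).1 rfl⟩
      p_mem := hpS
      level_mem := fun q hq hqd => by
        rcases hq.dvd_mul.1 hqd with h | h
        · exact Finset.mem_union_left _ (Nat.mem_primeFactors.2 ⟨hq,
            (h.mul_left p).mul_right _, mul_ne_zero (mul_ne_zero hp.ne_zero hM0) hΔ'⟩)
        · exact Finset.mem_union_right _ (Nat.mem_primeFactors.2 ⟨hq, h, hr₀0⟩)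
      cover := by
        by_cases h3 : p = 3
        · exact Or.inr (hcover h3)
        · left
          rw [← residue_ne_zero_iff_isUnit, map_ofNat]
          intro h
          have h24 : p ∣ 2 ^ 3 * 3 := (CharP.cast_eq_zero_iff (ResidueField O) p _).1
            (by exact_mod_cast h)
          rcases hp.dvd_mul.1 h24 with h' | h'
          · exact hp2 ((Nat.prime_dvd_prime_iff_eq hp Nat.prime_two).1 (hp.dvd_of_dvd_pow h'))
          · exact h3 ((Nat.prime_dvd_prime_iff_eq hp Nat.prime_three).1 h')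
      χ_pow := hχp
      χ_nontrivial := hχ
      absIrr := Residual.torsRep_baseChangeAlong_isAbsolutelyIrreducible hΔ hp2 hirr ι
      det := Residual.torsRep_baseChange_detIsCyclotomic hΔ ι
      idx2 := fun K _ _ G hG V hV => Residual.torsion_tw hΔ hW hp2 hirr ι K G hG V hV
      split := fun σ => by
        rw [hρbar, charpoly_baseChangeAlong]
        let b₀ := Module.finBasisOfFinrankEq (ZMod p) (Residual.torsRep W p hΔ).V
          (Residual.torsRep W p hΔ).finrank_eq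
        rw [← LinearMap.charpoly_toMatrix _ b₀, Matrix.charpoly_fin_two]
        simp only [Polynomial.map_sub, Polynomial.map_add, Polynomial.map_mul, Polynomial.map_pow,
          map_X, map_C]
        exact exists_roots_of_galoisField hp2 (g.comp e₂) ι _ _
      charpoly_frob := fun ℓ hℓ hℓS A hA σ hσ => by
        obtain ⟨hℓp, -, hgood⟩ := hS ℓ hℓ hℓS
        rw [ha ⟨ℓ, hℓ⟩ hℓS]
        exact torsRep_baseChange_charpoly_frob hΔ ι ⟨ℓ, hℓ⟩ hℓp hgood A hA σ hσ
      occurs := ⟨y, hy, hyeig⟩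
      nonEis := fun n hn S' => by
        obtain ⟨l, hl, hlS, -, -, hl1, -, hne⟩ :=
          Residual.exists_nonEisenstein_prime hΔ hp2 hirr hn (S' ∪ S)
        rw [Finset.mem_union, not_or] at hlS
        refine ⟨⟨l, hl⟩, hlS.1, hl1, fun h => hne (ι.injective ?_)⟩
        rw [ha ⟨l, hl⟩ hlS.2, residualSystem] at h
        simpa using h
      minimal := fun V _ _ _ _ _ _ _ _ S' L _ c hSS hL hc hres => by
        refine hM.dvd_of_isNewformSystem hS29 h35 hΔ hp2 hirr hsf hr₀ (V := V) ?_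
          (fun ℓ hℓ hℓL => hSS ?_) hL hc fun ℓ hℓ => ?_
        · rw [← map_natCast (algebraMap O V)]
          exact map_nonunit _ _ hpO
        · rcases hℓ.dvd_mul.1 (hℓL.trans hL) with h | h
          · exact Finset.mem_union_left _ (Nat.mem_primeFactors.2 ⟨hℓ,
              (h.mul_left p).mul_right _, mul_ne_zero (mul_ne_zero hp.ne_zero hM0) hΔ'⟩)
          · exact Finset.mem_union_right _ (Nat.mem_primeFactors.2 ⟨hℓ, h, hr₀0⟩)
        · rw [hres ℓ hℓ, ha ℓ fun h => hℓ (hSS h), residualSystem, residualSystem, map_intCast]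
      old := fun q hq hqr => by
        obtain ⟨hqp, hgood, hne⟩ := hr₀ q hq hqr
        refine ⟨torsRep_baseChange_isUnramifiedAt hΔ ι
          (residuallyUnramifiedAt_of_good hΔ hq hqp hgood), fun A hA σ hσ h => hne (ι.injective ?_)⟩
        have htr : LinearMap.trace (ResidueField O) ρbar.V (ρbar.ρ σ) =
            ι (W.apOfModel q : ZMod p) := by
          letI : Algebra (ZMod p) (ResidueField O) := ι.toAlgebra
          rw [← Residual.trace_torsRep_frobenius hΔ hq hqp hgood hA hσ]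
          exact LinearMap.trace_baseChange _ _
        rw [htr] at h
        simpa using h
      ord := fun h => torsRep_baseChange_isStrictOrdinaryAt hΔ ι hW (hM.mult_of_dvd h) }
  -- the places
  let J := {q : ℕ // q ∈ M.primeFactors.erase p}
  have hJ : ∀ j : J, (j : ℕ).Prime ∧ (j : ℕ) ≠ p ∧ (j : ℕ) ∣ M := fun j => by
    have h := Finset.mem_erase.1 j.2
    exact ⟨Nat.prime_of_mem_primeFactors h.2, h.1, Nat.dvd_of_mem_primeFactors h.2⟩
  let e : Fin (Fintype.card J) ≃ J := (Fintype.equivFin J).symm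
  choose T κ G htw htwd hst hsp hF0 hF1 using fun j => exists_localFrame hΔ hW ι bbar hS29 h35 hp2
    hirr hM (hJ (e j)).1 (hJ (e j)).2.1 (hJ (e j)).2.2
    (hall _ (hJ (e j)).1 (hJ (e j)).2.2 (hJ (e j)).2.1)
  let FP : FramePlaces O p m (Fintype.card J) :=
    { setup :=
        { kind := κ
          n := fun j => ((e j : J) : ℕ)
          twisted := htwd
          steinberg := hst
          special := hsp }
      el := fun j => ![(T j).F, (T j).σ]
      G := G }
  let F : Frames B m (Fintype.card J) :=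
    { FP := FP
      T := T
      inj := fun i j h => e.injective (Subtype.ext h)
      cover := fun q => by
        constructor
        · rintro ⟨hq, hqp, hqM⟩
          exact ⟨e.symm ⟨q, Finset.mem_erase.2 ⟨hqp, Nat.mem_primeFactors.2 ⟨hq, hqM, hM0⟩⟩⟩,
            by simp [FP]⟩
        · rintro ⟨j, rfl⟩
          exact hJ (e j)
      twisted_iff := fun j => by
        rw [show (FP.setup.kind j) = κ j from rfl, htw, hN₀iff _ (hJ (e j)).1]
        exact ⟨fun h => ⟨(hJ (e j)).2.2, (hJ (e j)).2.1, h⟩, fun h => h.2.2⟩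
      el_zero := fun j => rfl
      el_one := fun j => rfl
      resTame := fun j τ hτ =>
        ⟨1, torsRep_baseChange_inertia_pow hΔ ι hW (hJ (e j)).1 (hJ (e j)).2.1 (T j).hA hτ⟩
      lift0_residual := fun j i => by
        fin_cases i
        · exact hF0 j
        · exact hF1 j }
  let j₀ : Fin (Fintype.card J) :=
    e.symm ⟨q₀, Finset.mem_erase.2 ⟨hq₀p, Nat.mem_primeFactors.2 ⟨hq₀, hq₀M, hM0⟩⟩⟩
  have hj₀ : ((e j₀ : J) : ℕ) = q₀ := by simp [j₀]
  have hle : ∀ q : ℕ, q.Prime → q ∣ M → padicValNat p (q - 1) ≤ m := fun q hq hqM =>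
    Finset.le_sup (f := fun q => padicValNat p (q - 1)) (Nat.mem_primeFactors.2 ⟨hq, hqM, hM0⟩)
  have hm1 : 1 ≤ m := by
    have hd : p ∣ q₀ - 1 := (Nat.modEq_iff_dvd' hq₀.one_le).1
      ((ZMod.natCast_eq_natCast_iff 1 q₀ p).1 (by rw [Nat.cast_one, hq₀1]))
    have hne : q₀ - 1 ≠ 0 := by
      have := hq₀.two_le
      omega
    exact ((padicValNat_dvd_iff_le hne).1 (by rw [pow_one]; exact hd)).trans (hle q₀ hq₀ hq₀M)
  refine ⟨O, iC, iD, iV, iA, iF, iZ, B, m, _, F, j₀, hm1,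
    ⟨ζ₀ ^ p, hζ₀.pow (pow_pos hp.pos _) (pow_succ' p m)⟩, fun j _ h => ?_, (htw j₀).2 ?_, hj₀,
    ⟨B.det, fun h => hflat h _ ι, B.ord, fun q hq hqp hqM _ => ?_⟩, ?_⟩
  · obtain ⟨hq, -, hqM⟩ := hJ (e j)
    have hne : ((e j : J) : ℕ) - 1 ≠ 0 := by
      have := hq.two_le
      omega
    exact Nat.not_succ_le_self m (((padicValNat_dvd_iff_le hne).1 h).trans (hle _ hq hqM))
  · rw [hj₀]
    exact ⟨hq₀u, hq₀1⟩
  · intro A hA σ hσ
    have hu : ResiduallyUnramifiedAt W p q := by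
      by_contra h
      exact hqM (hM.dvd_of_ramified hΔ hS29 hp2 hirr hq hqp h)
    exact torsRep_baseChange_isUnramifiedAt hΔ ι hu A hA σ hσ
  · intro V _ _ j _ z hzn hzk
    obtain ⟨k', hk'⟩ := hzk
    obtain ⟨hq, -, hqM⟩ := hJ (e j)
    have hz0 : z ≠ 0 := fun h => by
      rw [h, zero_pow (pow_ne_zero _ hp.ne_zero)] at hk'
      exact zero_ne_one hk'
    have hz1 : z ^ (((e j : J) : ℕ) - 1) = 1 := by
      have h : z ^ (((e j : J) : ℕ) - 1) * z = 1 * z := by
        rw [← pow_succ, Nat.sub_add_cancel hq.one_le, one_mul]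
        exact hzn
      exact mul_right_cancel₀ hz0 h
    obtain ⟨i, -, hi⟩ := (Nat.dvd_prime_pow hp).1 (orderOf_dvd_of_pow_eq_one hk')
    have hdiv : p ^ i ∣ ((e j : J) : ℕ) - 1 := hi ▸ orderOf_dvd_of_pow_eq_one hz1
    have hne : ((e j : J) : ℕ) - 1 ≠ 0 := by
      have := hq.two_le
      omega
    have him : i ≤ m := ((padicValNat_dvd_iff_le hne).1 hdiv).trans
      (Finset.le_sup (f := fun q => padicValNat p (q - 1))
        (Nat.mem_primeFactors.2 ⟨hq, hqM, hM0⟩))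
    exact orderOf_dvd_iff_pow_eq_one.1 (hi ▸ pow_dvd_pow p him)

end Fermat.Agent.RT.Assembly

end
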