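import Fermat.Agent.RT.Assembly.Context
import Fermat.Agent.RT.TW.ResidualClass
import Fermat.Agent.RT.TW.EigenLift
import Fermat.Agent.Galois.Frobenius
import Fermat.Agent.Density.Transfer
import Fermat.Agent.RT.FreyResidual
import Fermat.Agent.RT.ResidualExtend

/-!
# Minimality excludes old systems (PATCH part 2)

A class in a system at a level with a prime of `M₀` removed gives a residual class with trivial
nebentypus, hence by Deligne–Serre a newform system of level dividing that level; the auxiliary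
primes cannot divide its level, against the minimality of `M₀`.
-/

set_option autoImplicit false

noncomputable section

open IsLocalRing Polynomial

namespace Fermat.Agent.RT.Assembly

open TW

local notation "ℚ̄" => AlgebraicClosure ℚ
local notation "Γℚ" => (AlgebraicClosure ℚ ≃ₐ[ℚ] AlgebraicClosure ℚ)

variable {O : Type} [CommRing O] [IsDomain O] [IsDiscreteValuationRing O]
  [IsAdicComplete (maximalIdeal O) O] [Finite (ResidueField O)] [CharZero O]
  {p : ℕ} [Fact p.Prime] {B : Base O p} {r n : ℕ}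

omit [Fact p.Prime] in
theorem twistGroup_pow_eq_one {e : Fin r → ℕ} (g : TwistGroup p e) :
    g ^ p ^ (∑ i, e i) = 1 := by
  refine Multiplicative.toAdd.injective (funext fun i => ?_)
  rw [toAdd_pow, toAdd_one, Pi.smul_apply, nsmul_eq_mul]
  have : ((p ^ (∑ j, e j) : ℕ) : ZMod (p ^ e i)) = 0 :=
    (ZMod.natCast_eq_zero_iff _ _).2
      (pow_dvd_pow p (Finset.single_le_sum (fun j _ => Nat.zero_le _) (Finset.mem_univ i)))
  rw [this, zero_mul]
  rfl

/-- The twists are residually trivial. -/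
theorem residue_tautTwist (Lv : Level B r n) {χ' : MulChar (ZMod B.N₀) O}
    (hχ' : χ' = B.χ ∨ χ' = 1) {V : Type} [CommRing V] [IsLocalRing V]
    [Algebra O V] [IsLocalHom (algebraMap O V)] (ξ : Lv.Λ →ₐ[O] V) (u : (ZMod Lv.N)ˣ) :
    residue V ((Lv.θ χ').ringHomComp ξ.toRingHom u) = 1 := by
  have hp : p.Prime := Fact.out
  have hpk : (p : ResidueField V) = 0 := by
    rw [← map_natCast (residue V), ← map_natCast (algebraMap O V), residue_eq_zero_iff]
    exact map_nonunit _ _ B.hpO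
  have : CharP (ResidueField V) p := (CharP.charP_iff_prime_eq_zero hp).2 hpk
  set w := residue V ((Lv.θ χ').ringHomComp ξ.toRingHom u) with hw
  have hw1 : w ^ p ^ (∑ i, Lv.e i + 1) = 1 := by
    rw [hw, ← map_pow, MulChar.ringHomComp_apply, Level.θ, tautTwist_apply, ← map_pow, mul_pow,
      ← map_pow, ← map_pow (MonoidAlgebra.of O (TwistGroup p Lv.e))]
    rw [show χ' (ZMod.unitsMap Lv.twistData.dvd_right u : ZMod B.N₀) ^ p ^ (∑ i, Lv.e i + 1) = 1
      from ?_, show twistKappa Lv.twistData u ^ p ^ (∑ i, Lv.e i + 1) = 1 from ?_, map_one, map_one,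
      one_mul, map_one, map_one]
    · rw [pow_succ, pow_mul, twistGroup_pow_eq_one, one_pow]
    · rcases hχ' with rfl | rfl
      · rw [pow_succ', pow_mul, B.χ_pow, one_pow]
      · rw [MulChar.one_apply_coe, one_pow]
  rw [← iterateFrobenius_def, ← (iterateFrobenius (ResidueField V) p _).map_one] at hw1
  exact iterateFrobenius_inj (ResidueField V) p _ hw1

theorem isUnit_two_of_mem {R : Type} [CommRing R] [IsLocalRing R] (hp : p ≠ 2)
    (hpR : (p : R) ∈ maximalIdeal R) : IsUnit (2 : R) := by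
  by_contra h
  obtain ⟨k, hk⟩ := ((Fact.out : p.Prime).odd_of_ne_two hp)
  have h1 : (p : R) - 2 * (k : R) ∈ maximalIdeal R := sub_mem hpR (Ideal.mul_mem_right _ _ h)
  rw [hk, Nat.cast_add, Nat.cast_mul, Nat.cast_ofNat, Nat.cast_one, add_sub_cancel_left] at h1
  exact (maximalIdeal.isMaximal R).ne_top ((Ideal.eq_top_iff_one _).mpr h1)

/-- A newform system congruent to the residual one does not have an auxiliary prime exactly once
in its level. -/
theorem not_dvd_of_residual (inputs : LocalInputs p) (Lv : Level B r n) (i : Fin r) {V : Type}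
    [CommRing V] [IsDomain V] [IsDiscreteValuationRing V] [IsAdicComplete (maximalIdeal V) V]
    [Finite (ResidueField V)] [CharZero V] [Algebra O V] [IsLocalHom (algebraMap O V)]
    {L' : ℕ} [NeZero L'] {c : Nat.Primes → V} (hc : IsNewformSystem Lv.S' L' c)
    (hS : ∀ q : ℕ, q.Prime → q ∣ L' → q ∈ Lv.S')
    (hres : ∀ ℓ : Nat.Primes, (ℓ : ℕ) ∉ Lv.S' →
      residue V (c ℓ) = ResidueField.map (algebraMap O V) (B.a ℓ))
    (hone : L'.factorization (Lv.qv i) ≤ 1) : ¬ (Lv.qv i : ℕ) ∣ L' := by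
  intro hd
  set j : ResidueField O →+* ResidueField V := ResidueField.map (algebraMap O V)
  set q : ℕ := (Lv.qv i : ℕ) with hqdef
  have hq : q.Prime := (Lv.qv i).2
  have hpV : (p : V) ∈ maximalIdeal V := by
    rw [← map_natCast (algebraMap O V)]
    exact map_nonunit _ _ B.hpO
  have hfrob : ∀ (ℓ : ℕ) (hℓ : ℓ.Prime), ℓ ∉ B.S → ∀ A : ValuationSubring ℚ̄,
      A.LiesOverPrime ℓ → ∀ σ : Γℚ, A.IsFrobeniusAt σ ℓ →
        LinearMap.charpoly ((B.ρbar.baseChangeAlong j).ρ σ) =
          X ^ 2 - C (j (B.a ⟨ℓ, hℓ⟩)) * X + C (ℓ : ResidueField V) := fun ℓ hℓ hℓS A hA σ hσ => by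
    rw [charpoly_baseChangeAlong, B.charpoly_frob ℓ hℓ hℓS A hA σ hσ]
    simp
  obtain ⟨ρ, hρ⟩ := exists_localPoint B.hp2 hpV (Finset.mem_union_left _ B.p_mem) hS inputs hc
    (B.ρbar.baseChangeAlong j) (isAbsolutelyIrreducible_baseChangeAlong j _ B.absIrr)
    fun ℓ hℓ hℓS A hA σ hσ => by
      rw [hfrob ℓ hℓ (fun h => hℓS (Finset.mem_union_left _ h)) A hA σ hσ, ← hres ⟨ℓ, hℓ⟩ hℓS]
  have hqp : q ≠ p := fun h => Lv.not_mem i (by rw [← hqdef, h]; exact B.p_mem)
  have hq2 : ¬ q ^ 2 ∣ L' := fun h => by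
    have := (hq.pow_dvd_iff_le_factorization (NeZero.ne L')).1 h
    omega
  obtain ⟨A, σ, hA, hσ⟩ := Galois.exists_valuationSubring_isFrobeniusAt hq
  have hcp : (LinearMap.charpoly (ρ.ρ σ)).map (residue V) =
      X ^ 2 - C (j (B.a (Lv.qv i))) * X + C (q : ResidueField V) := by
    refine Eq.trans ?_ (hfrob q hq (Lv.not_mem i) A hA σ hσ)
    rw [Density.residual_charpoly_eq_of_isEquiv hρ.residual_isEquiv σ]
    show _ = LinearMap.charpoly ((ρ.ρ σ).baseChange (ResidueField V))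
    rw [LinearMap.charpoly_baseChange]
    rfl
  have hqO : (q : ResidueField O) = 1 := by
    obtain ⟨k, hk⟩ := dvd_trans (dvd_pow_self p (Lv.pos_e i).ne') (Lv.dvd_sub i)
    have hk' : q = p * k + 1 := by have := hq.one_lt; rw [← hqdef] at hk; omega
    have hp0 : (p : ResidueField O) = 0 := by
      rw [← map_natCast (residue O), residue_eq_zero_iff]
      exact B.hpO
    rw [hk', Nat.cast_add, Nat.cast_mul, hp0, zero_mul, zero_add, Nat.cast_one]
  have hα := Lv.root i
  refine Lv.distinct i ?_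
  rcases hρ.steinberg q hq hqp hd hq2 A hA σ hσ with h | h <;> rw [h] at hcp
  · have e := congrArg (fun P => P.coeff 1) hcp
    simp at e
    have ha : B.a (Lv.qv i) = 2 := j.injective (by
      rw [map_ofNat]
      have := congrArg j hqO
      rw [map_natCast, map_one] at this
      rw [this] at e
      linear_combination e)
    rw [ha] at hα
    have : (Lv.α i - 1) * (Lv.α i - 1) = 0 := by linear_combination hα
    rw [sub_eq_zero.1 (mul_self_eq_zero.1 this), one_mul]
  · have e := congrArg (fun P => P.coeff 1) hcp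
    simp at e
    have ha : B.a (Lv.qv i) = -2 := j.injective (by
      rw [map_neg, map_ofNat]
      have := congrArg j hqO
      rw [map_natCast, map_one] at this
      rw [this] at e
      linear_combination e)
    rw [ha] at hα
    have : (Lv.α i + 1) * (Lv.α i + 1) = 0 := by linear_combination hα
    rw [eq_neg_of_add_eq_zero_left (mul_self_eq_zero.1 this), neg_mul_neg, one_mul]

/-- No system congruent to the residual one occurs with a prime of `M₀` removed from the level. -/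
theorem noOldAt (inputs : LocalInputs p) (Lv : Level B r n) {χ' : MulChar (ZMod B.N₀) O}
    (hχ' : χ' = B.χ ∨ χ' = 1) {V : Type} [CommRing V] [IsDomain V] [IsDiscreteValuationRing V]
    [IsAdicComplete (maximalIdeal V) V] [Finite (ResidueField V)] [CharZero V] [Algebra O V]
    [IsLocalHom (algebraMap O V)] (ξ : Lv.Λ →ₐ[O] V) (c : Nat.Primes → V)
    (hc : ∀ ℓ : Nat.Primes, (ℓ : ℕ) ∉ Lv.S' →
      residue V (c ℓ) = ResidueField.map (algebraMap O V) (B.a ℓ))
    {q : ℕ} (hq : q.Prime) (hqM : q ∣ B.M₀) :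
    NoOldAt ((Lv.θ χ').ringHomComp ξ.toRingHom) Lv.S' c Lv.L q := by
  intro N' hN' θ' hθ' h
  rw [eq_bot_iff]
  intro y hy
  rw [Submodule.mem_bot]
  by_contra hy0
  rw [mem_twSystem_iff] at hy
  obtain ⟨M₁, hM₁⟩ := hqM
  set M := Lv.L / q with hMdef
  have hLM : Lv.L = q * M := by
    rw [hMdef, Nat.mul_div_cancel']
    exact ((Dvd.intro M₁ hM₁.symm).mul_right _).mul_right _
  have hM : M = M₁ * B.r₀ * ∏ i, (Lv.qv i : ℕ) := by
    refine Nat.eq_of_mul_eq_mul_left hq.pos (hLM.symm.trans ?_)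
    rw [Level.L, hM₁]; ring
  have : NeZero M := ⟨fun h0 => Lv.L_ne_zero (by rw [hLM, h0, mul_zero])⟩
  have hML : M ∣ Lv.L := hLM ▸ dvd_mul_left M q
  have hNL : N' ∣ Lv.N := hN'
  -- the residual values of the twist
  have hθ1 : ∀ a : ZMod N', IsUnit a → residue V (θ' a) = 1 := by
    rintro _ ⟨a, rfl⟩
    obtain ⟨u, rfl⟩ := ZMod.unitsMap_surjective hN' a
    rw [ZMod.unitsMap_val, ← DirichletCharacter.changeLevel_eq_cast_of_dvd θ' hN', hθ']
    exact residue_tautTwist Lv hχ' ξ u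
  have hS' : ∀ l : ℕ, l.Prime → l ∣ Lv.L → l ∈ Lv.S' := fun l hl hd => by
    rcases hl.dvd_mul.1 hd with hd | hd
    · exact Finset.mem_union_left _ (B.level_mem l hl hd)
    · obtain ⟨i, -, hi⟩ := (Prime.dvd_finsetProd_iff hl.prime _).1 hd
      exact Finset.mem_union_right _ (Finset.mem_image.2
        ⟨i, Finset.mem_univ i, ((Nat.prime_dvd_prime_iff_eq hl (Lv.qv i).2).1 hi).symm⟩)
  have hunit : ∀ ℓ : Nat.Primes, (ℓ : ℕ) ∉ Lv.S' → IsUnit ((ℓ : ℕ) : ZMod N') := fun ℓ hℓ =>
    (ZMod.isUnit_iff_coprime _ _).2 (ℓ.2.coprime_iff_not_dvd.2 fun hd =>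
      hℓ (hS' _ ℓ.2 (hd.trans (h.trans hML))))
  have hy' : ∀ ℓ : Nat.Primes, (ℓ : ℕ) ∉ Lv.S' →
      heckeOp (neben θ') h ℓ y = (θ' ((ℓ : ℕ) : ZMod N') * c ℓ) • y := fun ℓ hℓ => by
    have e := hy ℓ hℓ
    rw [twOp, LinearMap.smul_apply] at e
    rw [mul_smul, ← e, smul_smul, Ring.mul_inverse_cancel _ ((hunit ℓ hℓ).map θ'), one_smul]
  -- a non-Eisenstein prime
  obtain ⟨ℓ₀, hℓ₀, h1, hne⟩ := B.nonEis (Lv.L * Lv.N)
    (mul_ne_zero Lv.L_ne_zero Lv.N_ne_zero) Lv.S'
  have h1N : ((ℓ₀ : ℕ) : ZMod N') = 1 := by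
    rw [← map_natCast (ZMod.castHom (hNL.trans (dvd_mul_left _ Lv.L)) (ZMod N')), h1, map_one]
  have hu : IsUnit (θ' ((ℓ₀ : ℕ) : ZMod N') * c ℓ₀ - eisensteinValue (neben θ') M ℓ₀) := by
    rw [← residue_ne_zero_iff_isUnit, eisensteinValue,
      if_neg fun hd => hℓ₀ (hS' _ ℓ₀.2 (hd.trans hML)), h1N, map_one, map_one, one_mul, map_sub,
      hc _ hℓ₀, sub_ne_zero, map_add, map_natCast, map_one]
    intro he
    exact hne ((ResidueField.map (algebraMap O V)).injective (by simpa using he))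
  obtain ⟨z, hz0, hz⟩ := exists_residual_class h Lv.S' (fun ℓ => θ' ((ℓ : ℕ) : ZMod N') * c ℓ)
    hℓ₀ hu hy' hy0
  let eq1 := changeModulus (Φ := (1 : MulChar (ZMod 1) V).ringHomComp (residue V)) (one_dvd M) h
    (Φ' := (neben θ').ringHomComp (residue V)) fun a ha => by
      rw [MulChar.ringHomComp_apply, MulChar.ringHomComp_apply, MulChar.pow_apply' _ two_ne_zero,
        map_pow, hθ1 _ ha, one_pow, MulChar.one_apply (isUnit_of_subsingleton _), map_one]
  have hcov : CoverHyp V M := by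
    rcases B.cover with h24 | ⟨q₁, hq₁, hq₁r, h12⟩
    · exact Or.inl ((map_ofNat (algebraMap O V) 24) ▸ h24.map (algebraMap O V))
    · refine Or.inr ⟨isUnit_two_of_mem B.hp2 ?_, Or.inr ⟨q₁, hq₁, ?_, h12⟩⟩
      · rw [← map_natCast (algebraMap O V)]
        exact map_nonunit _ _ B.hpO
      · rw [hM]
        exact (hq₁r.mul_left _).mul_right _
  obtain ⟨V', i1, i2, i3, i4, i5, i6, i7, i8, c', y', hy'0, hyc, hres⟩ :=
    exists_eigen_lift (one_dvd M) hcov Lv.S' (fun ℓ => residue V (θ' ((ℓ : ℕ) : ZMod N') * c ℓ))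
      (z := eq1 z) (fun h0 => hz0 (eq1.map_eq_zero_iff.1 h0))
      fun ℓ hℓ => by rw [← changeModulus_heckeOp, hz ℓ hℓ, map_smul]
  let i9 : Algebra O V' := ((algebraMap V V').comp (algebraMap O V)).toAlgebra
  have i10 : IsLocalHom (algebraMap O V') := ⟨fun x hx =>
    IsLocalHom.map_nonunit (f := algebraMap O V) x (IsLocalHom.map_nonunit (f := algebraMap V V') _ hx)⟩
  have hres' : ∀ ℓ : Nat.Primes, (ℓ : ℕ) ∉ Lv.S' →
      residue V' (c' ℓ) = ResidueField.map (algebraMap O V') (B.a ℓ) := fun ℓ hℓ => by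
    rw [hres ℓ hℓ, map_mul (residue V), hθ1 _ (hunit ℓ hℓ), one_mul, hc ℓ hℓ]
    obtain ⟨a, ha⟩ := residue_surjective (B.a ℓ)
    rw [← ha]
    rfl
  -- the newform
  let eq2 := changeModulus (A := V') (Φ := neben (1 : MulChar (ZMod 1) V')) (one_dvd M) (one_dvd M)
    (Φ' := (1 : MulChar (ZMod 1) V')) fun a _ => by rw [neben, one_pow]
  have hsq : Squarefree M := by
    have hL : Squarefree Lv.L := by
      rw [Level.L, Nat.squarefree_mul_iff]
      refine ⟨Nat.Coprime.prod_right fun i _ => ?_, B.squarefree, ?_⟩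
      · exact ((Lv.qv i).2.coprime_iff_not_dvd.2 fun hd =>
          Lv.not_mem i (B.level_mem _ (Lv.qv i).2 hd)).symm
      · refine Finset.squarefree_prod_of_pairwise_isCoprime (fun i _ i' _ hii' => ?_)
          fun i _ => (Lv.qv i).2.prime.squarefree
        exact Nat.coprime_iff_isRelPrime.1 ((Nat.coprime_primes (Lv.qv i).2 (Lv.qv i').2).2
          fun e => hii' (Lv.inj (Subtype.ext e)))
    exact hL.squarefree_of_dvd hML
  obtain ⟨L', _, hex, hnew⟩ := exists_exactNewform (one_dvd M) hsq (1 : MulChar (ZMod 1) V')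
    (fun u => ⟨1, odd_one, by rw [pow_one, MulChar.one_apply_coe]⟩) Lv.S'
    (fun l hl hd => hS' l hl (hd.trans hML)) c' (by
      obtain ⟨ℓ, hℓS, hℓ1, hℓne⟩ := B.nonEis (M * 1) (by simpa using NeZero.ne M) Lv.S'
      refine ⟨ℓ, hℓS, hℓ1, fun he => hℓne
        ((ResidueField.map (algebraMap O V')).injective ?_)⟩
      rw [← hres' ℓ hℓS, he, map_add, map_natCast, map_one, map_add, map_natCast, map_one])
    (y := eq2 y') (mem_twSystem_iff.2 fun ℓ hℓ => by
      rw [twOp, MulChar.one_apply (isUnit_of_subsingleton _), Ring.inverse_one, one_smul,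
        ← changeModulus_heckeOp, hyc ℓ hℓ, map_smul])
    fun a ha h0 => hy'0 a ha (eq2.map_eq_zero_iff.1 (by rw [map_smul]; exact h0))
  have hL'M : L' ∣ M := by simpa using hex.dvd
  have haux : ∀ i, ¬ (Lv.qv i : ℕ) ∣ L' := fun i =>
    not_dvd_of_residual inputs Lv i hnew (fun l hl hd => hS' l hl ((hd.trans hL'M).trans hML)) hres'
      (hex.le_one _ (Lv.qv i).2 fun hnt => (Lv.qv i).2.ne_one (Nat.dvd_one.1 hnt.1))
  have hL'1 : L' ∣ M₁ * B.r₀ := by
    refine Nat.Coprime.dvd_of_dvd_mul_right (Nat.Coprime.prod_right fun i _ => ?_) (hM ▸ hL'M)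
    exact ((Lv.qv i).2.coprime_iff_not_dvd.2 (haux i)).symm
  have hmin := B.minimal V' Lv.S' L' c' Finset.subset_union_left
    (hL'1.trans (mul_dvd_mul_right (Dvd.intro_left q hM₁.symm) _)) hnew hres'
  have hqd : q ∣ M₁ * B.r₀ := (Dvd.intro M₁ hM₁.symm).trans (hmin.trans hL'1)
  refine hq.ne_one (Nat.isUnit_iff.1 (B.squarefree q ?_))
  rw [hM₁, mul_assoc]
  exact mul_dvd_mul_left q hqd

end Fermat.Agent.RT.Assembly

end
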