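import Fermat.Prelude.Thm_IsLocalRing_isAdicComplete_of_module_finite
import Fermat.Agent.RT.Assembly.Context
import Mathlib.LinearAlgebra.Matrix.Charpoly.Coeff

/-!
# The ring generated by the operators of a family of Hecke models of one level

`heckeRing m` is the algebra over the group ring of the diamond operators generated by the tuples
of operators at the good primes. It is finite, free, local and complete over `O`, with residual
eigenvalues those of the base.
-/

set_option autoImplicit false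
set_option linter.style.haveILetI false

noncomputable section

open IsLocalRing

namespace Fermat.Agent.RT.Assembly

open Diamond

variable {O : Type} [CommRing O] [IsDomain O] [IsDiscreteValuationRing O]
  [IsAdicComplete (maximalIdeal O) O] [Finite (ResidueField O)] [CharZero O]
  {p : ℕ} [Fact p.Prime] {B : Base O p} {r n : ℕ} {Lv : Level B r n}
  {J : Type} {χ : J → MulChar (ZMod B.N₀) O} {D : J → ℕ}

/-- The good primes of a level. -/
abbrev GoodPrimeAt (Lv : Level B r n) : Type := {ℓ : Nat.Primes // (ℓ : ℕ) ∉ Lv.S'}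

/-- The ambient algebra of a family of models. -/
abbrev ModelMat (Lv : Level B r n) (D : J → ℕ) : Type :=
  ∀ j, Matrix (Fin (D j)) (Fin (D j)) Lv.Λ

/-- The tuple of operators at a good prime. -/
def opTuple (m : ∀ j, HeckeModel Lv (χ j) (D j)) (ℓ : GoodPrimeAt Lv) : ModelMat Lv D :=
  fun j => (m j).op ℓ.1

theorem opTuple_commute (m : ∀ j, HeckeModel Lv (χ j) (D j)) (ℓ ℓ' : GoodPrimeAt Lv) :
    Commute (opTuple m ℓ) (opTuple m ℓ') :=
  funext fun j => (m j).comm ℓ.1 ℓ'.1

/-- The algebra generated by the operators over the group ring. -/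
def heckeRing (m : ∀ j, HeckeModel Lv (χ j) (D j)) : Subalgebra Lv.Λ (ModelMat Lv D) :=
  Algebra.adjoin Lv.Λ (Set.range (opTuple m))

instance heckeRing.instIsMulCommutative (m : ∀ j, HeckeModel Lv (χ j) (D j)) :
    IsMulCommutative (heckeRing m) :=
  Algebra.isMulCommutative_adjoin Lv.Λ (by
    rintro _ ⟨a, rfl⟩ _ ⟨b, rfl⟩
    exact opTuple_commute m a b)

open scoped IsMulCommutative in
instance heckeRing.instCommRing (m : ∀ j, HeckeModel Lv (χ j) (D j)) :
    CommRing (heckeRing m) := inferInstance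

variable (m : ∀ j, HeckeModel Lv (χ j) (D j))

namespace heckeRing

/-- The operator at a good prime. -/
def T (ℓ : GoodPrimeAt Lv) : heckeRing m :=
  ⟨opTuple m ℓ, Algebra.subset_adjoin (Set.mem_range_self ℓ)⟩

/-- The component at `j`. -/
def proj (j : J) : heckeRing m →ₐ[O] Matrix (Fin (D j)) (Fin (D j)) Lv.Λ :=
  (Pi.evalAlgHom O (fun j => Matrix (Fin (D j)) (Fin (D j)) Lv.Λ) j).comp
    ((heckeRing m).val.restrictScalars O)

/-- The diamond operators. -/
def lam : Lv.Λ →ₐ[O] heckeRing m := IsScalarTower.toAlgHom O Lv.Λ (heckeRing m)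

theorem proj_lam (j : J) (c : Lv.Λ) : proj m j (lam m c) = Matrix.scalar (Fin (D j)) c := rfl

theorem proj_T (j : J) (ℓ : GoodPrimeAt Lv) : proj m j (T m ℓ) = (m j).op ℓ.1 := rfl

theorem eq_zero_of_proj {x : heckeRing m} (h : ∀ j, proj m j x = 0) : x = 0 :=
  Subtype.ext (funext h)

variable [Finite J]

instance finite : Module.Finite O (heckeRing m) := by
  haveI : Module.Finite O Lv.Λ := Module.Finite.of_basis (MonoidAlgebra.basis _ O)
  haveI : Module.Finite O (ModelMat Lv D) := Module.Finite.pi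
  exact Module.Finite.of_injective ((heckeRing m).val.toLinearMap.restrictScalars O)
    Subtype.val_injective

instance free : Module.Free O (heckeRing m) := by
  haveI : Module.Finite O Lv.Λ := Module.Finite.of_basis (MonoidAlgebra.basis _ O)
  haveI : Module.Free O Lv.Λ := Module.Free.of_basis (MonoidAlgebra.basis _ O)
  haveI : Module.Free O (ModelMat Lv D) := inferInstance
  haveI : Module.IsTorsionFree O (heckeRing m) :=
    Subtype.val_injective.moduleIsTorsionFree ((heckeRing m).val.toLinearMap.restrictScalars O)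
      (fun _ _ => rfl)
  exact Module.free_of_finite_type_torsion_free'

section Maximal

variable (𝔪 : Ideal (heckeRing m)) [h𝔪 : 𝔪.IsMaximal]

theorem comap_maximal : 𝔪.comap (algebraMap O (heckeRing m)) = maximalIdeal O :=
  haveI : Algebra.IsIntegral O (heckeRing m) := Algebra.IsIntegral.of_finite _ _
  eq_maximalIdeal (Ideal.isMaximal_comap_of_isIntegral_of_isMaximal 𝔪)

theorem algebraMap_mem {o : O} (ho : o ∈ maximalIdeal O) :
    algebraMap O (heckeRing m) o ∈ 𝔪 := by
  rw [← Ideal.mem_comap, comap_maximal]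
  exact ho

theorem lam_sub_aug_mem (c : Lv.Λ) :
    lam m c - algebraMap O (heckeRing m) (aug O (ppow p Lv.e) c) ∈ 𝔪 := by
  have hp : p.Prime := Fact.out
  have hdel : ∀ i, lam m (delta O (N := ppow p Lv.e) i - 1) ∈ 𝔪 := by
    intro i
    have : CharP (heckeRing m ⧸ 𝔪) p := by
      have hfield := Ideal.Quotient.field 𝔪
      refine (CharP.charP_iff_prime_eq_zero hp).2 ?_
      rw [← map_natCast (Ideal.Quotient.mk 𝔪), Ideal.Quotient.eq_zero_iff_mem,
        ← map_natCast (algebraMap O (heckeRing m))]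
      exact algebraMap_mem m 𝔪 B.hpO
    rw [← Ideal.Quotient.eq_zero_iff_mem]
    refine pow_eq_zero_iff (pow_ne_zero (Lv.e i) hp.ne_zero) |>.1 ?_
    rw [map_sub, map_one, map_sub, map_one, sub_pow_char_pow, ← map_pow, ← map_pow, delta_pow,
      map_one, map_one, one_pow, sub_self]
  have hle : augIdeal O (ppow p Lv.e) ≤ 𝔪.comap (lam m) := Ideal.span_le.2 (by
    rintro _ ⟨i, rfl⟩
    exact hdel i)
  have := hle (sub_aug_mem (O := O) (N := ppow p Lv.e) c)
  rwa [Ideal.mem_comap, map_sub, AlgHom.commutes] at this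

theorem lam_mem_of_resΛ {c : Lv.Λ} (hc : Lv.resΛ c = 0) : lam m c ∈ 𝔪 := by
  have h1 := lam_sub_aug_mem m 𝔪 c
  have h2 := algebraMap_mem m 𝔪 ((residue_eq_zero_iff _).1 hc)
  simpa using 𝔪.add_mem h1 h2

theorem T_sub_mem (ℓ : GoodPrimeAt Lv) {o : O} (ho : residue O o = B.a ℓ.1) :
    T m ℓ - algebraMap O (heckeRing m) o ∈ 𝔪 := by
  classical
  haveI := Fintype.ofFinite J
  set y : heckeRing m := T m ℓ - algebraMap O (heckeRing m) o
  let f : J → Polynomial Lv.Λ := fun j => (proj m j y).charpoly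
  have hres : ∀ j, ((proj m j y).map Lv.resΛ) =
      ((m j).op ℓ.1).map Lv.resΛ - B.a ℓ.1 • 1 := by
    intro j
    rw [map_sub, AlgHom.commutes, proj_T, Matrix.map_sub _ (map_sub Lv.resΛ),
      Matrix.algebraMap_eq_diagonal, Matrix.diagonal_map (map_zero _)]
    congr 1
    ext a b
    rcases eq_or_ne a b with rfl | hab
    · simp [Level.resΛ, aug, ho]
    · simp [hab]
  have hf : ∀ j, (f j).map Lv.resΛ = Polynomial.X ^ D j := by
    intro j
    rw [← Matrix.charpoly_map, hres]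
    have := (Matrix.isNilpotent_charpoly_sub_pow_of_isNilpotent ((m j).resid ℓ.1 ℓ.2)).eq_zero
    rwa [sub_eq_zero, Fintype.card_fin] at this
  have h0 : Polynomial.aeval y (∏ j, f j) = 0 := eq_zero_of_proj m fun j => by
    let π : heckeRing m →ₐ[Lv.Λ] Matrix (Fin (D j)) (Fin (D j)) Lv.Λ :=
      (Pi.evalAlgHom Lv.Λ (fun j => Matrix (Fin (D j)) (Fin (D j)) Lv.Λ) j).comp (heckeRing m).val
    show π (Polynomial.aeval y (∏ j, f j)) = 0
    rw [← Polynomial.aeval_algHom_apply, ← Finset.prod_erase_mul _ _ (Finset.mem_univ j), map_mul]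
    exact mul_eq_zero_of_right _ (Matrix.aeval_self_charpoly _)
  let q : heckeRing m →+* heckeRing m ⧸ 𝔪 := Ideal.Quotient.mk 𝔪
  have hker : RingHom.ker Lv.resΛ ≤ RingHom.ker (q.comp (lam m).toRingHom) := fun c hc =>
    Ideal.Quotient.eq_zero_iff_mem.2 (lam_mem_of_resΛ m 𝔪 hc)
  have hsurj : Function.Surjective Lv.resΛ := fun x => by
    obtain ⟨o, rfl⟩ := residue_surjective x
    exact ⟨algebraMap O _ o, by simp [Level.resΛ, aug]⟩
  let g : ResidueField O →+* heckeRing m ⧸ 𝔪 :=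
    RingHom.liftOfSurjective Lv.resΛ hsurj ⟨q.comp (lam m).toRingHom, hker⟩
  have hg : g.comp Lv.resΛ = q.comp (lam m).toRingHom :=
    RingHom.liftOfSurjective_comp Lv.resΛ hsurj ⟨q.comp (lam m).toRingHom, hker⟩
  have h1 : Polynomial.eval₂ (q.comp (lam m).toRingHom) (q y) (∏ j, f j) = 0 := by
    rw [← Polynomial.hom_eval₂]
    exact (congrArg q h0).trans (map_zero q)
  rw [← hg, ← Polynomial.eval₂_map, Polynomial.map_prod,
    Finset.prod_congr rfl fun j _ => hf j, Finset.prod_pow_eq_pow_sum, Polynomial.eval₂_X_pow]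
    at h1
  exact Ideal.Quotient.eq_zero_iff_mem.1 (eq_zero_of_pow_eq_zero h1)

/-- Every element is a scalar modulo every maximal ideal. -/
theorem exists_scalar (x : heckeRing m) :
    ∃ o : O, ∀ 𝔫 : Ideal (heckeRing m), 𝔫.IsMaximal → x - algebraMap O _ o ∈ 𝔫 := by
  obtain ⟨x, hx⟩ := x
  induction hx using Algebra.adjoin_induction with
  | mem x hx =>
    obtain ⟨ℓ, rfl⟩ := hx
    obtain ⟨o, ho⟩ := residue_surjective (B.a ℓ.1)
    exact ⟨o, fun 𝔫 h𝔫 => T_sub_mem m 𝔫 ℓ ho⟩
  | algebraMap c => exact ⟨_, fun 𝔫 h𝔫 => lam_sub_aug_mem m 𝔫 c⟩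
  | add a b ha hb iha ihb =>
    obtain ⟨o, ho⟩ := iha
    obtain ⟨o', ho'⟩ := ihb
    refine ⟨o + o', fun 𝔫 h𝔫 => ?_⟩
    have h := 𝔫.add_mem (ho 𝔫 h𝔫) (ho' 𝔫 h𝔫)
    rwa [sub_add_sub_comm, ← map_add] at h
  | mul a b ha hb iha ihb =>
    obtain ⟨o, ho⟩ := iha
    obtain ⟨o', ho'⟩ := ihb
    refine ⟨o * o', fun 𝔫 h𝔫 => ?_⟩
    have h := 𝔫.add_mem (𝔫.mul_mem_right (⟨b, hb⟩ : heckeRing m) (ho 𝔫 h𝔫))
      (𝔫.mul_mem_left (algebraMap O (heckeRing m) o) (ho' 𝔫 h𝔫))
    convert h using 1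
    rw [map_mul]
    show (⟨a, ha⟩ : heckeRing m) * ⟨b, hb⟩ - _ = _
    ring

end Maximal

variable [Nonempty J] [∀ j, NeZero (D j)]

instance nontrivial : Nontrivial (heckeRing m) := by
  haveI := isLocalRing_alg (O := O) (p := p) (e := Lv.e) B.hpO
  refine ⟨⟨0, 1, fun h => ?_⟩⟩
  obtain ⟨j⟩ := ‹Nonempty J›
  have hj := congrFun (congrFun (congrArg (proj m j) h) ⟨0, NeZero.pos (D j)⟩) ⟨0, NeZero.pos (D j)⟩
  simp at hj

instance isLocalRing : IsLocalRing (heckeRing m) := by
  obtain ⟨𝔪, h𝔪⟩ := Ideal.exists_maximal (heckeRing m)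
  refine IsLocalRing.of_unique_max_ideal ⟨𝔪, h𝔪, fun 𝔫 h𝔫 => h𝔫.eq_of_le h𝔪.ne_top fun x hx => ?_⟩
  obtain ⟨o, ho⟩ := exists_scalar m x
  have h1 : algebraMap O (heckeRing m) o ∈ 𝔫 := by simpa using 𝔫.sub_mem hx (ho 𝔫 h𝔫)
  rw [← Ideal.mem_comap, comap_maximal m 𝔫] at h1
  simpa using 𝔪.add_mem (ho 𝔪 h𝔪) (algebraMap_mem m 𝔪 h1)

instance isNoetherianRing : IsNoetherianRing (heckeRing m) :=
  IsNoetherianRing.of_finite O _

instance isLocalHom : IsLocalHom (algebraMap O (heckeRing m)) :=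
  ((IsLocalRing.local_hom_TFAE _).out 0 4).mpr (comap_maximal m _)

instance isAdicComplete : IsAdicComplete (maximalIdeal (heckeRing m)) (heckeRing m) :=
  IsLocalRing.isAdicComplete_of_module_finite (𝒪 := O)

theorem residue_surjective' :
    Function.Surjective (residue (heckeRing m) ∘ algebraMap O (heckeRing m)) := fun z => by
  obtain ⟨x, rfl⟩ := residue_surjective z
  obtain ⟨o, ho⟩ := exists_scalar m x
  refine ⟨o, ?_⟩
  rw [Function.comp_apply, eq_comm, ← sub_eq_zero, ← map_sub, residue_eq_zero_iff]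
  exact ho _ inferInstance

theorem residue_T (ℓ : GoodPrimeAt Lv) :
    residue (heckeRing m) (T m ℓ) = ResidueField.map (algebraMap O (heckeRing m)) (B.a ℓ.1) := by
  obtain ⟨o, ho⟩ := residue_surjective (B.a ℓ.1)
  rw [← ho, ResidueField.map_residue, ← sub_eq_zero, ← map_sub, residue_eq_zero_iff]
  exact T_sub_mem m _ ℓ ho

end heckeRing

end Fermat.Agent.RT.Assembly

end
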