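import Fermat.Agent.RT.Assembly.LevelInput
import Fermat.Agent.RT.LocalQ.Rep
import Fermat.Agent.Density.PlacesConj

/-!
# The conditions at the places from the properties of a representation

* `charpoly_inertia_of_trace`: unipotence of the tame generator passes to all inertia.
* `twisted_pred`: at a twisted place, a non-unipotent inertia gives the root of unity of
  `PointPred`.
-/

set_option autoImplicit false
set_option linter.style.haveILetI false

noncomputable section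

open IsLocalRing Polynomial

namespace Fermat.Agent.RT

open Deformation (Mat IsCont matOf mapRep isCont_matOf)

local notation "Qb" => AlgebraicClosure ℚ
local notation "Γℚ" => (AlgebraicClosure ℚ ≃ₐ[ℚ] AlgebraicClosure ℚ)

theorem charpoly_eq_of_trace_det {V : Type} [CommRing V] [Nontrivial V] {S : Mat V}
    (hd : S.det = 1) (ht : S.trace = 2) : S.charpoly = (X - 1) ^ 2 := by
  rw [Matrix.charpoly_fin_two, hd, ht, map_one, map_ofNat]
  ring

theorem sq_sub_one_eq_zero {V : Type} [CommRing V] [Nontrivial V] {S : Mat V}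
    (hd : S.det = 1) (ht : S.trace = 2) : (S - 1) * (S - 1) = 0 := by
  have h := sq_eq_of_det_eq_one (S := S) hd
  rw [ht] at h
  have e : (2 : V) • S = S + S := two_smul V S
  rw [sub_mul, mul_sub, one_mul, mul_one, h, e]
  abel

theorem pow_of_trace_det {V : Type} [CommRing V] [Nontrivial V] {S : Mat V}
    (hd : S.det = 1) (ht : S.trace = 2) (b : ℕ) : S ^ b = 1 + b • (S - 1) := by
  induction b with
  | zero => simp
  | succ b ih =>
    have e : (S - 1) * S = S - 1 := by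
      have h0 := sq_sub_one_eq_zero hd ht
      rw [mul_sub, mul_one, sub_eq_zero] at h0
      exact h0
    rw [pow_succ, ih, add_mul, one_mul, smul_mul_assoc, e, succ_nsmul]
    abel

variable {V : Type} [CommRing V] [IsLocalRing V] [IsHausdorff (maximalIdeal V) V] {p q : ℕ}

/-- If the tame generator is unipotent, so is all of inertia. -/
theorem TamePair.charpoly_inertia_of_trace (T : TamePair p q) (hp : p.Prime) (hq : q.Prime)
    (hpq : p ≠ q) (hpV : (p : V) ∈ maximalIdeal V) {r : Γℚ →* Mat V} (hr : IsCont r)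
    (htame : IsResTame p T.A r) (hdet : ∀ τ ∈ T.A.inertiaSubgroupIn ℚ, (r τ).det = 1)
    (ht : (r T.σ).trace = 2) {A : ValuationSubring Qb} (hA : A.LiesOverPrime q) {τ : Γℚ}
    (hτ : τ ∈ A.inertiaSubgroupIn ℚ) : (r τ).charpoly = (X - 1) ^ 2 := by
  have hd1 : (r T.σ).det = 1 := hdet _ T.hσ
  have key : ∀ τ ∈ T.A.inertiaSubgroupIn ℚ, (r τ).trace = 2 := by
    intro τ hτ
    refine sub_eq_zero.1 (IsHausdorff.haus' (I := maximalIdeal V) _ fun n => ?_)
    rw [SModEq.zero, smul_eq_mul, Ideal.mul_top, ← Ideal.Quotient.eq_zero_iff_mem]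
    obtain ⟨b, hb, -⟩ := T.exists_pow_inertia hp hq hpq (isTameAt_levelHom hpV hr htame n) 0 hτ
    have h1 := congrArg Units.val hb
    simp only [Units.val_pow_eq_pow_val, val_levelHom] at h1
    rw [← RingHom.mapMatrix_apply, ← RingHom.mapMatrix_apply, ← map_pow, pow_of_trace_det hd1 ht,
      RingHom.mapMatrix_apply, RingHom.mapMatrix_apply] at h1
    have h2 : (1 + b • (r T.σ - 1)).trace = (2 : V) := by
      rw [Matrix.trace_add, Matrix.trace_smul, Matrix.trace_sub, ht, Matrix.trace_one]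
      simp
    have h3 := congrArg Matrix.trace h1
    rw [map_sub, sub_eq_zero]
    refine ((AddMonoidHom.map_trace (Ideal.Quotient.mk (maximalIdeal V ^ n)).toAddMonoidHom
      (r τ)).trans h3).trans ?_
    exact (AddMonoidHom.map_trace (Ideal.Quotient.mk (maximalIdeal V ^ n)).toAddMonoidHom
      (1 + b • (r T.σ - 1))).symm.trans (congrArg _ h2)
  obtain ⟨a, rfl⟩ := Density.exists_smul_eq hq T.hA hA
  set τ' := a⁻¹ * τ * a with hτ'
  have hτ'I : τ' ∈ T.A.inertiaSubgroupIn ℚ := Density.conj_inv_mem_inertiaSubgroupIn hτ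
  let u : (Mat V)ˣ := ⟨r a, r a⁻¹, by rw [← map_mul, mul_inv_cancel, map_one],
    by rw [← map_mul, inv_mul_cancel, map_one]⟩
  have e : r τ = (u : Mat V) * r τ' * ((u⁻¹ : (Mat V)ˣ) : Mat V) := by
    show r τ = r a * r τ' * r a⁻¹
    rw [← map_mul, ← map_mul, hτ']
    group
  rw [e, Matrix.coe_units_inv, Matrix.charpoly_units_conj]
  exact charpoly_eq_of_trace_det (hdet _ hτ'I) (key _ hτ'I)

variable [IsDomain V]

/-- At a twisted place. -/
theorem TamePair.twisted_pred (T : TamePair p q) (hp : p.Prime) (hp2 : p ≠ 2) (hq : q.Prime)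
    (hpq : p ≠ q) (hpV : (p : V) ∈ maximalIdeal V) (hqV : (q : V) ≠ 0) (hq1 : p ∣ q - 1)
    {r : Γℚ →* Mat V} (hr : IsCont r) (htame : IsResTame p T.A r)
    (hdet : ∀ τ ∈ T.A.inertiaSubgroupIn ℚ, (r τ).det = 1) (hF : (r T.F).det = (q : V))
    (hne : ∃ A : ValuationSubring Qb, A.LiesOverPrime q ∧
      ∃ τ ∈ A.inertiaSubgroupIn ℚ, (r τ).charpoly ≠ (X - 1) ^ 2)
    {m : ℕ} (hm : ¬ p ^ (m + 1) ∣ q - 1) {ζ : V} (hζ : IsPrimitiveRoot ζ (p ^ m)) :
    ∃ z : V, z ^ q = z ∧ (∃ k : ℕ, z ^ p ^ k = 1) ∧ z ≠ 1 ∧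
      z * (r T.σ).trace = z * z + 1 := by
  have ht : (r T.σ).trace ≠ 2 := fun h => by
    obtain ⟨A, hA, τ, hτ, hne⟩ := hne
    exact hne (T.charpoly_inertia_of_trace hp hq hpq hpV hr htame hdet h hA hτ)
  obtain ⟨k, hk0, hdvd, -, -, -, -, hz⟩ := exists_order_of_not_unipotent hp hp2 hpV hqV hq1
    hq.one_lt (hdet _ T.hσ) hF (T.adic_relation hp hq hpq hpV hr htame) (htame _ T.hσ) ht
  have hkm : k ≤ m := by
    by_contra hlt
    exact hm ((pow_dvd_pow p (Nat.succ_le_of_lt (Nat.lt_of_not_le hlt))).trans hdvd)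
  have hζk : IsPrimitiveRoot (ζ ^ p ^ (m - k)) (p ^ k) :=
    hζ.pow (pow_pos hp.pos m) (by rw [← pow_add, Nat.sub_add_cancel hkm])
  obtain ⟨e, he, hpe, htr⟩ := hz _ hζk
  set z := (ζ ^ p ^ (m - k)) ^ e with hzdef
  have hzk : z ^ p ^ k = 1 := by rw [hzdef, pow_right_comm, hζk.pow_eq_one, one_pow]
  refine ⟨z, ?_, ⟨k, hzk⟩, fun h1 => ?_, ?_⟩
  · obtain ⟨d, hd⟩ := hdvd
    conv_lhs => rw [show q = p ^ k * d + 1 by have := hq.two_le; omega]
    rw [pow_succ, pow_mul, hzk, one_pow, one_mul]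
  · exact hpe ((dvd_pow_self p hk0.ne').trans (hζk.dvd_of_pow_eq_one e h1))
  · rw [htr, hzdef, mul_add, ← pow_add, ← pow_add, Nat.add_sub_cancel' he.le, hζk.pow_eq_one]

end Fermat.Agent.RT

end
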