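import Fermat.Agent.RT.Assembly.HeckeRep
import Fermat.Agent.RT.Assembly.PointPreds
import Fermat.Agent.RT.LocalQ.Diag

/-!
# The properties at the places of a specialisation of a universal representation (PATCH part 6)

For a specialisation with the characteristic polynomials of the representation of an eigensystem:
the conditions at the places of `M₀`, and the value of the diagonal character at the tame generator
of an auxiliary prime.
-/

set_option autoImplicit false
set_option linter.style.haveILetI false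

noncomputable section

open IsLocalRing Polynomial

namespace Fermat.Agent.RT.Assembly

open Deformation (Mat IsCont matOf mapRep matOf_apply isCont_matOf)
open Diamond

local notation "ℚ̄" => AlgebraicClosure ℚ
local notation "Γℚ" => (AlgebraicClosure ℚ ≃ₐ[ℚ] AlgebraicClosure ℚ)

theorem matrix_charpoly_matOf {A : Type} [CommRing A] [IsLocalRing A] (ρ : GaloisRepAdic A)
    (b : Module.Basis (Fin 2) A ρ.V) (τ : Γℚ) :
    (matOf ρ.ρ b τ).charpoly = LinearMap.charpoly (ρ.ρ τ) := by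
  rw [matOf_apply, LinearMap.charpoly_toMatrix]

theorem trace_of_charpoly {V : Type} [CommRing V] [Nontrivial V] {M : Mat V} {t d : V}
    (h : M.charpoly = X ^ 2 - C t * X + C d) : M.trace = t := by
  have h1 := congrArg (fun P : V[X] => P.coeff 1) h
  simp [Matrix.charpoly_fin_two, coeff_X_pow] at h1
  linear_combination h1

theorem matrix_eq_of_charpoly_eq {V : Type} [CommRing V] [Nontrivial V] {M N : Mat V}
    (h : M.charpoly = N.charpoly) : M.trace = N.trace ∧ M.det = N.det := by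
  refine ⟨?_, ?_⟩
  · rw [Matrix.trace_eq_neg_charpoly_coeff, Matrix.trace_eq_neg_charpoly_coeff, h]
  · rw [Matrix.det_eq_sign_charpoly_coeff, Matrix.det_eq_sign_charpoly_coeff, h]

theorem eq_one_of_pow_eq_one {A : Type} [CommRing A] [IsLocalRing A] {x : A} {k : ℕ}
    (hx : residue A x = 1) (hk : (k : ResidueField A) ≠ 0) (h : x ^ k = 1) : x = 1 := by
  have hu : IsUnit (∑ i ∈ Finset.range k, x ^ i) := notMem_maximalIdeal.1 fun hm => hk (by
    have := (residue_eq_zero_iff _).2 hm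
    simpa [map_sum, map_pow, hx] using this)
  refine sub_eq_zero.1 (hu.mul_right_eq_zero.1 ?_)
  rw [geom_sum_mul, h, sub_self]

variable {O : Type} [CommRing O] [IsDomain O] [IsDiscreteValuationRing O]
  [IsAdicComplete (maximalIdeal O) O] [Finite (ResidueField O)] [CharZero O]
  {p : ℕ} [Fact p.Prime] {B : Base O p} {m s : ℕ}

theorem Frames.place (F : Frames B m s) (j : Fin s) :
    (F.FP.setup.n j).Prime ∧ F.FP.setup.n j ≠ p ∧ F.FP.setup.n j ∣ B.M₀ :=
  (F.cover _).2 ⟨j, rfl⟩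

/-- The residual representation is unramified at good primes. -/
theorem ρbar_inertia (hbar : levelCond B ∅ (GaloisRepAdic.ofResidualGaloisRep B.ρbar)) {q : ℕ}
    (hq : q.Prime) (hqp : q ≠ p) (hqM : ¬ q ∣ B.M₀) {A : ValuationSubring ℚ̄}
    (hA : A.LiesOverPrime q) {τ : Γℚ} (hτ : τ ∈ A.inertiaSubgroupIn ℚ) : B.ρbar.ρ τ = 1 :=
  hbar.2.2.2 q hq hqp hqM (Finset.notMem_empty q) A hA τ hτ

/-- Residual powers pass to representations with the residual representation of the base. -/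
theorem residual_pow_eq_one {A : Type} [CommRing A] [IsLocalRing A] [Algebra O A]
    [IsLocalHom (algebraMap O A)] (ρ : GaloisRepAdic A)
    (h : ρ.residual.IsEquiv (B.ρbar.baseChangeAlong (ResidueField.map (algebraMap O A))))
    {τ : Γℚ} {k : ℕ} (hk : B.ρbar.ρ τ ^ k = 1) : ρ.residual.ρ τ ^ k = 1 :=
  pow_eq_one_of_isEquiv h (pow_eq_one_of_baseChangeAlong _ _ hk)

theorem Frames.isResTame (F : Frames B m s) {A : Type} [CommRing A] [IsLocalRing A] [Algebra O A]
    [IsLocalHom (algebraMap O A)] (ρ : GaloisRepAdic A)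
    (h : ρ.residual.IsEquiv (B.ρbar.baseChangeAlong (ResidueField.map (algebraMap O A))))
    (j : Fin s) :
    ∀ τ ∈ (F.T j).A.inertiaSubgroupIn ℚ, ∃ i : ℕ, ρ.residual.ρ τ ^ p ^ i = 1 := fun τ hτ =>
  let ⟨i, hi⟩ := F.resTame j τ hτ
  ⟨i, residual_pow_eq_one ρ h hi⟩

variable {r n : ℕ} {Lv : Level B r n}

theorem Level.qv_good (i : Fin r) : (Lv.qv i : ℕ) ≠ p ∧ ¬ (Lv.qv i : ℕ) ∣ B.M₀ :=
  ⟨fun h => Lv.not_mem i (by rw [h]; exact B.p_mem),
    fun h => Lv.not_mem i (B.level_mem _ (Lv.qv i).2 (h.mul_right _))⟩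

variable {Dd : GaloisRep.DeformationRingData O B.ρbar
    (levelCond B (Finset.univ.image fun i => (Lv.qv i : ℕ)))}
  {b : Module.Basis (Fin 2) Dd.R Dd.ρ.V}

/-- At a place with residual Frobenius `(n β, β)` and `n² ≢ 1`, the sign of the trace of a point
new there is the residual one. -/
theorem trace_special (F : Frames B m s) {V : Type} [CommRing V] [IsDomain V]
    [IsLocalRing V] [Algebra O V] [IsLocalHom (algebraMap O V)] (g : Dd.R →ₐ[O] V)
    (hg : IsLocalHom (g : Dd.R →+* V))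
    (hres : residueMat Dd b = mapRep (ResidueField.map (algebraMap O Dd.R))
      (matOf B.ρbar.ρ B.bbar))
    {χ' : MulChar (ZMod B.N₀) O} {ξ : Lv.Λ →ₐ[O] V} {c : Nat.Primes → V}
    {ρV : GaloisRepAdic V} (hρ : IsLevelPoint Lv χ' ξ c ρV)
    (hch : ∀ τ, LinearMap.charpoly (ρV.ρ τ) =
      (LinearMap.charpoly (Dd.ρ.ρ τ)).map (g : Dd.R →+* V))
    {j : Fin s} (hnt : ¬ NontrivialAt χ' (F.FP.setup.n j)) {β : O}
    (hcen : ((F.FP.setup.kind j).centre (F.FP.setup.n j)).1 =
      !![(F.FP.setup.n j : O) * β, 0; 0, β])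
    (hβ : β * β = 1)
    (hu : IsUnit ((F.FP.setup.n j : O) * (F.FP.setup.n j : O) - 1)) :
    ((matOf Dd.ρ.ρ b (F.T j).F).map (g : Dd.R →+* V)).trace =
      algebraMap O V β * ((F.FP.setup.n j : V) + 1) := by
  obtain ⟨hq, hqp, hqM⟩ := F.place j
  set q := F.FP.setup.n j with hqdef
  set t := ((matOf Dd.ρ.ρ b (F.T j).F).map (g : Dd.R →+* V)).trace with htdef
  have hM : ((matOf Dd.ρ.ρ b (F.T j).F).map (g : Dd.R →+* V)).charpoly =
      LinearMap.charpoly (ρV.ρ (F.T j).F) := by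
    rw [Matrix.charpoly_map, matrix_charpoly_matOf, hch]
  have ht : t = (q : V) + 1 ∨ t = -((q : V) + 1) := by
    rcases hρ.steinberg _ hq hqp hqM hnt (F.T j).A (F.T j).hA _ (F.T j).hF with h | h
    · exact Or.inl (trace_of_charpoly (hM.trans h))
    · refine Or.inr (trace_of_charpoly (hM.trans (h.trans
        (show _ = X ^ 2 - C (-((q : V) + 1)) * X + C (q : V) by rw [map_neg]; ring))))
  -- the residual trace
  have hl0 : (F.FP.lift0 j 0).trace = β * ((q : O) + 1) := by
    rw [FramePlaces.lift0, if_pos rfl, ← mul_assoc, Matrix.trace_units_conj', hcen,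
      Matrix.trace_fin_two_of]
    ring
  have hmem : t - algebraMap O V β * ((q : V) + 1) ∈ maximalIdeal V := by
    have h : (matOf Dd.ρ.ρ b (F.T j).F).trace - algebraMap O Dd.R ((F.FP.lift0 j 0).trace) ∈
        maximalIdeal Dd.R := by
      rw [← residue_eq_zero_iff, map_sub, sub_eq_zero, ← ResidueField.map_residue (algebraMap O Dd.R)]
      have e1 : (matOf Dd.ρ.ρ b (F.T j).F).map (residue Dd.R) = ((F.FP.lift0 j 0).map (residue O)).map
          (ResidueField.map (algebraMap O Dd.R)) := by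
        rw [F.lift0_residual, F.el_zero]
        exact DFunLike.congr_fun hres (F.T j).F
      refine (AddMonoidHom.map_trace (residue Dd.R).toAddMonoidHom _).trans ((congrArg Matrix.trace e1).trans ?_)
      refine (AddMonoidHom.map_trace (ResidueField.map (algebraMap O Dd.R)).toAddMonoidHom _).symm.trans ?_
      show ResidueField.map (algebraMap O Dd.R) ((F.FP.lift0 j 0).map (residue O)).trace = _
      rw [show residue O (F.FP.lift0 j 0).trace = ((F.FP.lift0 j 0).map (residue O)).trace from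
        AddMonoidHom.map_trace (residue O).toAddMonoidHom _]
    have h' := map_nonunit (g : Dd.R →+* V) _ h
    rw [map_sub] at h'
    have e2 : (g : Dd.R →+* V) (algebraMap O Dd.R (F.FP.lift0 j 0).trace) =
        algebraMap O V β * ((q : V) + 1) := by
      rw [show (g : Dd.R →+* V) (algebraMap O Dd.R _) = g (algebraMap O Dd.R _) from rfl,
        g.commutes, hl0, map_mul, map_add, map_natCast, map_one]
    rw [e2] at h'
    rw [← show (g : Dd.R →+* V) (matOf Dd.ρ.ρ b (F.T j).F).trace = t from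
      AddMonoidHom.map_trace (g : Dd.R →+* V).toAddMonoidHom _]
    exact h'
  -- the sign
  have hq1 : IsUnit ((q : V) + 1) := by
    have h := hu.map (algebraMap O V)
    rw [map_sub, map_mul, map_one, map_natCast,
      show (q : V) * (q : V) - 1 = ((q : V) + 1) * ((q : V) - 1) by ring] at h
    exact (IsUnit.mul_iff.1 h).1
  have h2 : IsUnit (2 : V) := by
    by_contra h
    obtain ⟨k, hk⟩ := (Fact.out : p.Prime).odd_of_ne_two B.hp2
    have h1 := sub_mem (show (p : V) ∈ maximalIdeal V by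
        simpa using map_nonunit (algebraMap O V) _ B.hpO)
      (Ideal.mul_mem_right (k : V) _ (show (2 : V) ∈ maximalIdeal V from h))
    rw [hk, Nat.cast_add, Nat.cast_mul, Nat.cast_ofNat, Nat.cast_one, add_sub_cancel_left] at h1
    exact (maximalIdeal.isMaximal V).ne_top ((Ideal.eq_top_iff_one _).2 h1)
  have hβV : algebraMap O V β * algebraMap O V β = 1 := by rw [← map_mul, hβ, map_one]
  rcases mul_self_eq_one_iff.1 hβV with hb | hb <;> rcases ht with ht | ht <;> rw [ht, hb] at hmem ⊢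
  · rw [one_mul]
  · exfalso
    refine notMem_maximalIdeal.2 (h2.mul hq1).neg ?_
    rw [show -(2 * ((q : V) + 1)) = -((q : V) + 1) - 1 * ((q : V) + 1) by ring]
    exact hmem
  · exfalso
    refine notMem_maximalIdeal.2 (h2.mul hq1) ?_
    rw [show 2 * ((q : V) + 1) = ((q : V) + 1) - (-1) * ((q : V) + 1) by ring]
    exact hmem
  · rw [neg_one_mul]

/-- The conditions at the places of `M₀` of a point of the twisted component. -/
theorem pointPred_of_isLevelPoint (F : Frames B m s) {V : Type} [CommRing V] [IsDomain V]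
    [IsLocalRing V] [IsHausdorff (maximalIdeal V) V] [CharZero V] [Algebra O V]
    [IsLocalHom (algebraMap O V)] (g : Dd.R →ₐ[O] V) (hg : IsLocalHom (g : Dd.R →+* V))
    (hres : residueMat Dd b = mapRep (ResidueField.map (algebraMap O Dd.R))
      (matOf B.ρbar.ρ B.bbar))
    {ξ : Lv.Λ →ₐ[O] V} {c : Nat.Primes → V}
    {ρV : GaloisRepAdic V} (hρ : IsLevelPoint Lv B.χ ξ c ρV)
    (hch : ∀ τ, LinearMap.charpoly (ρV.ρ τ) =
      (LinearMap.charpoly (Dd.ρ.ρ τ)).map (g : Dd.R →+* V))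
    (hm : ∀ j, (F.FP.setup.kind j).isTwisted = true → ¬ p ^ (m + 1) ∣ F.FP.setup.n j - 1)
    {ζ : V} (hζ : IsPrimitiveRoot ζ (p ^ m)) :
    PointPred F.FP ((g : Dd.R →+* V).comp (algebraMap O Dd.R))
      fun τ => (matOf Dd.ρ.ρ b τ).map (g : Dd.R →+* V) := by
  intro j
  obtain ⟨hq, hqp, hqM⟩ := F.place j
  have hp : p.Prime := Fact.out
  have bV : Module.Basis (Fin 2) V ρV.V := Module.finBasisOfFinrankEq V ρV.V ρV.finrank_eq
  have hpV : (p : V) ∈ maximalIdeal V := by simpa using map_nonunit (algebraMap O V) _ B.hpO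
  have key : ∀ τ, (matOf ρV.ρ bV τ).trace = ((matOf Dd.ρ.ρ b τ).map (g : Dd.R →+* V)).trace ∧
      (matOf ρV.ρ bV τ).det = ((matOf Dd.ρ.ρ b τ).map (g : Dd.R →+* V)).det := fun τ =>
    matrix_eq_of_charpoly_eq (by
      rw [matrix_charpoly_matOf, hch, Matrix.charpoly_map, matrix_charpoly_matOf])
  have htV := F.isResTame ρV hρ.residual_isEquiv j
  obtain ⟨h1, h2, h3⟩ := (F.T j).matOf_relations hp hq hqp.symm Dd.ρ Dd.isOfType.1 b
    (F.isResTame Dd.ρ Dd.residual_isEquiv j)
  simp only [F.el_zero, F.el_one]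
  refine ⟨?_, ?_, ?_, fun ht => ?_, fun ht => ?_, fun β hβ => ?_⟩
  · simp only [← RingHom.mapMatrix_apply]
    rw [← map_mul, h1, map_mul, map_pow]
  · rw [← RingHom.mapMatrix_apply, ← RingHom.map_det, h2, map_natCast]
  · rw [← RingHom.mapMatrix_apply, ← RingHom.map_det, h3, map_one]
  · rw [← (key _).1]
    obtain ⟨hrel, hdF, -⟩ := (F.T j).matOf_relations hp hq hqp.symm ρV hρ.det bV htV
    have hN : F.FP.setup.n j ∣ B.N₀ := (F.twisted_iff j).1 ht
    obtain ⟨σ, hσ, hne⟩ := hρ.twisted _ hq hN (B.χ_nontrivial _ hq hN) (F.T j).A (F.T j).hA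
    exact (F.T j).twisted_pred hp B.hp2 hq hqp.symm hpV (Nat.cast_ne_zero.2 hq.ne_zero)
      (F.FP.setup.twisted j ht).2.2 (isCont_matOf ρV bV) (isResTame_matOf ρV bV htV)
      (fun τ hτ => by
        rw [matOf_apply, LinearMap.det_toMatrix]
        exact det_eq_one_of_mem_inertia hρ.det hp hq hqp.symm (F.T j).hA hτ)
      hdF ⟨(F.T j).A, (F.T j).hA, σ, hσ, by rwa [matrix_charpoly_matOf]⟩ (hm j ht) hζ
  · rw [← (key _).1]
    exact (F.T j).trace_eq_two ρV bV (hρ.unipotent _ hq hqp hqM fun hnt => by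
      rw [(F.twisted_iff j).2 hnt.1] at ht
      exact Bool.noConfusion ht)
  · obtain ⟨hβ1, -, hu⟩ := F.FP.setup.special j β hβ
    have hcen : ((F.FP.setup.kind j).centre (F.FP.setup.n j)).1 =
        !![(F.FP.setup.n j : O) * β, 0; 0, β] := by rw [hβ]; rfl
    have hnt : ¬ NontrivialAt B.χ (F.FP.setup.n j) := fun hnt => by
      have ht := (F.twisted_iff j).2 hnt.1
      rw [hβ] at ht
      exact Bool.noConfusion ht
    rw [trace_special F g hg hres hρ hch hnt hcen hβ1 hu, RingHom.comp_apply]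
    congr 1
    exact (g.commutes β).symm

/-- A point of the untwisted component is new at a twisted place. -/
theorem steinbergPred_of_isLevelPoint (F : Frames B m s) (j₀ : Fin s) {V : Type} [CommRing V]
    [IsLocalRing V] [Algebra O V] [IsLocalHom (algebraMap O V)] (g : Dd.R →ₐ[O] V)
    {ξ : Lv.Λ →ₐ[O] V} {c : Nat.Primes → V}
    {ρV : GaloisRepAdic V} (hρ : IsLevelPoint Lv 1 ξ c ρV)
    (hch : ∀ τ, LinearMap.charpoly (ρV.ρ τ) =
      (LinearMap.charpoly (Dd.ρ.ρ τ)).map (g : Dd.R →+* V)) :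
    SteinbergPred F.FP j₀ fun τ => (matOf Dd.ρ.ρ b τ).map (g : Dd.R →+* V) := by
  obtain ⟨hq, hqp, hqM⟩ := F.place j₀
  show ((matOf Dd.ρ.ρ b (F.FP.el j₀ 0)).map (g : Dd.R →+* V)).trace ^ 2 = _
  rw [F.el_zero]
  have hnt : ¬ NontrivialAt (1 : MulChar (ZMod B.N₀) O) (F.FP.setup.n j₀) :=
    fun ⟨_, u, _, hu⟩ => hu (MulChar.one_apply_coe u)
  have hM : ((matOf Dd.ρ.ρ b (F.T j₀).F).map (g : Dd.R →+* V)).charpoly =
      LinearMap.charpoly (ρV.ρ (F.T j₀).F) := by
    rw [Matrix.charpoly_map, matrix_charpoly_matOf, hch]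
  rcases hρ.steinberg _ hq hqp hqM hnt (F.T j₀).A (F.T j₀).hA _ (F.T j₀).hF with h | h
  · rw [trace_of_charpoly (hM.trans h)]
  · rw [trace_of_charpoly (hM.trans (h.trans (show _ = X ^ 2 -
      C (-((F.FP.setup.n j₀ : V) + 1)) * X + C (F.FP.setup.n j₀ : V) by rw [map_neg]; ring)))]
    ring

/-- At an auxiliary prime: a tame pair and the diagonal character at its generator. -/
theorem exists_auxElement (hbar : levelCond B ∅ (GaloisRepAdic.ofResidualGaloisRep B.ρbar))
    (hres : residueMat Dd b = mapRep (ResidueField.map (algebraMap O Dd.R))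
      (matOf B.ρbar.ρ B.bbar)) (i : Fin r) :
    ∃ (T : TamePair p (Lv.qv i)) (a a' : Dd.R), a ^ p ^ Lv.e i = 1 ∧
      (matOf Dd.ρ.ρ b T.σ).trace = a + a' ∧ a * a' = 1 := by
  have hp : p.Prime := Fact.out
  obtain ⟨hqp, hqM⟩ := Lv.qv_good i
  have hq := (Lv.qv i).2
  obtain ⟨A, -, hA, -⟩ := Galois.exists_valuationSubring_isFrobeniusAt hq
  obtain ⟨T, rfl⟩ := exists_tamePair hp hq hqp.symm A hA
  let ι := ResidueField.map (algebraMap O Dd.R)
  have hmat : ∀ τ, (matOf Dd.ρ.ρ b τ).map (residue Dd.R) = (matOf B.ρbar.ρ B.bbar τ).map ι :=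
    fun τ => DFunLike.congr_fun hres τ
  have hI : ∀ τ ∈ T.A.inertiaSubgroupIn ℚ, (matOf Dd.ρ.ρ b τ).map (residue Dd.R) = 1 := by
    intro τ hτ
    rw [hmat, (matOf_eq_one_iff B.ρbar.ρ B.bbar τ).2 (ρbar_inertia hbar hq hqp hqM T.hA hτ),
      Matrix.map_one _ (map_zero _) (map_one _)]
  have hdvd : p ∣ (Lv.qv i : ℕ) - 1 := (dvd_pow_self p (Lv.pos_e i).ne').trans (Lv.dvd_sub i)
  have hpR : (p : Dd.R) ∈ maximalIdeal Dd.R := by simpa using map_nonunit (algebraMap O Dd.R) _ B.hpO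
  have hcp : (matOf B.ρbar.ρ B.bbar T.F).charpoly =
      X ^ 2 - C (B.a (Lv.qv i)) * X + C ((Lv.qv i : ℕ) : ResidueField O) := by
    rw [matOf_apply, LinearMap.charpoly_toMatrix,
      B.charpoly_frob _ hq (Lv.not_mem i) T.A T.hA T.F T.hF]
    rfl
  have hqk : ((Lv.qv i : ℕ) : ResidueField O) = 1 := by
    obtain ⟨d, hd⟩ := hdvd
    rw [show (Lv.qv i : ℕ) = p * d + 1 by have := hq.two_le; omega, Nat.cast_add, Nat.cast_mul,
      ← map_natCast (residue O) p, (residue_eq_zero_iff _).2 B.hpO, zero_mul, zero_add,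
      Nat.cast_one]
  have hdet0 : (matOf B.ρbar.ρ B.bbar T.F).det = 1 := by
    rw [Matrix.det_eq_sign_charpoly_coeff, hcp]
    simp [hqk, coeff_X_pow, coeff_one]
  have hα0 : Lv.α i ≠ 0 := fun h => one_ne_zero (α := ResidueField O) (by
    simpa [h] using Lv.root i)
  have htrR : ι (Lv.α i) + ι (Lv.α i)⁻¹ = residue Dd.R (matOf Dd.ρ.ρ b T.F).trace := by
    rw [← map_add, show residue Dd.R (matOf Dd.ρ.ρ b T.F).trace =
      ((matOf Dd.ρ.ρ b T.F).map (residue Dd.R)).trace from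
      AddMonoidHom.map_trace (residue Dd.R).toAddMonoidHom _, hmat]
    refine (congrArg ι ?_).trans (AddMonoidHom.map_trace ι.toAddMonoidHom _)
    rw [trace_of_charpoly hcp]
    field_simp
    linear_combination Lv.root i
  have hdR : ι (Lv.α i) * ι (Lv.α i)⁻¹ = residue Dd.R (matOf Dd.ρ.ρ b T.F).det := by
    rw [← map_mul, mul_inv_cancel₀ hα0, RingHom.map_det, RingHom.mapMatrix_apply, hmat,
      ← RingHom.mapMatrix_apply, ← RingHom.map_det, hdet0]
  obtain ⟨u, χ₁, χ₂, hdiag, -, -, hσ⟩ := T.exists_diagonal hp hq hqp.symm hdvd hpR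
    (isCont_matOf Dd.ρ b) hI
    (fun h => Lv.distinct i (by nth_rw 2 [ι.injective h]; exact mul_inv_cancel₀ hα0)) htrR hdR
  let σ' : T.A.decompositionSubgroup ℚ :=
    ⟨T.σ, EC.Mult.mem_decompositionSubgroup_of_mem_inertia T.hσ⟩
  obtain ⟨hpow, -, hres1, -⟩ := hσ σ' rfl
  refine ⟨T, χ₁ σ', χ₂ σ', ?_, ?_, ?_⟩
  · obtain ⟨k, hk⟩ := Lv.dvd_sub i
    refine eq_one_of_pow_eq_one (k := k) (by rw [map_pow, hres1, one_pow]) (fun h0 => ?_) ?_
    · have hchar : CharP (ResidueField Dd.R) p := (CharP.charP_iff_prime_eq_zero hp).2 (by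
        rw [← map_natCast (residue Dd.R), residue_eq_zero_iff]; exact hpR)
      obtain ⟨d, hd⟩ := (CharP.cast_eq_zero_iff (ResidueField Dd.R) p k).1 h0
      exact Lv.e_max i ⟨d, by rw [hk, hd, pow_succ, mul_assoc]⟩
    · rw [← pow_mul, ← hk, ← Units.val_pow_eq_pow_val, hpow, Units.val_one]
  · rw [← Matrix.trace_units_conj' u, hdiag σ', Matrix.trace_diagonal, Fin.sum_univ_two]
    rfl
  · have h := congrArg Matrix.det (hdiag σ')
    rw [Matrix.det_units_conj', Matrix.det_diagonal, Fin.prod_univ_two, matOf_apply,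
      LinearMap.det_toMatrix] at h
    exact h.symm.trans (det_eq_one_of_mem_inertia Dd.isOfType.1 hp hq hqp.symm T.hA T.hσ)

/-- The diagonal character at a point: trivial exactly with the diamond operator. -/
theorem aux_point {V : Type} [CommRing V] [IsDomain V] [IsLocalRing V]
    [IsHausdorff (maximalIdeal V) V] [Algebra O V] [IsLocalHom (algebraMap O V)]
    (hbar : levelCond B ∅ (GaloisRepAdic.ofResidualGaloisRep B.ρbar))
    (g : Dd.R →ₐ[O] V) {χ' : MulChar (ZMod B.N₀) O} {ξ : Lv.Λ →ₐ[O] V} {c : Nat.Primes → V}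
    {ρV : GaloisRepAdic V} (hρ : IsLevelPoint Lv χ' ξ c ρV)
    (hch : ∀ τ, LinearMap.charpoly (ρV.ρ τ) =
      (LinearMap.charpoly (Dd.ρ.ρ τ)).map (g : Dd.R →+* V))
    {i : Fin r} (T : TamePair p (Lv.qv i)) {a a' : Dd.R}
    (ht : (matOf Dd.ρ.ρ b T.σ).trace = a + a') (hd : a * a' = 1) :
    ξ (delta O (N := ppow p Lv.e) i) = 1 ↔ g a = 1 := by
  have hp : p.Prime := Fact.out
  obtain ⟨hqp, hqM⟩ := Lv.qv_good i
  have hq := (Lv.qv i).2
  have bV : Module.Basis (Fin 2) V ρV.V := Module.finBasisOfFinrankEq V ρV.V ρV.finrank_eq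
  have htrV : (matOf ρV.ρ bV T.σ).trace = g a + g a' := by
    rw [(matrix_eq_of_charpoly_eq (show (matOf ρV.ρ bV T.σ).charpoly =
      ((matOf Dd.ρ.ρ b T.σ).map (g : Dd.R →+* V)).charpoly by
        rw [matrix_charpoly_matOf, hch, Matrix.charpoly_map, matrix_charpoly_matOf])).1,
      ← map_add, ← ht]
    exact (AddMonoidHom.map_trace (g : Dd.R →+* V).toAddMonoidHom _).symm
  have hga : g a * g a' = 1 := by rw [← map_mul, hd, map_one]
  constructor
  · intro h
    have h2 := T.trace_eq_two ρV bV (hρ.aux_trivial i h)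
    rw [htrV] at h2
    exact sub_eq_zero.1 (pow_eq_zero_iff two_ne_zero |>.1
      (show (g a - 1) ^ 2 = 0 by linear_combination (g a) * h2 - hga))
  · intro h
    by_contra hne
    rw [h, one_mul] at hga
    obtain ⟨σ, hσ, hσne⟩ := hρ.aux_nontrivial i hne T.A T.hA
    refine hσne ?_
    rw [← matrix_charpoly_matOf ρV bV]
    refine T.charpoly_inertia_of_trace hp hq hqp.symm
      (by simpa using map_nonunit (algebraMap O V) _ B.hpO) (isCont_matOf ρV bV)
      (isResTame_matOf ρV bV fun τ hτ => ⟨0, residual_pow_eq_one ρV hρ.residual_isEquiv (by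
        rw [ρbar_inertia hbar hq hqp hqM T.hA hτ, one_pow])⟩) (fun τ hτ => ?_) ?_ T.hA hσ
    · rw [matOf_apply, LinearMap.det_toMatrix]
      exact det_eq_one_of_mem_inertia hρ.det hp hq hqp.symm T.hA hτ
    · rw [htrV, h, hga, one_add_one_eq_two]

end Fermat.Agent.RT.Assembly

end
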